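import Fermat.Agent.HM.Gal.Local

/-!
# Quadratic relations on parabolic homomorphisms pushed to the localised Hecke module
-/

set_option autoImplicit false

noncomputable section

open scoped MatrixGroups
open CongruenceSubgroup ModularCurve.Period MvPolynomial
open FermatAgent.ES (GQ)

namespace FermatAgent.HM

variable (p : ℕ) [hp : Fact p.Prime] (O : Type) [CommRing O] [Algebra ℤ_[p] O] [IsAddTorsionFree O]
variable {Δ : Type} [CommGroup Δ] [Finite Δ] {N L M : ℕ} [NeZero M] [NeZero N]
variable {δ : (ZMod N)ˣ →* Δ} {hNM : N ∣ M} {ι : Type} {pr : ι → HPrime L}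
variable (hδ : Function.Surjective δ) (hneg : δ (-1) = 1)
variable (𝔪 : Ideal (MvPolynomial ι (MonoidAlgebra O Δ))) [𝔪.IsPrime]
variable (hloc : IsLocalizedModule 𝔪.primeCompl (parToLoc O δ hNM pr hδ 𝔪))

/-- `(G - 1)(G - ⟨d⟩) = 0` on the parabolic homomorphisms gives the same on the localised module. -/
theorem galLoc_quadratic {g : GQ} (hcyc : ES.padCyclo p g = 1) {ε : Gamma0 M}
    (hε : gammaClass δ hNM ε = (δ (cycloN N g))⁻¹)
    (h : (galParLin p hneg g - 1) * (galParLin p hneg g - conjParLin ε) =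
      (0 : Module.End ℤ_[p] (parabolicHoms ℤ_[p] (gammaH δ hNM) ℤ_[p]))) :
    (galLoc p O hδ hneg 𝔪 hloc g - 1) *
      (galLoc p O hδ hneg 𝔪 hloc g -
        algebraMap (MvPolynomial ι (MonoidAlgebra O Δ)) _ (C (detChar p O δ g))) = 0 := by
  have hcl : gammaClass δ hNM ε =
      gammaClass δ hNM (classRep (hNM := hNM) hδ (δ (cycloN N g))) := by
    rw [hε, gammaClass_classRep]
  set E := extPar (gammaH δ hNM) ℤ_[p] O
  have h1 : (galParO p hneg O g - 1) * (galParO p hneg O g - conjParLin ε) =
      (0 : Module.End O (parabolicHoms O (gammaH δ hNM) O)) := by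
    have h0 := congrArg E h
    rw [map_zero] at h0
    refine Eq.trans ?_ h0
    refine Eq.trans ?_ (RingHom.map_mul E _ _).symm
    have hs : ∀ x y, E (x - y) = E x - E y := fun x y =>
      LinearMap.ext fun v => eq_sub_of_add_eq (G := parabolicHoms O (gammaH δ hNM) O)
        (LinearMap.congr_fun ((RingHom.map_add E _ _).symm.trans
          (congrArg E (sub_add_cancel x y))) v)
    refine congrArg₂ (· * ·) ?_ ?_
    · rw [hs, RingHom.map_one E]; rfl
    · rw [hs, extPar_conjParLin]; rfl
  have h2 : (galParAlg (hNM := hNM) (pr := pr) p O hδ hneg g - 1) *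
      (galParAlg p O hδ hneg g - detParAlg p O hδ g) = 0 := Subtype.ext (by
    refine Eq.trans ?_ h1
    show (galParO p hneg O g - 1) * (galParO p hneg O g -
      algebraMap ℤ_[p] O (ES.padCyclo p g) •
        (conjParLin (classRep hδ (δ (cycloN N g))) : Module.End O _)) = _
    rw [hcyc, map_one, one_smul, conjParLin_congr hcl])
  have key : ∀ {A B : Type} [Ring A] [Ring B] (F : A →+* B) (a d : A) (e : B), F d = e →
      (a - 1) * (a - d) = 0 → (F a - 1) * (F a - e) = 0 := fun F a d e hde had => by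
    have h4 := congrArg F had
    rwa [map_mul, map_sub, map_sub, map_one, map_zero, hde] at h4
  refine key ((parLocEnd hδ 𝔪 hloc).comp parAlgHom) _ _ _ ?_ h2
  show parLocEnd hδ 𝔪 hloc (parAlgHom (detParAlg p O hδ g)) = _
  rw [parAlgHom_detParAlg, parLocEnd_algebraMap]

end FermatAgent.HM
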