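import Fermat.Agent.BAD.GalMat
import Fermat.Agent.BAD.Diamond.Transfer
import Fermat.Agent.ES.Tate.Unramified

/-!
# Parabolic characters of `Γ_H` and inertia outside the diamond conductor

Parabolic characters of `Γ_H` trivial at level `2` or `3` are trivial, and inertia at a prime
outside `N` has trivial cyclotomic value modulo `N`.
-/

set_option autoImplicit false

noncomputable section

open scoped MatrixGroups
open CongruenceSubgroup ModularCurve.Period
open FermatAgent.ES (GQ IsParChar)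

namespace FermatAgent.BAD

open FermatAgent.HM

section Char

variable {Δ : Type*} [CommGroup Δ] {N M : ℕ} [NeZero M]
variable {δ : (ZMod N)ˣ →* Δ} {hNM : N ∣ M}

section

omit [NeZero M]

theorem lowU_mem_gammaH {c : ℤ} (hc : (c : ZMod M) = 0) : lowU c ∈ gammaH δ hNM := by
  refine (mem_gammaH_iff δ hNM).mpr ⟨lowU_mem_Gamma0 hc, ?_⟩
  refine (congrArg δ (Units.ext ?_)).trans (map_one δ)
  rw [coe_lowerRightUnit]
  simp [lowU]

/-- Parabolic characters of `Γ_H` trivial at level `2` or `3` are trivial. -/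
theorem parChar_eq_one_gammaH (hneg : δ (-1) = 1) {m : ℕ} (hm : m = 2 ∨ m = 3)
    (χ : gammaH δ hNM →* ℂˣ) (hχ : IsParChar (gammaH δ hNM) χ)
    (htriv : ∀ (ε : SL(2, ℤ)) (hε : ε ∈ gammaH δ hNM), ε ∈ Gamma m → χ ⟨ε, hε⟩ = 1) : χ = 1 :=
  parChar_eq_one (goodLevel_gammaH hneg).T_mem (goodLevel_gammaH hneg).neg_mem
    (fun _ hγ => lowU_mem_gammaH (Gamma0_mem.mp (HM.gammaH_le _ _ hγ))) hm χ hχ htriv

end

end Char

/-- Inertia at a prime not dividing `N` fixes the roots of unity of order `N`. -/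
theorem cycloN_of_inertia {N : ℕ} [NeZero N] {q : ℕ} (hq : q.Prime) (hqN : ¬ q ∣ N)
    {A : ValuationSubring (AlgebraicClosure ℚ)} (hA : A.LiesOverPrime q) {g : GQ}
    (hg : g ∈ A.inertiaSubgroupIn ℚ) : cycloN N g = 1 := by
  refine cycloN_eq fun t ht => ?_
  rw [Mazur.inertia_fixes_rootsOfUnity hq hA hqN (NeZero.ne N) hg ht, Units.val_one,
    ZMod.val_one_eq_one_mod, ← pow_eq_pow_mod _ ht, pow_one]

end FermatAgent.BAD
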