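import Fermat.Agent.BAD.Diamond.Quad
import Fermat.Agent.BAD.Diamond.Prime

/-!
# Diamond-twisted unipotence of inertia at a prime exactly dividing the level

`(g - 1)(g - d g) = 0` for inertia `g` at `q ∣∣ M`, with no condition on the nebentypus: `Γ_H`
contains the kernel of a character modulo `q` inside `Γ₀(q) ∩ Γ(M')` (`exists_char_gammaH`), the
relation holds for its torsion parabolic characters (`conjChar_quadratic`), hence on the `p`-adic
parabolic homomorphisms (`galParLin_quadratic`) and on the localised Hecke module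
(`galLoc_quadratic_prime`).
-/

set_option autoImplicit false

noncomputable section

open scoped MatrixGroups
open CongruenceSubgroup ModularCurve.Period MvPolynomial
open FermatAgent.ES (GQ galChar padChar parGroup zetaC embC CPlace)

namespace FermatAgent.BAD

open FermatAgent.HM

section Fibre

variable {q M : ℕ} [hq : Fact q.Prime] [NeZero M]

omit [NeZero M] in
theorem intCast_modQM_congr (hM : M.Coprime q) {x y : ℤ} (hQ : (x : ZMod q) = y)
    (hL : (x : ZMod M) = y) : (x : ZMod (q * M)) = y := by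
  rw [ZMod.intCast_eq_intCast_iff_dvd_sub] at hQ hL ⊢
  push_cast
  exact (Int.isCoprime_iff_nat_coprime.mpr (by simpa using hM.symm)).mul_dvd hQ hL

variable (q) in
/-- A character with a given kernel on the cyclic group `(ℤ/q)ˣ`. -/
theorem exists_char_ker {Δ : Type*} [CommGroup Δ] (ψ : (ZMod q)ˣ →* Δ) :
    ∃ χ : (ZMod q)ˣ →* ℂˣ, ∀ u, χ u = 1 ↔ ψ u = 1 := by
  have he0 : orderOf (ψ (unitGen q)) ≠ 0 :=
    (IsOfFinOrder.orderOf_pos (ψ.isOfFinOrder (isOfFinOrder_of_finite _))).ne'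
  set e := orderOf (ψ (unitGen q))
  have : NeZero e := ⟨he0⟩
  obtain ⟨ζ, hζ⟩ := HasEnoughRootsOfUnity.exists_primitiveRoot ℂ e
  set z : ℂˣ := (hζ.isUnit he0).unit
  have hz : orderOf z = e := by
    rw [← orderOf_injective (Units.coeHom ℂ) Units.val_injective]
    exact hζ.eq_orderOf.symm
  refine ⟨monoidHomOfForallMemZpowers mem_zpowers_unitGen
    (show orderOf z ∣ orderOf (unitGen q) by rw [hz]; exact orderOf_map_dvd ψ _), fun u => ?_⟩
  obtain ⟨k, rfl⟩ := Subgroup.mem_zpowers_iff.mp (mem_zpowers_unitGen u)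
  rw [map_zpow, map_zpow, monoidHomOfForallMemZpowers_apply_gen, ← orderOf_dvd_iff_zpow_eq_one,
    ← orderOf_dvd_iff_zpow_eq_one, hz]

end Fibre

section Char

variable {Δ : Type*} [CommGroup Δ] {N Mt : ℕ} [NeZero Mt]
variable {δ : (ZMod N)ˣ →* Δ} {hNM : N ∣ Mt}
variable {q M m : ℕ} [hq : Fact q.Prime] [NeZero M]

omit [NeZero Mt] in
/-- The kernel on `Γ₀(q) ∩ Γ(M)` of the diamond class is that of a character modulo `q`. -/
theorem exists_char_gammaH (hM : M.Coprime q) (hdvd : Mt ∣ q * M) (hle : lam q M ≤ Gamma0 Mt) :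
    ∃ χ : (ZMod q)ˣ →* ℂˣ, lamH M χ ≤ gammaH δ hNM := by
  set cls : lam q M →* Δ := (gammaClass δ hNM).comp (Subgroup.inclusion hle) with hcls
  set L₀ : lam q M →* (ZMod q)ˣ :=
    (lowQ q).comp (Subgroup.inclusion (inf_le_left : lam q M ≤ Gamma0 q))
  have key : ∀ γ γ' : lam q M, L₀ γ = L₀ γ' → cls γ = cls γ' := by
    intro γ γ' h
    refine gammaClass_congr (hNM := hNM) (hle γ.2) (hle γ'.2) ?_
    have h1 := intCast_modQM_congr hM (congrArg Units.val h)
      ((Gamma_mem.mp γ.2.2).2.2.2.trans (Gamma_mem.mp γ'.2.2).2.2.2.symm)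
    have h2 := congrArg (ZMod.castHom hdvd (ZMod Mt)) h1
    rw [map_intCast, map_intCast] at h2
    exact h2
  choose r hr using fun u => show ∃ γ, L₀ γ = u from exists_lam_lower (M := M) hM u
  let ψ : (ZMod q)ˣ →* Δ :=
    { toFun := fun u => cls (r u)
      map_one' := (key _ 1 (by rw [hr, map_one])).trans (map_one cls)
      map_mul' := fun u v => by
        rw [← map_mul cls]
        exact key _ _ (by rw [map_mul, hr, hr, hr]) }
  obtain ⟨χ, hχ⟩ := exists_char_ker q ψ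
  refine ⟨χ, fun γ hγ => ?_⟩
  obtain ⟨h, h1⟩ := (mem_lamH χ).mp hγ
  refine (mem_gammaH_iff δ hNM).mpr ⟨hle h, ?_⟩
  show cls ⟨γ, h⟩ = 1
  rw [← key (r (L₀ ⟨γ, h⟩)) ⟨γ, h⟩ (hr _)]
  exact (hχ _).mp h1

omit [NeZero Mt] in
theorem gammaClass_deltaA {P : CPlace q} {O : Subring ℂ} (D : InertData M P O) (hM : M.Coprime q)
    (hdvd : Mt ∣ q * M) (hle : lam q M ≤ Gamma0 Mt) [NeZero N] {g : GQ}
    (hσ : ∀ x, D.σ (embC x) = embC (g x)) :
    gammaClass δ hNM ⟨(D.deltaA hM : SL(2, ℤ)), hle (D.deltaA hM).2⟩ = δ (cycloN N g) := by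
  have hN : N ∣ q * M := hNM.trans hdvd
  have hu : IsUnit (D.a : ZMod N) := ES.isUnit_natCast_of_dvd hN D.unit
  have hcyc : cycloN N g = hu.unit := by
    refine cycloN_eq fun t ht => embC.toRingHom.injective ?_
    show embC (g t) = embC _
    have htN : embC t ^ N = 1 := by rw [← map_pow, ht, map_one]
    have ht' : embC t ^ (q * M) = 1 := by
      obtain ⟨k, hk⟩ := hN
      rw [hk, pow_mul, htN, one_pow]
    obtain ⟨i, -, hi⟩ := (ES.zetaC_isPrimitiveRoot (q * M)).eq_pow_of_pow_eq_one ht'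
    rw [← hσ, map_pow, IsUnit.unit_spec, ZMod.val_natCast, ← pow_eq_pow_mod _ htN, ← hi,
      map_pow, D.zeta, ← pow_mul, ← pow_mul, mul_comm i]
  rw [hcyc]
  refine congrArg δ (Units.ext ?_)
  rw [coe_lowerRightUnit, IsUnit.unit_spec]
  have h1 : (((D.deltaA hM : SL(2, ℤ)) 1 1 : ℤ) : ZMod (q * M)) = ((D.a : ℤ) : ZMod (q * M)) := by
    refine intCast_modQM_congr hM ?_ ?_
    · rw [← coe_lowQ ⟨_, (D.deltaA hM).2.1⟩, show lowQ q ⟨_, (D.deltaA hM).2.1⟩ = D.aQ from
        D.lowQ_deltaA hM, D.coe_aQ, Int.cast_natCast]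
    · rw [(Gamma_mem.mp (D.deltaA hM).2.2).2.2.2, Int.cast_natCast, D.a_eq_one hM]
  have h2 := congrArg (ZMod.castHom hN (ZMod N)) h1
  rw [map_intCast, map_intCast, Int.cast_natCast] at h2
  exact h2

/-- **`τ²φ · δφ = τφ · δτφ`** on parabolic characters of `Γ_H`. -/
theorem galChar_quadratic_gammaH [NeZero N] (hneg : δ (-1) = 1) (hqM : q ∣ Mt)
    (hq2 : ¬ q ^ 2 ∣ Mt) {A : ValuationSubring (AlgebraicClosure ℚ)} (hA : A.LiesOverPrime q)
    {g : GQ} (hg : g ∈ A.inertiaSubgroupIn ℚ) {n : ℕ} [NeZero n] (hn : n.Coprime q)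
    {ε : Gamma0 Mt} (hε : gammaClass δ hNM ε = (δ (cycloN N g))⁻¹)
    (φ : parGroup (gammaH δ hNM) n) :
    galChar (goodLevel_gammaH hneg) n g (galChar (goodLevel_gammaH hneg) n g φ) * conjParChar ε φ =
      galChar (goodLevel_gammaH hneg) n g φ *
        conjParChar ε (galChar (goodLevel_gammaH hneg) n g φ) := by
  obtain ⟨M', m', r, hM0, haux, hM, hqm, hdvd, hr, h12, hle, hq0⟩ := exists_level hqM hq2
  have := hM0
  obtain ⟨Φ, hΦ⟩ := ES.exists_padicEquiv_compat hA
  obtain ⟨s, hs1, hs2⟩ := exists_inertiaAut Φ (hΦ.symm ▸ hg)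
  have hσ := conjC_embC Φ s hs1
  obtain ⟨D, hDσ⟩ := exists_inertData (M := M') (P := CPlace.ofEquiv Φ)
    (O := (CPlace.ofEquiv Φ).ring) (conjC Φ s)
    (fun z hz => by
      rw [CPlace.ofEquiv_abv, map_sub, map_conjC]
      exact hs2 _ hz)
    (fun z hz => by rw [(CPlace.ofEquiv Φ).mem_ring, abv_conjC]; exact hz)
  obtain ⟨χ, hχ⟩ := exists_char_gammaH (δ := δ) (hNM := hNM) hM hdvd hle
  set E : Gamma0 Mt := ⟨_, hle (D.deltaA hM).2⟩ with hE
  have hcE : gammaClass δ hNM ε = gammaClass δ hNM E⁻¹ := by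
    rw [hε, map_inv, hE, gammaClass_deltaA D hM hdvd hle fun x => by rw [hDσ]; exact hσ x]
  have hnorm : ∀ γ ∈ gammaH δ hNM,
      (D.deltaA hM : SL(2, ℤ)) * γ * (D.deltaA hM : SL(2, ℤ))⁻¹ ∈ gammaH δ hNM := fun γ hγ => by
    obtain ⟨h, h1⟩ := (mem_gammaH_iff δ hNM).mp hγ
    refine (mem_gammaH_iff δ hNM).mpr
      ⟨mul_mem (mul_mem (hle (D.deltaA hM).2) h) (inv_mem (hle (D.deltaA hM).2)), ?_⟩
    show gammaClass δ hNM (E * ⟨γ, h⟩ * E⁻¹) = 1
    rw [map_mul, map_mul, map_inv, h1, mul_one, mul_inv_cancel]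
  rw [ES.galChar_eq (goodLevel_gammaH hneg) n hσ, ES.conjAut_apply, ES.conjAut_apply,
    conjParChar_congr hcE, conjParChar_congr hcE, ← hDσ]
  refine conjChar_quadratic haux hM hqm χ (goodLevel_gammaH hneg) hχ
    ((HM.gammaH_le _ _).trans hq0) hdvd hr h12 (parChar_eq_one_gammaH hneg haux.small) Φ D hDσ hn
    hnorm (conjParChar E⁻¹) (fun φ γ hγ => ?_) φ
  rw [coe_conjParChar, MonoidHom.comp_apply]
  exact congrArg _ (Subtype.ext (by simp [conjGammaH, toGammaH, hE]))

end Char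

variable (p : ℕ) [hp : Fact p.Prime]
variable {Δ : Type} [CommGroup Δ] {N M : ℕ} [NeZero M] [NeZero N]
variable {δ : (ZMod N)ˣ →* Δ} {hNM : N ∣ M}

/-- **`(g - 1)(g - ⟨d⟩) = 0`** on the `p`-adic parabolic homomorphisms of `Γ_H`. -/
theorem galParLin_quadratic (hneg : δ (-1) = 1) {q : ℕ} (hq : q.Prime) (hqM : q ∣ M)
    (hq2 : ¬ q ^ 2 ∣ M) (hqp : q ≠ p) {A : ValuationSubring (AlgebraicClosure ℚ)}
    (hA : A.LiesOverPrime q) {g : GQ} (hg : g ∈ A.inertiaSubgroupIn ℚ) {ε : Gamma0 M}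
    (hε : gammaClass δ hNM ε = (δ (cycloN N g))⁻¹) :
    (galParLin p hneg g - 1) * (galParLin p hneg g - conjParLin ε) =
      (0 : Module.End ℤ_[p] (parabolicHoms ℤ_[p] (gammaH δ hNM) ℤ_[p])) := by
  have := Fact.mk hq
  suffices h : galParLin (hNM := hNM) p hneg g * galParLin p hneg g + conjParLin ε =
      galParLin p hneg g + galParLin p hneg g * conjParLin ε by
    refine LinearMap.ext fun ψ => ?_
    have h' := LinearMap.congr_fun h ψ
    simp only [LinearMap.add_apply, Module.End.mul_apply] at h'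
    simp only [Module.End.mul_apply, LinearMap.sub_apply, Module.End.one_apply, map_sub,
      LinearMap.zero_apply]
    linear_combination (norm := abel) h'
  refine LinearMap.ext fun ψ => ES.padChar_ext p fun k => ?_
  rw [LinearMap.add_apply, LinearMap.add_apply, Module.End.mul_apply, Module.End.mul_apply,
    ES.padChar_add, ES.padChar_add, galParLin_apply, galParLin_apply, galParLin_apply,
    padChar_galParPad, padChar_galParPad, padChar_galParPad, padChar_conjParLin,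
    galChar_conjParChar hneg]
  exact galChar_quadratic_gammaH hneg hqM hq2 hA hg
    (Nat.Coprime.pow_left k ((Nat.coprime_primes hp.out hq).mpr (Ne.symm hqp))) hε _

variable (O : Type) [CommRing O] [Algebra ℤ_[p] O] [IsAddTorsionFree O] [Finite Δ]
variable {L : ℕ} {ι : Type} {pr : ι → HPrime L}
variable (hδ : Function.Surjective δ) (hneg : δ (-1) = 1)
variable (𝔪 : Ideal (MvPolynomial ι (MonoidAlgebra O Δ))) [𝔪.IsPrime]
variable (hloc : IsLocalizedModule 𝔪.primeCompl (parToLoc O δ hNM pr hδ 𝔪))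

/-- **Diamond-twisted unipotence**: on the localised module of parabolic homomorphisms inertia at
`q ∣∣ M` has the shape `(1 *; 0 det)`, `det` being the nebentypus: `(g - 1)(g - det g) = 0`. -/
theorem galLoc_quadratic_prime {q : ℕ} (hq : q.Prime) (hqM : q ∣ M) (hq2 : ¬ q ^ 2 ∣ M)
    (hqp : q ≠ p) {A : ValuationSubring (AlgebraicClosure ℚ)} (hA : A.LiesOverPrime q) {g : GQ}
    (hg : g ∈ A.inertiaSubgroupIn ℚ) :
    (galLoc p O hδ hneg 𝔪 hloc g - 1) *
      (galLoc p O hδ hneg 𝔪 hloc g -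
        algebraMap (MvPolynomial ι (MonoidAlgebra O Δ)) _ (C (detChar p O δ g))) = 0 := by
  obtain ⟨ε, hε⟩ := gammaClass_surjective δ hNM hδ (δ (cycloN N g))⁻¹
  exact galLoc_quadratic p O hδ hneg 𝔪 hloc (ES.padCyclo_inertia p hq hqp hA hg) hε
    (galParLin_quadratic p hneg hq hqM hq2 hqp hA hg hε)

/-- At a prime `q ∣∣ M` not dividing the conductor `N` of the nebentypus inertia acts unipotently
on the localised module, as on the Tate module of a semistable abelian variety. -/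
theorem galLoc_unipotent {q : ℕ} (hq : q.Prime) (hqM : q ∣ M)
    (hq2 : ¬ q ^ 2 ∣ M) (hqN : ¬ q ∣ N) (hqp : q ≠ p)
    {A : ValuationSubring (AlgebraicClosure ℚ)} (hA : A.LiesOverPrime q) {g : GQ}
    (hg : g ∈ A.inertiaSubgroupIn ℚ) :
    (galLoc p O hδ hneg 𝔪 hloc g - 1) * (galLoc p O hδ hneg 𝔪 hloc g - 1) = 0 := by
  have h := galLoc_quadratic_prime p O hδ hneg 𝔪 hloc hq hqM hq2 hqp hA hg
  have hd : detChar p O δ g = 1 := by
    show MonoidAlgebra.single (δ (cycloN N g)) (algebraMap ℤ_[p] O (ES.padCyclo p g)) = 1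
    rw [cycloN_of_inertia hq hqN hA hg, ES.padCyclo_inertia p hq hqp hA hg, map_one, map_one,
      ← MonoidAlgebra.one_def]
  rwa [hd, map_one, map_one] at h

end FermatAgent.BAD
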