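import Fermat.Agent.BAD.Diamond.Local
import Fermat.Agent.BAD.DivisibleWitness

/-!
# Divisible multiplicities on the covering, with witnesses over one complete ring
-/

set_option autoImplicit false

open UpperHalfPlane CongruenceSubgroup
open scoped MatrixGroups

noncomputable section

namespace FermatAgent.BAD

open FermatAgent.ES (zetaC AuxLevel CPlace GoodRoot vanishOrd)

variable {q M m : ℕ} [hq : Fact q.Prime] [NeZero M] {χ : (ZMod q)ˣ →* ℂˣ}

/-- **Divisibility over a ring with finitely many generators.** -/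
theorem exists_finset_divisibleI (haux : AuxLevel M m) {P : CPlace q} (hM : M.Coprime q) {n : ℕ}
    {y : ℍ → ℂ} (hy : y ∈ invSub q M (lamH M χ)) (hy0 : y ≠ 0)
    (hord : ∀ τ (j : ℕ), vanishOrd y τ = j → n ∣ j) :
    ∃ S : Finset ℂ, (S : Set ℂ) ⊆ P.ring ∧ ∀ O : Subring ℂ, P.IsCDVR O →
      GoodRoot M O (zetaC M) → zetaC (q * M) ∈ O → (S : Set ℂ) ⊆ O →
        ∀ hyO : y ∈ InvRing q M O (lamH M χ), DivisibleI n ⟨y, hyO⟩ := by
  obtain ⟨S, hS, h⟩ := exists_finset_witness (P := P) haux (lamH_le χ) hM hy hy0 hord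
  refine ⟨S, hS, fun O hO hA hζ hs _ τ hτ => ?_⟩
  obtain ⟨i, E, D, X, h1, h2, h3⟩ := h O hO hA hζ hs τ hτ
  exact ⟨i, E, D, X, h1, h2, Subtype.ext h3⟩

end FermatAgent.BAD
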