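import Fermat.Agent.BAD.Diamond.Witness
import Fermat.Agent.BAD.Kummer

/-!
# Normalisation at all components of an intermediate covering

The functions small at one cusp form primes none of which contains another, so a function is moved
to one with unit coefficients at all cusps by an `n`-th power.
-/

set_option autoImplicit false

open UpperHalfPlane CongruenceSubgroup IsLocalRing
open scoped MatrixGroups

noncomputable section

namespace FermatAgent.BAD

open FermatAgent.ES (BSub BRing SerIn lexp lexp_eq hasLExp_lexp lexp_act act zetaC AuxLevel CPlace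
  GoodRoot GalGrp repG modMat)

variable {q M m : ℕ} [hq : Fact q.Prime] [NeZero M] {P : CPlace q} {O : Subring ℂ}
  {Λ : Subgroup SL(2, ℤ)}

theorem serI_congr (hΛ : Gamma (q * M) ≤ Λ) {γ γ' : SL(2, ℤ)}
    (h : modMat (q * M) γ = modMat (q * M) γ') (f : InvRing q M O Λ) :
    serI M O Λ q γ f = serI M O Λ q γ' f := by
  have hmem : γ * γ'⁻¹ ∈ Λ := hΛ (ES.mem_Gamma_of_modMat (by
    rw [ES.modMat_mul, h, ← ES.modMat_mul, mul_inv_cancel, ES.modMat_one]))
  rw [serI_apply, serI_apply]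
  conv_rhs => rw [← f.2.2 _ hmem, lexp_act, inv_mul_cancel_right]

section SerLE

omit hq

/-- If `A` is bounded by `a` and `R` by `b ≤ a`, then `(A + R) ^ (k + 1) - A ^ (k + 1)` is bounded
by `b * a ^ k`. -/
private theorem serLE_add_pow_sub {A R : LaurentSeries ℂ} {a b : ℝ} (ha : 0 ≤ a) (hb : 0 ≤ b)
    (hba : b ≤ a) (hA : P.SerLE a A) (hR : P.SerLE b R) (k : ℕ) :
    P.SerLE (b * a ^ k) ((A + R) ^ (k + 1) - A ^ (k + 1)) := by
  rw [← geom_sum₂_mul, add_sub_cancel_left, mul_comm _ R]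
  refine CPlace.SerLE.mul hb (pow_nonneg ha k) hR
    (CPlace.SerLE.sum (pow_nonneg ha k) _ fun i hi => ?_)
  have := CPlace.SerLE.mul (pow_nonneg ha i) (pow_nonneg ha _)
    (CPlace.SerLE.pow ha (hA.add (hR.mono hba)) i)
    (CPlace.SerLE.pow ha hA (k + 1 - 1 - i))
  rwa [← pow_add, show i + (k + 1 - 1 - i) = k by have := Finset.mem_range.mp hi; omega] at this

/-- A small perturbation of `A` keeps `A ^ (k + 1) * F` integral with a unit coefficient. -/
private theorem serIn_unitCoeff_add_pow_mul {A R F : LaurentSeries ℂ} {a b : ℝ} {k : ℕ}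
    (ha : 0 ≤ a) (hb : 0 ≤ b) (hba : b ≤ a) (hA : P.SerLE a A) (hR : P.SerLE b R)
    (hlt : b * a ^ k < 1) (hF : SerIn P.ring F) (hin : SerIn P.ring (A ^ (k + 1) * F))
    (hu : P.UnitCoeff (A ^ (k + 1) * F)) :
    SerIn P.ring ((A + R) ^ (k + 1) * F) ∧ P.UnitCoeff ((A + R) ^ (k + 1) * F) := by
  have hd : P.SerLT ((A + R) ^ (k + 1) * F - A ^ (k + 1) * F) := fun i => by
    rw [← sub_mul]
    exact ((serLE_add_pow_sub ha hb hba hA hR k).mul_serIn (mul_nonneg hb (pow_nonneg ha k))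
      hF i).trans_lt hlt
  have hin' : SerIn P.ring ((A + R) ^ (k + 1) * F) := fun i => by
    rw [← sub_add_cancel ((A + R) ^ (k + 1) * F) (A ^ (k + 1) * F), HahnSeries.coeff_add]
    exact P.ring.add_mem (hd i).le (hin i)
  refine ⟨hin', CPlace.UnitCoeff.of_serLE_sub hu ?_ hin'⟩
  simpa using hd.neg

/-- For `j ≤ J` the constant `(ρ ^ j)⁻¹` is bounded by `|ρ| ^ (-J)`. -/
private theorem serLE_C_inv_pow {ρ : ℂ} (h0 : ρ ≠ 0) (h1 : P.abv ρ ≤ 1) {j J : ℕ} (h : j ≤ J) :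
    P.SerLE (P.abv ρ ^ J)⁻¹ (HahnSeries.C (ρ ^ j)⁻¹) := fun i => by
  have hpos : 0 < P.abv ρ := P.abv.pos h0
  rw [HahnSeries.C_apply]
  rcases eq_or_ne i 0 with rfl | hi
  · rw [HahnSeries.coeff_single_same, map_inv₀, map_pow]
    exact inv_anti₀ (pow_pos hpos _) (pow_le_pow_of_le_one hpos.le h1 h)
  · rw [HahnSeries.coeff_single_of_ne hi, map_zero]; exact inv_nonneg.mpr (pow_nonneg hpos.le _)

end SerLE

omit hq in
/-- Dividing `∑ ρ ^ (J - j r) x r` by `ρ ^ J`. -/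
private theorem C_inv_pow_mul_sum {ι : Type*} (s : Finset ι) {ρ : ℂ} (hρ : ρ ≠ 0) {J : ℕ}
    {j : ι → ℕ} (hj : ∀ r ∈ s, j r ≤ J) (x : ι → LaurentSeries ℂ) :
    HahnSeries.C (ρ ^ J)⁻¹ * ∑ r ∈ s, HahnSeries.C (ρ ^ (J - j r)) * x r =
      ∑ r ∈ s, HahnSeries.C (ρ ^ j r)⁻¹ * x r := by
  rw [Finset.mul_sum]
  refine Finset.sum_congr rfl fun r hr => ?_
  rw [← mul_assoc, ← map_mul, pow_sub₀ ρ hρ (hj r hr), ← mul_assoc,
    inv_mul_cancel₀ (pow_ne_zero _ hρ), one_mul]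

/-- With `ρ ^ n = ϖ` and `z ^ j f = ϖ ^ j g`, the main term `(ρ ^ (-j) z ^ e) ^ n f` of the
normalised function is `z ^ (e n - j) g`. -/
private theorem mainTerm_eq {ϖ : O} (hϖ0 : (ϖ : ℂ) ≠ 0) {ρ : ℂ} {n : ℕ} (hρ : ρ ^ n = (ϖ : ℂ))
    {z g f : InvRing q M O Λ} {j : ℕ} (h : z ^ j * f = constI (ϖ ^ j) * g) {e : ℕ}
    (hle : j ≤ e * n) (γ : SL(2, ℤ)) :
    (HahnSeries.C (ρ ^ j)⁻¹ * serI M O Λ q γ z ^ e) ^ n * serI M O Λ q γ f =
      serI M O Λ q γ (z ^ (e * n - j) * g) := by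
  obtain ⟨k, hk⟩ := Nat.exists_eq_add_of_le hle
  have h1 := congrArg (serI M O Λ q γ) h
  rw [map_mul, map_mul, map_pow, serI_constI, SubmonoidClass.coe_pow] at h1
  have h2 : ((ρ ^ j)⁻¹) ^ n = ((ϖ : ℂ) ^ j)⁻¹ := by rw [inv_pow, ← pow_mul, mul_comm, pow_mul, hρ]
  rw [mul_pow, ← map_pow, h2, ← pow_mul, hk, Nat.add_sub_cancel_left, map_mul, map_pow, pow_add,
    mul_assoc (HahnSeries.C _), mul_right_comm (serI M O Λ q γ z ^ j), h1, ← mul_assoc, ← mul_assoc,
    ← map_mul, inv_mul_cancel₀ (pow_ne_zero _ hϖ0), map_one, one_mul, mul_comm]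

variable (haux : AuxLevel M m) (hA : GoodRoot M O (zetaC M)) (hO' : P.IsCDVR O)
  (hM : M.Coprime q) (hζ : zetaC (q * M) ∈ O) (hqm : q ≠ m)

include haux hA hO' hM hζ hqm in
/-- A base function is small on the component at `∞` or has unit coefficients there. -/
theorem mem_pInf_or_unitInf (f : LRing q M O) : f ∈ pInf hO'.le ∨ UnitInf P f := by
  by_cases h : ∃ γ ∈ Gamma0 q, P.UnitCoeff (serAt M O q γ f)
  · obtain ⟨γ, hγ, hu⟩ := h
    exact Or.inr (unitInf_of_unitCoeff haux hA hO'.le hM hζ hqm hγ hu)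
  · push Not at h
    exact Or.inl fun γ hγ =>
      P.serLT_of_not_unitCoeff (fun n => hO'.le (serIn_serAt γ f n)) (h γ hγ)

include haux hA hO' hM hζ hqm in
/-- A base function is small on the other component or has unit coefficients there. -/
theorem mem_pZero_or_unitZero (f : LRing q M O) : f ∈ pZero hO'.le ∨ UnitZero P f :=
  (mem_pInf_or_unitInf haux hA hO' hM hζ hqm (atkinL hM hζ f)).imp
    (mem_pZero_of_atkinL hO'.le hM hζ) (unitZero_of_atkinL hM hζ)

include haux hA hO' hM hζ hqm in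
/-- The smallness of a base function depends only on the type of the cusp. -/
theorem serLT_serAt_iff (f : LRing q M O) {γ δ : SL(2, ℤ)} (h : γ ∈ Gamma0 q ↔ δ ∈ Gamma0 q)
    (hγ : P.SerLT (serAt M O q γ f)) : P.SerLT (serAt M O q δ f) := by
  by_cases hi : γ ∈ Gamma0 q
  · rcases mem_pInf_or_unitInf haux hA hO' hM hζ hqm f with hf | hf
    · exact hf δ (h.mp hi)
    · exact absurd (hf γ hi) hγ.not_unitCoeff
  · rcases mem_pZero_or_unitZero haux hA hO' hM hζ hqm f with hf | hf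
    · exact hf δ fun hd => hi (h.mpr hd)
    · exact absurd (hf γ hi) hγ.not_unitCoeff

omit [NeZero M] in
theorem mem_Gamma0_of_kerAct {x : Gamma m} (hx : x ∈ ES.kerAct (q * M) m) :
    (x : SL(2, ℤ)) ∈ Gamma0 q := by
  have h10 : (((x : SL(2, ℤ)) 1 0 : ℤ) : ZMod (q * M)) = 0 := by
    rcases hx with h | h <;> simpa [modMat] using congrFun (congrFun h 1) 0
  have h := congrArg (ZMod.castHom (dvd_mul_right q M) (ZMod q)) h10
  rw [map_intCast, map_zero] at h
  exact Gamma0_mem.mpr h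

omit [NeZero M] in
theorem repG_mem_Gamma0_iff (x : Gamma m) :
    repG (q * M) m (x : GalGrp (q * M) m) ∈ Gamma0 q ↔ (x : SL(2, ℤ)) ∈ Gamma0 q := by
  obtain ⟨k, hk⟩ := QuotientGroup.mk_out_eq_mul (ES.kerAct (q * M) m) x
  have hk0 := mem_Gamma0_of_kerAct k.2
  show ((Quotient.out ((x : GalGrp (q * M) m)) : Gamma m) : SL(2, ℤ)) ∈ _ ↔ _
  rw [hk, Subgroup.coe_mul]
  exact (Gamma0 q).mul_mem_cancel_right hk0

open Polynomial in
/-- Every function on the covering is integral over those invariant under `Γ₀(q) ∩ Γ(m)`. -/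
theorem exists_monic_invariant (hΛ : Λ ≤ lam q m) (f : InvRing q M O Λ) :
    ∃ p : Polynomial (InvRing q M O Λ), p.Monic ∧ p.eval f = 0 ∧
      ∀ k, ∀ δ ∈ lam q m, act δ (p.coeff k : ℍ → ℂ) = p.coeff k := by
  classical
  let S : Finset (GalGrp (q * M) m) := Finset.univ.filter fun k => repG (q * M) m k ∈ Gamma0 q
  have hS : ∀ x : Gamma m, ((x : GalGrp (q * M) m)) ∈ S ↔ (x : SL(2, ℤ)) ∈ Gamma0 q := fun x => by
    simp only [S, Finset.mem_filter, Finset.mem_univ, true_and]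
    exact repG_mem_Gamma0_iff x
  let g : GalGrp (q * M) m → BRing (q * M) O := fun k =>
    ⟨act (repG (q * M) m k) (f : ℍ → ℂ), ES.act_mem_BRing f.2.1 _⟩
  set Pl : Polynomial (BRing (q * M) O) := ∏ k ∈ S, (X - C (g k))
  have hinv : ∀ δ ∈ lam q m, ∀ j, act δ (Pl.coeff j : ℍ → ℂ) = Pl.coeff j := fun δ hδ j => by
    set T : BRing (q * M) O →+* BRing (q * M) O :=
      ((ES.actHom δ).comp (BRing (q * M) O).subtype).codRestrict _
        fun z => ES.act_mem_BRing z.2 δ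
    have hδm : δ ∈ Gamma m := (Subgroup.mem_inf.mp hδ).2
    obtain ⟨k0, hk0⟩ : ∃ k0 : GalGrp (q * M) m, k0 = QuotientGroup.mk (⟨δ, hδm⟩ : Gamma m) :=
      ⟨_, rfl⟩
    have hmul : ∀ x : Gamma m, (QuotientGroup.mk x : GalGrp (q * M) m) * k0 =
        QuotientGroup.mk (x * ⟨δ, hδm⟩ : Gamma m) := fun x => by rw [hk0]; rfl
    have hT : ∀ k, T (g k) = g (k * k0) := fun k => by
      obtain ⟨x, rfl⟩ := QuotientGroup.mk_surjective k
      refine Subtype.ext ?_
      show act δ (act (repG (q * M) m _) (f : ℍ → ℂ)) = act (repG (q * M) m _) (f : ℍ → ℂ)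
      rw [hmul, ← ES.act_eq_act_repG f.2.1.1, ← ES.act_eq_act_repG f.2.1.1, ← ES.act_mul]
      rfl
    have hmap : Pl.map T = Pl := by
      simp only [Pl, Polynomial.map_prod, Polynomial.map_sub, Polynomial.map_X, Polynomial.map_C,
        hT]
      refine Finset.prod_equiv (Equiv.mulRight k0) (fun k => ?_) fun k _ => rfl
      obtain ⟨x, rfl⟩ := QuotientGroup.mk_surjective k
      simp only [Equiv.coe_mulRight]
      rw [hmul, hS, hS, Subgroup.coe_mul]
      exact ((Gamma0 q).mul_mem_cancel_right (Subgroup.mem_inf.mp hδ).1).symm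
    have h := congrArg (fun p : Polynomial (BRing (q * M) O) => (p.coeff j : ℍ → ℂ)) hmap
    simp only [coeff_map] at h
    exact h
  let ι : InvRing q M O Λ →+* BRing (q * M) O :=
    (InvRing q M O Λ).subtype.codRestrict _ fun z => z.2.1
  have hι : Function.Injective ι := fun a b h =>
    Subtype.ext (congrArg (fun z : BRing (q * M) O => (z : ℍ → ℂ)) h)
  have hlift : Pl ∈ lifts ι := (lifts_iff_coeff_lifts _).mpr fun j =>
    ⟨⟨(Pl.coeff j : ℍ → ℂ), (Pl.coeff j).2, fun δ hδ => hinv δ (hΛ hδ) j⟩, Subtype.ext rfl⟩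
  obtain ⟨p, hp, -, hmon⟩ := lifts_and_natDegree_eq_and_monic hlift
    (monic_prod_of_monic _ _ fun k _ => monic_X_sub_C _)
  refine ⟨p, hmon, hι ?_, fun k δ hδ => ?_⟩
  · rw [map_zero, ← eval₂_at_apply, ← eval_map, hp, eval_prod]
    refine Finset.prod_eq_zero (i := (1 : GalGrp (q * M) m)) ?_ ?_
    · rw [← QuotientGroup.mk_one, hS]
      exact one_mem _
    · rw [eval_sub, eval_X, eval_C, sub_eq_zero]
      refine Subtype.ext ?_
      show (f : ℍ → ℂ) = act (repG (q * M) m ((1 : Gamma m) : GalGrp (q * M) m)) (f : ℍ → ℂ)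
      rw [← ES.act_eq_act_repG f.2.1.1, Subgroup.coe_one, ES.act_one]
  · have h1 : (p.coeff k : ℍ → ℂ) = (Pl.coeff k : ℍ → ℂ) := by rw [← hp, coeff_map]; rfl
    rw [h1, hinv δ hδ k]

include haux hA hO' hM hζ hqm in
/-- None of the primes of small functions contains another. -/
theorem smallI_eq_of_le (hΛ : Λ ≤ lam q m) {γ δ : SL(2, ℤ)}
    (hle : smallI M Λ hO'.le γ ≤ smallI M Λ hO'.le δ) :
    smallI M Λ hO'.le γ = smallI M Λ hO'.le δ := by
  set H := hasseL haux hM hA hζ with hH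
  have toI : ∀ a : LRing q M O, (∀ ε ∈ lam q m, act ε (a : ℍ → ℂ) = a) →
      (a : ℍ → ℂ) ∈ InvRing q M O Λ := fun a ha => ⟨a.2.1, fun ε hε => ha ε (hΛ hε)⟩
  have hHinv : ∀ ε ∈ lam q m, act ε (H : ℍ → ℂ) = H := fun ε hε => act_hasseFun haux hM hε
  have hH'inv : ∀ ε ∈ lam q m, act ε ((atkinEquiv hM hζ H : LRing q M O) : ℍ → ℂ) =
      (atkinEquiv hM hζ H : LRing q M O) := fun ε hε =>
    act_atkin_of_inv haux hM (fun ε' hε' => hHinv ε' hε') hε
  have htype : γ ∈ Gamma0 q ↔ δ ∈ Gamma0 q := by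
    by_cases hγ : γ ∈ Gamma0 q <;> by_cases hδ : δ ∈ Gamma0 q
    · exact iff_of_true hγ hδ
    · exfalso
      have h := hle (show (⟨_, toI _ hH'inv⟩ : InvRing q M O Λ) ∈ smallI M Λ hO'.le γ from
        atkinL_mem_pInf hO'.le hM hζ (hasseL_mem_pZero haux hM hA hζ hO'.le) γ hγ)
      exact (show P.SerLT (serAt M O q δ (atkinEquiv hM hζ H)) from h).not_unitCoeff
        (atkinL_unitZero hM hζ (hasseL_unitInf haux hM hA hζ hO'.le hqm) δ hδ)
    · exfalso
      have h := hle (show (⟨_, toI _ hHinv⟩ : InvRing q M O Λ) ∈ smallI M Λ hO'.le γ from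
        hasseL_mem_pZero haux hM hA hζ hO'.le γ hγ)
      exact (show P.SerLT (serAt M O q δ H) from h).not_unitCoeff
        (hasseL_unitInf haux hM hA hζ hO'.le hqm δ hδ)
    · exact iff_of_false hγ hδ
  refine le_antisymm hle fun f hf => ?_
  by_contra hfγ
  obtain ⟨p, hmon, hroot, hinv⟩ := exists_monic_invariant hΛ f
  have hcoef : ∀ k, p.coeff k ∈ smallI M Λ hO'.le δ → p.coeff k ∈ smallI M Λ hO'.le γ := fun k hk =>
    serLT_serAt_iff haux hA hO' hM hζ hqm
      ⟨_, mem_LRing.mpr ⟨⟨(p.coeff k).2.1.1, fun ε hε => hinv k ε (lam_le_lam haux hε)⟩,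
        (p.coeff k).2.1.2⟩⟩ htype.symm hk
  have := smallI_isPrime (M := M) (Λ := Λ) hO'.le γ
  have key : ∀ (d : ℕ) (r : Polynomial (InvRing q M O Λ)), r.natDegree ≤ d →
      (∀ k, r.coeff k ∈ smallI M Λ hO'.le δ → r.coeff k ∈ smallI M Λ hO'.le γ) →
      r.eval f ∈ smallI M Λ hO'.le γ → ∀ k, r.coeff k ∈ smallI M Λ hO'.le γ := by
    intro d
    induction d with
    | zero =>
      intro r hr _ hev k
      rw [Polynomial.eq_C_of_natDegree_le_zero hr] at hev ⊢
      rw [Polynomial.eval_C] at hev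
      rw [Polynomial.coeff_C]
      split_ifs
      exacts [hev, Submodule.zero_mem _]
    | succ d ih =>
      intro r hr hc hev
      have hsplit := congrArg (Polynomial.eval f) r.X_mul_divX_add
      rw [Polynomial.eval_add, Polynomial.eval_mul, Polynomial.eval_X, Polynomial.eval_C] at hsplit
      have h0 : r.coeff 0 ∈ smallI M Λ hO'.le δ := by
        rw [show r.coeff 0 = r.eval f - f * r.divX.eval f by rw [← hsplit]; ring]
        exact sub_mem (hle hev) (Ideal.mul_mem_right _ _ hf)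
      have h0' := hc 0 h0
      have h1 : f * r.divX.eval f ∈ smallI M Λ hO'.le γ := by
        rw [show f * r.divX.eval f = r.eval f - r.coeff 0 by rw [← hsplit]; ring]
        exact sub_mem hev h0'
      have h2 := ih r.divX (by rw [Polynomial.natDegree_divX_eq_natDegree_tsub_one]; omega)
        (fun k => by rw [Polynomial.coeff_divX]; exact hc (k + 1))
        ((Ideal.IsPrime.mem_or_mem inferInstance h1).resolve_left hfγ)
      intro k
      rcases k with _ | k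
      · exact h0'
      · rw [← Polynomial.coeff_divX]; exact h2 k
  have h1 := key p.natDegree p le_rfl hcoef (by rw [hroot]; exact Submodule.zero_mem _) p.natDegree
  rw [Polynomial.coeff_natDegree, hmon.leadingCoeff] at h1
  exact (smallI_isPrime (M := M) (Λ := Λ) hO'.le γ).ne_top ((Ideal.eq_top_iff_one _).mpr h1)

include haux hA hO' hM hζ hqm in
/-- An element separating the component of `γ`. -/
theorem exists_separating (hΛ : Λ ≤ lam q m) (hΛ' : Gamma (q * M) ≤ Λ) (γ : SL(2, ℤ)) :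
    ∃ z : InvRing q M O Λ, z ∉ smallI M Λ hO'.le γ ∧
      ∀ δ, smallI M Λ hO'.le δ ≠ smallI M Λ hO'.le γ → z ∈ smallI M Λ hO'.le δ := by
  classical
  set R := Set.range (modMat (q * M) : SL(2, ℤ) → _)
  have : Finite R := Set.toFinite R
  let rep : R → SL(2, ℤ) := fun r => r.2.choose
  have hrep : ∀ δ, ∃ r : R, smallI M Λ hO'.le δ = smallI M Λ hO'.le (rep r) := fun δ => by
    refine ⟨⟨_, δ, rfl⟩, ?_⟩
    have h := (⟨δ, rfl⟩ : ∃ x, modMat (q * M) x = modMat (q * M) δ).choose_spec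
    ext f
    rw [mem_smallI, mem_smallI, serI_congr hΛ' h.symm f]
  have := Fintype.ofFinite R
  have hsep : ∀ r : R, ∃ z : InvRing q M O Λ, z ∉ smallI M Λ hO'.le γ ∧
      (smallI M Λ hO'.le (rep r) ≠ smallI M Λ hO'.le γ → z ∈ smallI M Λ hO'.le (rep r)) := by
    intro r
    by_cases h : smallI M Λ hO'.le (rep r) = smallI M Λ hO'.le γ
    · exact ⟨1, fun h1 => (smallI_isPrime hO'.le γ).ne_top ((Ideal.eq_top_iff_one _).mpr h1),
        fun h' => absurd h h'⟩
    · obtain ⟨z, hz, hz'⟩ := SetLike.not_le_iff_exists.mp fun hle =>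
        h (smallI_eq_of_le haux hA hO' hM hζ hqm hΛ hle)
      exact ⟨z, hz', fun _ => hz⟩
  choose z hz hz' using hsep
  refine ⟨∏ r, z r, fun h => ?_, fun δ hδ => ?_⟩
  · obtain ⟨r, -, hr⟩ := ((smallI_isPrime hO'.le γ).prod_mem_iff).mp h
    exact hz r hr
  · obtain ⟨r, hr⟩ := hrep δ
    rw [hr] at hδ ⊢
    exact Ideal.prod_mem _ (Finset.mem_univ r) (hz' r hδ)

include hO' in
/-- Normalisation at one component. -/
theorem exists_normal_at
    {ϖ : O} (hϖ : Irreducible ϖ) {f : InvRing q M O Λ} (hf : f ≠ 0) (γ : SL(2, ℤ))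
    {z : InvRing q M O Λ} (hz : z ∉ smallI M Λ hO'.le γ)
    (hz' : ∀ δ, smallI M Λ hO'.le δ ≠ smallI M Λ hO'.le γ → z ∈ smallI M Λ hO'.le δ) :
    ∃ (j : ℕ) (g : InvRing q M O Λ), g ∉ smallI M Λ hO'.le γ ∧
      z ^ j * f = constI (ϖ ^ j) * g := by
  obtain ⟨j, u, hu, huu, hs⟩ := exists_unit_part hO' hϖ (serIn_serI γ f)
    (fun h => hf (serI_injective γ (h.trans (map_zero _).symm)))
  clear hf
  induction j generalizing f u with
  | zero =>
    refine ⟨0, f, fun hsm => ?_, by simp⟩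
    rw [mem_smallI, hs, pow_zero, map_one, one_mul] at hsm
    exact hsm.not_unitCoeff huu
  | succ j ih =>
    have hfsmall : f ∈ smallI M Λ hO'.le γ := fun i => by
      rw [hs, HahnSeries.C_mul_eq_smul, HahnSeries.coeff_smul, smul_eq_mul, map_mul, map_pow,
        pow_succ]
      exact mul_lt_one_of_nonneg_of_lt_one_left (mul_nonneg (pow_nonneg (P.abv.nonneg _) _)
        (P.abv.nonneg _)) (mul_lt_one_of_nonneg_of_lt_one_right
          (pow_le_one₀ (P.abv.nonneg _) (hO'.le ϖ.2)) (P.abv.nonneg _) (abv_unif hO' hϖ))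
        (hO'.le (hu i))
    obtain ⟨f1, hf1⟩ := dvd_of_small hO'.le hO' hϖ (f := z * f) fun δ => by
      by_cases hδ : smallI M Λ hO'.le δ = smallI M Λ hO'.le γ
      · rw [hδ]; exact Ideal.mul_mem_left _ _ hfsmall
      · exact Ideal.mul_mem_right _ _ (hz' δ hδ)
    obtain ⟨i, g, hg, heq⟩ := ih (f := f1) (u := serI M O Λ q γ z * u)
      ((serIn_serI γ z).mul hu)
      (CPlace.UnitCoeff.mul (fun n => hO'.le (serIn_serI γ z n)) (fun n => hO'.le (hu n))
        (unitCoeff_serI_of_not_small hO'.le hz) huu) (by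
        have h1 := congrArg (serI M O Λ q γ) hf1
        rw [map_mul, map_mul, serI_constI, hs, pow_succ', map_mul] at h1
        refine mul_left_cancel₀ ((map_ne_zero_iff _ HahnSeries.C_injective).mpr
          (fun h => hϖ.ne_zero (Subtype.ext h)) : HahnSeries.C (ϖ : ℂ) ≠ 0) ?_
        rw [← h1]
        ring)
    exact ⟨i + 1, g, hg, by
      rw [pow_succ, mul_assoc, hf1, mul_left_comm, heq, ← mul_assoc, ← map_mul, ← pow_succ']⟩

include hO' in
/-- With `ρ ^ n = ϖ`, a function small at the cusp has all coefficients bounded by `|ρ| ^ n`. -/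
private theorem serLE_serI_of_mem_smallI {ϖ : O} (hϖ : Irreducible ϖ) {ρ : ℂ} {n : ℕ}
    (hρ : ρ ^ n = (ϖ : ℂ)) {γ : SL(2, ℤ)} {z : InvRing q M O Λ}
    (hz : z ∈ smallI M Λ hO'.le γ) : P.SerLE (P.abv ρ ^ n) (serI M O Λ q γ z) := fun l => by
  obtain ⟨w, hw, hwe⟩ := exists_eq_unif_mul hO' hϖ (serIn_serI γ z l) ((show P.SerLT _ from hz) l)
  rw [hwe, map_mul, ← map_pow, hρ]
  exact mul_le_of_le_one_right (P.abv.nonneg _) (hO'.le hw)

include hO' in
/-- There are only finitely many primes of small functions. -/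
private theorem finite_range_smallI (hΛ' : Gamma (q * M) ≤ Λ) :
    (Set.range fun γ => smallI M Λ hO'.le γ).Finite := by
  refine ((Set.toFinite (Set.range (modMat (q * M) : SL(2, ℤ) → _))).image fun A =>
    smallI M Λ hO'.le (Function.invFun (modMat (q * M)) A)).subset ?_
  rintro _ ⟨γ, rfl⟩
  refine ⟨_, ⟨γ, rfl⟩, Ideal.ext fun f => ?_⟩
  rw [mem_smallI, mem_smallI, serI_congr hΛ' (Function.invFun_eq ⟨γ, rfl⟩) f]

include haux hA hO' hM hζ hqm in
/-- **Normalisation.** An `n`-th power moves a function to one with unit coefficients everywhere. -/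
theorem exists_normalI (hΛ : Λ ≤ lam q m) (hΛ' : Gamma (q * M) ≤ Λ) {f : InvRing q M O Λ}
    (hf : f ≠ 0) {n : ℕ} (hn : 0 < n) :
    ∃ (z₀ : InvRing q M P.ring Λ) (c : ℂ) (y : InvRing q M P.ring Λ), c ≠ 0 ∧
      (y : ℍ → ℂ) = ((fun _ => c) * (z₀ : ℍ → ℂ)) ^ n * (f : ℍ → ℂ) ∧ UnitAll P y := by
  classical
  obtain ⟨k, rfl⟩ : ∃ k, n = k + 1 := ⟨n - 1, by omega⟩
  have := hO'.dvr
  obtain ⟨ϖ, hϖ⟩ := IsDiscreteValuationRing.exists_irreducible O
  have hϖ0 : (ϖ : ℂ) ≠ 0 := fun h => hϖ.ne_zero (Subtype.ext h)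
  obtain ⟨ρ, hρ⟩ := IsAlgClosed.exists_pow_nat_eq (ϖ : ℂ) hn
  have hρ0 : ρ ≠ 0 := fun h => hϖ0 (by rw [← hρ, h, zero_pow hn.ne'])
  have hρlt : P.abv ρ < 1 := by
    have h1 : P.abv ρ ^ (k + 1) < 1 := by rw [← map_pow, hρ]; exact abv_unif hO' hϖ
    exact (pow_lt_one_iff_of_nonneg (P.abv.nonneg _) hn.ne').mp h1
  set PS : Set (Ideal (InvRing q M O Λ)) := Set.range fun γ => smallI M Λ hO'.le γ
  have := (finite_range_smallI hO' hΛ' : PS.Finite).fintype
  choose rep hrep' using fun p : PS => p.2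
  choose z hz hz' using fun p : PS =>
    exists_separating haux hA hO' hM hζ hqm hΛ hΛ' (rep p)
  choose j g hg hgeq using fun p : PS =>
    exists_normal_at hO' hϖ hf (rep p) (hz p) (hz' p)
  set J := ∑ p, j p
  have hjJ : ∀ p, j p ≤ J := fun p => Finset.single_le_sum (fun _ _ => Nat.zero_le _)
    (Finset.mem_univ p)
  set e := (k + 2) * J + 1 with he
  have hρP : ρ ∈ P.ring := hρlt.le
  set z₀ : InvRing q M P.ring Λ := ∑ p,
    constI (⟨ρ, hρP⟩ ^ (J - j p) : P.ring) * Subring.inclusion (InvRing_mono hO'.le) (z p) ^ e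
  set zf : ℍ → ℂ := (fun _ => (ρ ^ J)⁻¹) * (z₀ : ℍ → ℂ)
  have hz0 : ∀ γ, serI M P.ring Λ q γ z₀ =
      ∑ p, HahnSeries.C (ρ ^ (J - j p)) * serI M O Λ q γ (z p) ^ e := fun γ => by
    rw [map_sum]
    refine Finset.sum_congr rfl fun p _ => ?_
    rw [map_mul, serI_constI, map_pow (serI M P.ring Λ q γ), SubmonoidClass.coe_pow]
    rfl
  have hzf : ∀ γ, lexp (q * M) γ zf =
      HahnSeries.C (ρ ^ J)⁻¹ * serI M P.ring Λ q γ z₀ := fun γ =>
    lexp_eq ((ES.HasLExp.const _).mul (hasLExp_lexp z₀.2.1.1 γ))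
  set yf : ℍ → ℂ := zf ^ (k + 1) * (f : ℍ → ℂ)
  have hzfB : zf ∈ BSub (q * M) := mul_mem ((BSub (q * M)).algebraMap_mem _) z₀.2.1.1
  have hyser : ∀ γ, lexp (q * M) γ yf =
      lexp (q * M) γ zf ^ (k + 1) * serI M O Λ q γ f := fun γ => by
    refine lexp_eq ?_
    rw [show act γ yf = act γ (zf ^ (k + 1)) * act γ (f : ℍ → ℂ) from rfl]
    exact (((hasLExp_lexp hzfB γ).pow (k + 1)).congr_fun fun τ => by simp).mul
      (hasLExp_lexp f.2.1.1 γ)
  set a := (P.abv ρ ^ J)⁻¹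
  have hρpos : 0 < P.abv ρ := P.abv.pos hρ0
  have ha : 0 ≤ a := inv_nonneg.mpr (pow_nonneg hρpos.le _)
  have hb : a * P.abv ρ ^ ((k + 1) * e) * a ^ k < 1 := by
    rw [mul_right_comm, ← pow_succ', inv_pow, ← pow_mul, inv_mul_lt_iff₀ (pow_pos hρpos _),
      mul_one]
    exact pow_lt_pow_right_of_lt_one₀ hρpos hρlt (by rw [he]; nlinarith)
  have key : ∀ γ, SerIn P.ring (lexp (q * M) γ yf) ∧ P.UnitCoeff (lexp (q * M) γ yf) := fun γ => by
    set p : PS := ⟨smallI M Λ hO'.le γ, γ, rfl⟩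
    have hp : smallI M Λ hO'.le (rep p) = smallI M Λ hO'.le γ := hrep' p
    rw [hyser, hzf, hz0, C_inv_pow_mul_sum _ hρ0 fun r _ => hjJ r,
      ← Finset.add_sum_erase Finset.univ _ (Finset.mem_univ p)]
    set A : LaurentSeries ℂ := HahnSeries.C (ρ ^ j p)⁻¹ * serI M O Λ q γ (z p) ^ e
    have hmain : A ^ (k + 1) * serI M O Λ q γ f =
        serI M O Λ q γ (z p ^ (e * (k + 1) - j p) * g p) :=
      mainTerm_eq hϖ0 hρ (hgeq p) ((hjJ p).trans (by rw [he]; nlinarith)) γ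
    refine serIn_unitCoeff_add_pow_mul ha (mul_nonneg ha (pow_nonneg hρpos.le _))
      (mul_le_of_le_one_right ha (pow_le_one₀ hρpos.le hρlt.le)) ?_ ?_ hb
      (fun i => hO'.le (serIn_serI γ f i)) ?_ ?_
    · exact (serLE_C_inv_pow hρ0 hρlt.le (hjJ p)).mul_serIn ha
        (SerIn.pow (fun i => hO'.le (serIn_serI γ (z p) i)) e)
    · refine CPlace.SerLE.sum (mul_nonneg ha (pow_nonneg hρpos.le _)) _ fun r hr => ?_
      rw [pow_mul]
      refine CPlace.SerLE.mul ha (pow_nonneg (pow_nonneg hρpos.le _) _)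
        (serLE_C_inv_pow hρ0 hρlt.le (hjJ r)) (CPlace.SerLE.pow (pow_nonneg hρpos.le _)
          (serLE_serI_of_mem_smallI hO' hϖ hρ ?_) e)
      exact hz' r γ fun h =>
        (Finset.mem_erase.mp hr).1 (Subtype.ext ((hrep' r).symm.trans h.symm))
    · rw [hmain]; exact fun i => hO'.le (serIn_serI γ _ i)
    · rw [hmain]
      refine unitCoeff_serI_of_not_small hO'.le fun h => ?_
      rw [← hp] at h
      rcases (smallI_isPrime hO'.le (rep p)).mem_or_mem h with h' | h'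
      · exact hz p ((smallI_isPrime hO'.le (rep p)).mem_of_pow_mem _ h')
      · exact hg p h'
  have hmem : yf ∈ InvRing q M P.ring Λ := by
    refine ⟨⟨mul_mem (pow_mem hzfB _) f.2.1.1, fun γ => (key γ).1⟩, fun δ hδ => ?_⟩
    show act δ (zf ^ (k + 1) * (f : ℍ → ℂ)) = _
    rw [ES.act_mulFun, f.2.2 δ hδ, show act δ (zf ^ (k + 1)) = act δ zf ^ (k + 1) from rfl,
      ES.act_mulFun, ES.act_const, z₀.2.2 δ hδ]
  exact ⟨z₀, (ρ ^ J)⁻¹, ⟨yf, hmem⟩, inv_ne_zero (pow_ne_zero _ hρ0), rfl, fun γ => (key γ).2⟩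

end FermatAgent.BAD
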