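import Fermat.Agent.BAD.Special

/-!
# The completions at the closed points of the special fibre

At a crossing point the completion is the ring of the node `X Y = q`, elsewhere a ring of power
series; functions small on a component vanish on its branch.
-/

set_option autoImplicit false

open UpperHalfPlane CongruenceSubgroup IsLocalRing
open scoped MatrixGroups

noncomputable section

namespace FermatAgent.BAD

open FermatAgent.ES (BSub BRing zetaC AuxLevel CPlace GoodRoot GoodPoint)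

variable {q M m : ℕ} [Fact q.Prime] [NeZero M] {O : Subring ℂ} (haux : AuxLevel M m)
  (hA : GoodRoot M O (zetaC M)) {P : CPlace q} (hO : O ≤ P.ring) (hO' : P.IsCDVR O) {ϖ : O}
  (hϖ : Irreducible ϖ) (hM : M.Coprime q) (hζ : zetaC (q * M) ∈ O) (hqm : q ≠ m)

omit [Fact (Nat.Prime q)] in
/-- The residue characteristic `q` lies in the maximal ideal of the coefficient ring. -/
theorem natCast_q_mem_maximal [IsLocalRing O] (hO' : P.IsCDVR O) :
    (q : O) ∈ maximalIdeal O :=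
  (hO'.mem_maximalIdeal_iff _).mpr (by simpa using P.lt_one)

include haux hA hO hO' hϖ hM hζ hqm in
/-- **The completion at a crossing point.** -/
theorem exists_node_iso [IsDiscreteValuationRing O]
    [IsNoetherianRing (LRing q M O)] {𝔪 : Ideal (LRing q M O)} [h𝔪 : 𝔪.IsMaximal]
    (hinf : pInf hO ≤ 𝔪) (hzero : pZero hO ≤ 𝔪) {τ0 τ1 : ℍ}
    (hg : GoodPoint haux O τ0) (ht : raiseL M (tPar haux hA hg) ∈ 𝔪)
    (hg' : GoodPoint haux O τ1)
    (ht' : (atkinEquiv hM hζ).symm (raiseL M (tPar haux hA hg')) ∈ 𝔪)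
    {σ : O →+* O} {τ : LRing q M O →+* LRing q M O}
    (hτC : ∀ r, τ (constL r) = constL (σ r)) (hτX : τ (kXL haux hM hA hζ) = kXL haux hM hA hζ)
    (hτY : τ (kYL haux hM hA hζ) = kYL haux hM hA hζ)
    (hτ : ∀ z, constL ϖ ∣ τ z - z) :
    ∃ e : Node O (q : O) ≃+* AdicCompletion 𝔪 (LRing q M O),
      (∀ r, e (nodeC (q : O) r) = algebraMap _ _ (constL r : LRing q M O)) ∧
      e (nodeVar (q : O) 0) = algebraMap _ _ (kXL haux hM hA hζ) ∧
      algebraMap _ _ (nodeG haux hM hA hζ hO hO' hqm) * e (nodeVar (q : O) 1) =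
        -algebraMap _ _ (kYL haux hM hA hζ) ∧
      (∀ z, ∀ b : LRing q M O, e z = algebraMap _ _ b → b ∈ pInf hO →
        branch (natCast_q_mem_maximal hO') 0 z = 0) ∧
      (∀ z, ∀ b : LRing q M O, e z = algebraMap _ _ b → b ∈ pZero hO →
        branch (natCast_q_mem_maximal hO') 1 z = 0) ∧
      (∀ z, ∀ b : LRing q M O, e z = algebraMap _ _ b → UnitInf P b →
        branch (natCast_q_mem_maximal hO') 0 z ≠ 0) ∧
      (∀ z, ∀ b : LRing q M O, e z = algebraMap _ _ b → UnitZero P b →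
        branch (natCast_q_mem_maximal hO') 1 z ≠ 0) ∧
      ∀ (hhu : σ (q : O) = ![(1 : O), 1] 0 * ![(1 : O), 1] 1 * (q : O) ^ 1) z (b : LRing q M O),
        e z = algebraMap _ _ b → e (nodeDiag hhu z) = algebraMap _ _ (τ b) := by
  set X := kXL haux hM hA hζ
  set Y := kYL haux hM hA hζ
  set f := algebraMap (LRing q M O) (AdicCompletion 𝔪 (LRing q M O))
  have hq : (q : O) ∈ maximalIdeal O := natCast_q_mem_maximal hO'
  obtain ⟨Φ, hsurj, hΦC, hΦX, hΦY, hequiv⟩ :=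
    exists_nodeHom haux hA hO hO' hϖ hM hζ hqm hinf hzero hg ht hg' ht' hτC hτX hτY hτ
  obtain ⟨hinj, hne⟩ :=
    nodeHom_branch haux hA hO hO' hϖ hM hζ hqm hinf hzero hg ht hq Φ hΦC hΦX hΦY
  obtain ⟨-, hYzero⟩ := kXL_kYL_unit haux hA hO hO' hM hζ hqm hinf hzero hg ht
  have hbX0 : branch hq 0 (nodeVar (q : O) 0) = PowerSeries.X := by
    rw [branch_nodeVar, if_pos rfl]
  have hkey : ∀ (i : Fin 2) (z zX : Node O (q : O)) (b x : LRing q M O), Φ z = f b → Φ zX = f x →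
      branch hq i zX ≠ 0 → constL ϖ ∣ b * x → branch hq i z = 0 := fun i z zX b x hz hx hne hd => by
    obtain ⟨w, hw⟩ := hd
    obtain ⟨wN, hwN⟩ := hsurj (f w)
    have h1 : z * zX = nodeC (q : O) ϖ * wN := hinj (by
      rw [map_mul, map_mul, hz, hx, hΦC, hwN, ← map_mul, ← map_mul, hw])
    have h2 := congrArg (branch hq i) h1
    rw [map_mul, map_mul, branch_nodeC, residue_uniformiser hϖ.maximalIdeal_eq, map_zero,
      zero_mul] at h2
    exact (mul_eq_zero.mp h2).resolve_right hne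
  obtain ⟨YN, hYN⟩ := hsurj (f Y)
  refine ⟨RingEquiv.ofBijective Φ ⟨hinj, hsurj⟩, hΦC, hΦX, hΦY, fun z b hz hb => ?_,
    fun z b hz hb => ?_, fun z b hz => (hne z b hz).1, fun z b hz => (hne z b hz).2, hequiv⟩
  · exact hkey 0 z _ b X hz hΦX (hbX0 ▸ PowerSeries.X_ne_zero)
      (dvd_of_mem_pInf_pZero hO hO' hϖ (Ideal.mul_mem_right _ _ hb)
        (Ideal.mul_mem_left _ _ (kXL_mem_pZero haux hM hA hζ hO hqm)))
  · exact hkey 1 z YN b Y hz hYN ((hne YN Y hYN).2 hYzero)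
      (dvd_of_mem_pInf_pZero hO hO' hϖ
        (Ideal.mul_mem_left _ _ (kYL_mem_pInf haux hM hA hζ hO hqm)) (Ideal.mul_mem_right _ _ hb))

include haux hA hO hO' hϖ hM hζ hqm in
/-- **The completion at a point of one component only.** -/
theorem exists_smooth_iso [IsNoetherianRing (LRing q M O)] {𝔪 : Ideal (LRing q M O)}
    [h𝔪 : 𝔪.IsMaximal] (hϖm : constL ϖ ∈ 𝔪) :
    haveI := hO'.dvr
    (pInf hO ≤ 𝔪 → ¬ pZero hO ≤ 𝔪 → ∀ {τ0 : ℍ} (hg : GoodPoint haux O τ0),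
      raiseL M (tPar haux hA hg) ∈ 𝔪 →
      ∃ e : PowerSeries O ≃+* AdicCompletion 𝔪 (LRing q M O),
        (∀ r, e (PowerSeries.C r) = algebraMap _ _ (constL r : LRing q M O)) ∧
        e PowerSeries.X = algebraMap _ _ (raiseL M (tPar haux hA hg) : LRing q M O) ∧
        (∀ z, ∀ b : LRing q M O, e z = algebraMap _ _ b → b ∈ pInf hO → psRes z = 0) ∧
        ∀ z, ∀ b : LRing q M O, e z = algebraMap _ _ b → UnitInf P b → psRes z ≠ 0) ∧
    (pZero hO ≤ 𝔪 → ¬ pInf hO ≤ 𝔪 → ∀ {τ0 : ℍ} (hg : GoodPoint haux O τ0),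
      (atkinEquiv hM hζ).symm (raiseL M (tPar haux hA hg)) ∈ 𝔪 →
      ∃ e : PowerSeries O ≃+* AdicCompletion 𝔪 (LRing q M O),
        (∀ r, e (PowerSeries.C r) = algebraMap _ _ (constL r : LRing q M O)) ∧
        e PowerSeries.X = algebraMap _ _ ((atkinEquiv hM hζ).symm (raiseL M (tPar haux hA hg))) ∧
        (∀ z, ∀ b : LRing q M O, e z = algebraMap _ _ b → b ∈ pZero hO → psRes z = 0) ∧
        ∀ z, ∀ b : LRing q M O, e z = algebraMap _ _ b → UnitZero P b → psRes z ≠ 0) := by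
  refine ⟨fun hinf hzero τ0 hg ht => ?_, fun hzero hinf τ0 hg ht => ?_⟩
  · obtain ⟨hgen, hTreg, hnot⟩ := param_inf haux hA hO hO' hϖ hM hζ hqm hinf hzero hg ht
    obtain ⟨z0, hz0, hzm⟩ := SetLike.not_le_iff_exists.mp hzero
    obtain ⟨e, heC, heX, -, he⟩ := exists_param_iso hO' hϖ hϖm ht hgen hTreg
    refine ⟨e, heC, heX, fun z b hz hb => (he z b hz).mpr ⟨z0, hzm,
      dvd_of_mem_pInf_pZero hO hO' hϖ (Ideal.mul_mem_left _ _ hb)
        (Ideal.mul_mem_right _ _ hz0)⟩, fun z b hz hb h0 => ?_⟩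
    obtain ⟨s, hs, hd⟩ := (he z b hz).mp h0
    exact hnot hb s hs hd
  · obtain ⟨hgen, hTreg, hnot⟩ := param_zero haux hA hO hO' hϖ hM hζ hqm hzero hinf hg ht
    obtain ⟨z0, hz0, hzm⟩ := SetLike.not_le_iff_exists.mp hinf
    obtain ⟨e, heC, heX, -, he⟩ := exists_param_iso hO' hϖ hϖm ht hgen hTreg
    refine ⟨e, heC, heX, fun z b hz hb => (he z b hz).mpr ⟨z0, hzm,
      dvd_of_mem_pInf_pZero hO hO' hϖ (Ideal.mul_mem_right _ _ hz0)
        (Ideal.mul_mem_left _ _ hb)⟩, fun z b hz hb h0 => ?_⟩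
    obtain ⟨s, hs, hd⟩ := (he z b hz).mp h0
    exact hnot hb s hs hd

end FermatAgent.BAD
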