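import Fermat.Agent.BAD.NodeRoot

/-!
# Enlarging the coefficients of power series and nodes

A finite extension of complete discrete valuation rings has a linear retraction; applied to the
coefficients it retracts series and nodes linearly over the smaller ring.
-/

set_option autoImplicit false

noncomputable section

open IsLocalRing MvPowerSeries

namespace FermatAgent.BAD

section Retraction

variable {O O₂ : Type} [CommRing O] [IsDomain O] [IsDiscreteValuationRing O]
  [IsAdicComplete (maximalIdeal O) O] [CommRing O₂] [IsDomain O₂] [IsDiscreteValuationRing O₂]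
  (f : O →+* O₂)

theorem finite_quotient_of_finite_residue [Finite (ResidueField O₂)] {x : O₂} (hx : x ≠ 0) :
    Finite (O₂ ⧸ Ideal.span {x}) := by
  obtain ⟨π, hπ⟩ := IsDiscreteValuationRing.exists_irreducible O₂
  obtain ⟨k, u, rfl⟩ := IsDiscreteValuationRing.eq_unit_mul_pow_irreducible hx hπ
  rw [show Ideal.span {(u : O₂) * π ^ k} = Ideal.span {π} ^ k by
    rw [Ideal.span_singleton_pow, Ideal.span_singleton_eq_span_singleton]
    exact (associated_unit_mul_left (π ^ k) u u.isUnit)]
  have : Finite (O₂ ⧸ Ideal.span {π}) := by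
    rw [← hπ.maximalIdeal_eq]; exact (inferInstance : Finite (ResidueField O₂))
  exact Ideal.finite_quotient_pow ⟨{π}, by rw [Finset.coe_singleton]⟩ k

/-- A finite extension has a linear retraction. -/
theorem exists_retraction [Finite (ResidueField O₂)] (hf : Function.Injective f) {ϖ : O}
    (hϖ : Irreducible ϖ) (hϖ₂ : f ϖ ∈ maximalIdeal O₂) :
    ∃ ρ : O₂ →+ O, (∀ a x, ρ (f a * x) = a * ρ x) ∧ ρ 1 = 1 := by
  classical
  let := f.toAlgebra
  have : Module.IsTorsionFree O O₂ := Module.isTorsionFree_iff_algebraMap_injective.mpr hf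
  have := finite_quotient_of_finite_residue (x := f ϖ)
    (fun h => hϖ.ne_zero (hf (h.trans (map_zero f).symm)))
  have hI : (maximalIdeal O).map f = Ideal.span {f ϖ} := by
    rw [hϖ.maximalIdeal_eq, Ideal.map_span, Set.image_singleton]
  have : IsHausdorff (maximalIdeal O) O₂ := by
    refine IsHausdorff.map_algebraMap_iff.mp
      (IsHausdorff.of_isLocalRing ((maximalIdeal O).map (algebraMap O O₂)) O₂ ?_)
    intro h
    change (maximalIdeal O).map f = ⊤ at h
    rw [hI, Ideal.span_singleton_eq_top] at h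
    exact hϖ₂ h
  have : Module.Finite O O₂ := by
    have := Fintype.ofFinite (O₂ ⧸ Ideal.span {f ϖ})
    choose rep hrep using Ideal.Quotient.mk_surjective (I := Ideal.span {f ϖ})
    let F : ((O₂ ⧸ Ideal.span {f ϖ}) → O) →ₗ[O] O₂ := Fintype.linearCombination O rep
    have : IsPrecomplete (maximalIdeal O) ((O₂ ⧸ Ideal.span {f ϖ}) → O) :=
      (IsAdicComplete.of_module_finite (maximalIdeal O)
        ((O₂ ⧸ Ideal.span {f ϖ}) → O)).toIsPrecomplete
    refine Module.Finite.of_surjective F (surjective_of_mkQ_comp_surjective (I := maximalIdeal O)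
      fun z => ?_)
    obtain ⟨z, rfl⟩ := Submodule.mkQ_surjective _ z
    refine ⟨Pi.single (Ideal.Quotient.mk _ z) 1, ?_⟩
    rw [LinearMap.comp_apply, Submodule.mkQ_apply, Submodule.mkQ_apply, Submodule.Quotient.eq,
      Ideal.smul_top_eq_map, Submodule.restrictScalars_mem]
    show F _ - z ∈ (maximalIdeal O).map f
    rw [hI, ← Ideal.Quotient.eq, Fintype.linearCombination_apply_single, one_smul]
    exact hrep _
  have : Module.Free O O₂ := Module.free_of_finite_type_torsion_free'
  let b := Module.Free.chooseBasis O O₂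
  obtain ⟨i, hi⟩ : ∃ i, IsUnit (b.repr 1 i) := by
    by_contra hno
    push Not at hno
    have h1 : (1 : O₂) ∈ (maximalIdeal O).map f := by
      rw [← b.sum_repr 1]
      refine Ideal.sum_mem _ fun j _ => ?_
      rw [Algebra.smul_def]
      exact Ideal.mul_mem_right _ _ (Ideal.mem_map_of_mem _ (hno j))
    rw [hI, Ideal.mem_span_singleton] at h1
    exact hϖ₂ (isUnit_of_dvd_one h1)
  obtain ⟨v, hv⟩ := hi.exists_left_inv
  refine ⟨(v • b.coord i).toAddMonoidHom, fun a x => ?_, hv⟩
  show (v • b.coord i) (a • x) = a * (v • b.coord i) x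
  rw [map_smul, smul_eq_mul]

end Retraction

section Series

variable {O O₂ : Type} [CommRing O] [CommRing O₂] {f : O →+* O₂} {σ : Type} (ρ : O₂ →+ O)

/-- The retraction on coefficients. -/
def coefRetr : MvPowerSeries σ O₂ →+ MvPowerSeries σ O where
  toFun s := fun d => ρ (coeff d s)
  map_zero' := funext fun _ => by simp; rfl
  map_add' s t := funext fun d => by
    show ρ (coeff d (s + t)) = ρ (coeff d s) + ρ (coeff d t)
    rw [map_add, map_add]

theorem coeff_coefRetr (s : MvPowerSeries σ O₂) (d : σ →₀ ℕ) :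
    coeff d (coefRetr ρ s) = ρ (coeff d s) := rfl

variable {ρ} (hρ : ∀ a x, ρ (f a * x) = a * ρ x) (h1 : ρ 1 = 1)
include hρ

/-- The retraction on coefficients is linear over the smaller series ring. -/
theorem coefRetr_mul (a : MvPowerSeries σ O) (s : MvPowerSeries σ O₂) :
    coefRetr ρ (MvPowerSeries.map f a * s) = a * coefRetr ρ s := by
  classical
  ext d
  simp only [coeff_coefRetr, coeff_mul, map_sum, coeff_map, hρ]

include h1 in
/-- The retraction on coefficients fixes the smaller series ring. -/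
theorem coefRetr_map (a : MvPowerSeries σ O) : coefRetr ρ (MvPowerSeries.map f a) = a := by
  ext d
  rw [coeff_coefRetr, coeff_map, ← mul_one (f _), hρ, h1, mul_one]

end Series

section Node

variable {O O₂ : Type} [CommRing O] [CommRing O₂] (f : O →+* O₂) (c : O)

theorem map_nodeRel : MvPowerSeries.map f (nodeRel O c) = nodeRel O₂ (f c) := by
  simp [nodeRel]

/-- The node over larger coefficients. -/
def nodeExt : Node O c →+* Node O₂ (f c) :=
  Ideal.Quotient.lift _ ((nodeMk (f c)).comp (MvPowerSeries.map f)) fun x hx => by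
    obtain ⟨g, rfl⟩ := Ideal.mem_span_singleton.mp hx
    rw [RingHom.comp_apply, nodeMk_eq_zero_iff, map_mul, map_nodeRel]
    exact dvd_mul_right _ _

/-- The node over larger coefficients on classes of series. -/
@[simp] theorem nodeExt_nodeMk (x : MvPowerSeries (Fin 2) O) :
    nodeExt f c (nodeMk c x) = nodeMk (f c) (MvPowerSeries.map f x) := rfl

/-- The node over larger coefficients on constants. -/
theorem nodeExt_nodeC (r : O) : nodeExt f c (nodeC c r) = nodeC (f c) (f r) := by
  rw [nodeC, RingHom.comp_apply, nodeExt_nodeMk, MvPowerSeries.map_C]; rfl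

/-- A retraction of the coefficients retracts the node linearly. -/
theorem exists_nodeRetr {ρ : O₂ →+ O} (hρ : ∀ a x, ρ (f a * x) = a * ρ x) (h1 : ρ 1 = 1) :
    ∃ R : Node O₂ (f c) →+ Node O c,
      (∀ a x, R (nodeExt f c a * x) = a * R x) ∧ R 1 = 1 := by
  let R0 : MvPowerSeries (Fin 2) O₂ →+ Node O c :=
    (nodeMk c).toAddMonoidHom.comp (coefRetr ρ)
  have hker : ∀ s, nodeMk (f c) s = 0 → R0 s = 0 := fun s hs => by
    obtain ⟨g, rfl⟩ := nodeMk_eq_zero_iff.mp hs
    show nodeMk c (coefRetr ρ _) = 0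
    rw [← map_nodeRel, coefRetr_mul hρ, map_mul, nodeMk_eq_zero_iff.mpr (dvd_refl _), zero_mul]
  let sec := Function.surjInv (nodeMk_surjective (f c))
  have hsec : ∀ s, R0 (sec (nodeMk (f c) s)) = R0 s := fun s => by
    rw [← sub_eq_zero, ← map_sub]
    exact hker _ (by rw [map_sub, Function.surjInv_eq (nodeMk_surjective (f c)), sub_self])
  refine ⟨{ toFun := fun x => R0 (sec x)
            map_zero' := by rw [← map_zero (nodeMk (f c)), hsec, map_zero]
            map_add' := fun x y => ?_ }, fun a x => ?_, ?_⟩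
  · obtain ⟨s, rfl⟩ := nodeMk_surjective (f c) x
    obtain ⟨t, rfl⟩ := nodeMk_surjective (f c) y
    rw [← map_add, hsec, hsec, hsec, map_add]
  · obtain ⟨s, rfl⟩ := nodeMk_surjective (f c) x
    obtain ⟨b, rfl⟩ := nodeMk_surjective c a
    show R0 (sec _) = _ * R0 (sec _)
    rw [nodeExt_nodeMk, ← map_mul, hsec, hsec]
    show nodeMk c (coefRetr ρ _) = nodeMk c b * nodeMk c (coefRetr ρ _)
    rw [coefRetr_mul hρ, map_mul]
  · show R0 (sec 1) = 1
    rw [← map_one (nodeMk (f c)), hsec]
    show nodeMk c (coefRetr ρ 1) = 1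
    rw [← map_one (MvPowerSeries.map (σ := Fin 2) f), coefRetr_map hρ h1, map_one]

end Node

section Descend

variable {O : Type} [CommRing O] [IsDomain O] [IsDiscreteValuationRing O] {ϖ c : O}
  {a : Fin 2 → O} {E : ℕ} [NeZero E]

/-- A tame covering of nodes has a linear retraction. -/
theorem exists_nodeDiagRetr (hϖ : Irreducible ϖ) (hc : c ∈ maximalIdeal O)
    (h : (RingHom.id O) c = a 0 * a 1 * ϖ ^ E) (ha : ∀ i, IsUnit (a i)) :
    ∃ R : Node O ϖ →+ Node O c, (∀ z x, R (nodeDiag h z * x) = z * R x) ∧ R 1 = 1 := by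
  have hinj := nodeDiag_id_injective hc (unif_mem hϖ) hϖ h ha
  choose R hR using fun x : Node O ϖ => exists_of_nodeProj_eq h ha (nodeProj_idem (E := E) x)
  refine ⟨{ toFun := R, map_zero' := hinj ?_, map_add' := fun x y => hinj ?_ },
    fun z x => hinj ?_, hinj ?_⟩
  · rw [hR, map_zero, ← map_zero (nodeC ϖ), nodeProj_nodeC]
  · rw [map_add, hR, hR, hR, nodeProj_add]
  · show nodeDiag h (R _) = nodeDiag h (z * R x)
    rw [map_mul, hR, hR, nodeProj_mul (nodeProj_nodeDiag h z)]
  · show nodeDiag h (R 1) = nodeDiag h 1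
    rw [hR, map_one, ← map_one (nodeC ϖ), nodeProj_nodeC]

end Descend

end FermatAgent.BAD
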