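import Fermat.Agent.BAD.Diamond.Group
import Mathlib.LinearAlgebra.Matrix.Charpoly.Coeff
import Mathlib.RingTheory.IntegralClosure.IntegrallyClosed

/-!
# The cyclic covering as an algebra over the functions on `Γ₀(q) ∩ Γ(M)`

With `h` a function on the covering with the tautological multiplier and `F = h ^ E`, every
function times `F` is a combination of `1, h, …, h ^ (E - 1)`.
-/

set_option autoImplicit false

open UpperHalfPlane CongruenceSubgroup Polynomial
open scoped MatrixGroups Manifold

noncomputable section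

namespace FermatAgent.BAD

open FermatAgent.ES (BSub BRing act zetaC AuxLevel CPlace GoodRoot)

variable {q M m : ℕ} [hq : Fact q.Prime] [NeZero M] {O : Subring ℂ} {χ : (ZMod q)ˣ →* ℂˣ}

local notation "BR" => InvRing q M O (lamH M χ)
local notation "AR" => LRing q M O
local notation "E" => ordH χ

instance invRing_isDomain {Λ : Subgroup SL(2, ℤ)} : IsDomain (InvRing q M O Λ) :=
  (serI_injective (1 : SL(2, ℤ))).isDomain _

/-- The inclusion of the base ring. -/
abbrev inclA : AR →+* BR := ofLRing (lamH_le χ)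

/-- The base ring embeds in the covering ring. -/
theorem inclA_injective : Function.Injective (inclA (O := O) (M := M) (χ := χ)) := fun _ _ h =>
  Subtype.ext (congrArg (fun x : BR => (x : ℍ → ℂ)) h)

variable (χ) in
/-- A translation by the generator of the covering group. -/
def galI (hM : M.Coprime q) (i : ℕ) : BR →+* BR :=
  actI ((genH hM ^ i : lam q M) : SL(2, ℤ)) (conj_mem_lamH χ (genH hM ^ i).2)

section Gal

variable (hM : M.Coprime q)

theorem coe_galI (i : ℕ) (f : BR) :
    (galI χ hM i f : ℍ → ℂ) = act ((genH hM ^ i : lam q M) : SL(2, ℤ)) (f : ℍ → ℂ) := rfl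

/-- The covering group fixes the base. -/
theorem galI_inclA (i : ℕ) (a : AR) : galI χ hM i (inclA a) = inclA a :=
  Subtype.ext (a.2.2.2 _ (genH hM ^ i).2)

/-- The covering group fixes the constants. -/
theorem galI_constI (i : ℕ) (r : O) : galI χ hM i (constI r) = constI r := Subtype.ext rfl

/-- The translation by the zeroth power of the generator is the identity. -/
theorem galI_zero (f : BR) : galI χ hM 0 f = f := Subtype.ext (by
  rw [coe_galI, pow_zero, Subgroup.coe_one, ES.act_one])

/-- Translations by powers of the generator compose. -/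
theorem galI_galI (i j : ℕ) (f : BR) : galI χ hM j (galI χ hM i f) = galI χ hM (i + j) f :=
  Subtype.ext (by rw [coe_galI, coe_galI, coe_galI, ← ES.act_mul, pow_add, Subgroup.coe_mul])

/-- The translation by the `E`-th power of the generator is the identity. -/
theorem galI_ordH (f : BR) : galI χ hM E f = f := Subtype.ext (f.2.2 _ (genH_pow_ordH χ hM))

theorem sum_galI_shift (G : ℕ → BR) (hG : G E = G 0) :
    ∑ i ∈ Finset.range E, G (i + 1) = ∑ i ∈ Finset.range E, G i := by
  have h1 := Finset.sum_range_succ' G E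
  rw [Finset.sum_range_succ, hG] at h1
  exact (add_right_cancel h1).symm

include hM in
/-- Functions fixed by the generator come from the base. -/
theorem exists_inclA_of_fixed {f : BR} (h : galI χ hM 1 f = f) : ∃ a : AR, inclA a = f := by
  have hpow : ∀ i, galI χ hM i f = f := fun i => by
    induction i with
    | zero => exact galI_zero hM f
    | succ i ih => rw [← galI_galI, ih, h]
  refine ⟨⟨f, mem_LRing.mpr ⟨⟨f.2.1.1, fun δ hδ => ?_⟩, f.2.1.2⟩⟩, Subtype.ext rfl⟩
  obtain ⟨i, -, hi⟩ := exists_charH_eq_genH_pow χ hM ⟨δ, hδ⟩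
  rw [act_eq_act_of_charH χ f.2.2 hδ (genH hM ^ i).2 (by rw [Subtype.coe_eta]; exact hi)]
  exact congrArg Subtype.val (hpow i)

end Gal

variable (M O χ) in
/-- A function with the tautological multiplier. -/
structure CoverGen (hM : M.Coprime q) where
  /-- The function. -/
  h : InvRing q M O (lamH M χ)
  /-- The root of unity. -/
  ζ : O
  /-- The inverse of the degree. -/
  inv : O
  coe_ζ : (ζ : ℂ) = zetaH χ
  inv_mul : (inv : ℂ) * (ordH χ : ℂ) = 1
  law : galI χ hM 1 h = constI ζ * h
  ne : h ≠ 0

namespace CoverGen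

variable {hM : M.Coprime q} (H : CoverGen M O χ hM)

theorem ζ_pow : H.ζ ^ E = 1 := Subtype.ext (by
  rw [SubmonoidClass.coe_pow, H.coe_ζ, OneMemClass.coe_one, (zetaH_prim χ).pow_eq_one])

/-- Lowering the exponent of the inverse root of unity by one multiplies by the root. -/
theorem ζ_inv_pow_succ (i k : ℕ) :
    (H.ζ ^ (E - 1)) ^ (i * k) = (H.ζ ^ (E - 1)) ^ (i * (k + 1)) * H.ζ ^ i := by
  rw [← pow_mul, ← pow_mul, ← pow_add,
    show (E - 1) * (i * (k + 1)) + i = (E - 1) * (i * k) + E * i by
      conv_rhs => rw [show E * i = (E - 1) * i + i by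
        rw [← Nat.succ_mul, Nat.succ_eq_add_one, Nat.sub_add_cancel NeZero.one_le]]
      ring,
    pow_add _ _ (E * i), pow_mul _ E i, H.ζ_pow, one_pow, mul_one]

/-- The inverse root of unity to the power `E - 1` is the root. -/
theorem ζ_inv_pow_pred (i : ℕ) : (H.ζ ^ (E - 1)) ^ (i * (E - 1)) = H.ζ ^ i := by
  rw [← pow_mul]
  obtain ⟨e, he⟩ : ∃ e, E = e + 1 := ⟨E - 1, (Nat.sub_add_cancel NeZero.one_le).symm⟩
  have h1 := H.ζ_pow
  rw [he] at h1 ⊢
  rw [Nat.add_sub_cancel]
  rcases e with _ | e
  · rw [zero_add, pow_one] at h1; rw [h1, one_pow, one_pow]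
  · rw [show (e + 1) * (i * (e + 1)) = i + (e + 1 + 1) * (i * e) by ring, pow_add,
      pow_mul _ (e + 1 + 1), h1, one_pow, mul_one]

theorem ζ_sum (k : ℕ) : ∑ i ∈ Finset.range E, (H.ζ ^ k) ^ i = if E ∣ k then (E : O) else 0 := by
  refine Subtype.ext ?_
  rw [AddSubmonoidClass.coe_finsetSum]
  simp only [SubmonoidClass.coe_pow, H.coe_ζ]
  split_ifs with h
  · rw [((zetaH_prim χ).pow_eq_one_iff_dvd k).mpr h]
    simp
  · rw [geom_sum_eq (fun h1 => h (((zetaH_prim χ).pow_eq_one_iff_dvd k).mp h1)), ← pow_mul,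
      mul_comm, pow_mul, (zetaH_prim χ).pow_eq_one, one_pow, sub_self, zero_div]
    rfl

theorem galI_h (i : ℕ) : galI χ hM i H.h = constI (H.ζ ^ i) * H.h := by
  induction i with
  | zero => rw [galI_zero, pow_zero, map_one, one_mul]
  | succ i ih =>
    rw [← galI_galI, ih, map_mul, galI_constI, H.law, ← mul_assoc, ← map_mul, pow_succ]

/-- The power `F = h ^ E`. -/
def base : AR := (exists_inclA_of_fixed hM (f := H.h ^ E) (by
  rw [map_pow, H.law, mul_pow, ← map_pow, H.ζ_pow, map_one, one_mul])).choose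

/-- The base function is `h ^ E`. -/
theorem inclA_base : inclA H.base = H.h ^ E :=
  (exists_inclA_of_fixed hM (f := H.h ^ E) (by
    rw [map_pow, H.law, mul_pow, ← map_pow, H.ζ_pow, map_one, one_mul])).choose_spec

/-- The base function is not zero. -/
theorem base_ne : H.base ≠ 0 := fun h0 => pow_ne_zero E H.ne (by rw [← H.inclA_base, h0, map_zero])

/-- The twisted trace. -/
def trI (j : ℕ) (f : BR) : BR :=
  constI H.inv * ∑ i ∈ Finset.range E,
    constI ((H.ζ ^ (E - 1)) ^ (i * j)) * (galI χ hM i f * H.h ^ (E - j))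

theorem galI_trI {j : ℕ} (hj : j ≤ E) (f : BR) : galI χ hM 1 (H.trI j f) = H.trI j f := by
  rw [trI, map_mul, galI_constI, map_sum]
  congr 1
  set G : ℕ → BR := fun i =>
    constI ((H.ζ ^ (E - 1)) ^ (i * j)) * (galI χ hM i f * H.h ^ (E - j))
  have hG : G E = G 0 := by
    simp only [G, galI_ordH, galI_zero, zero_mul, pow_zero]
    rw [show (H.ζ ^ (E - 1)) ^ (E * j) = 1 by
      rw [← pow_mul, mul_left_comm, pow_mul, H.ζ_pow, one_pow]]
  rw [← sum_galI_shift G hG]
  refine Finset.sum_congr rfl fun i _ => ?_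
  simp only [G]
  rw [map_mul, galI_constI, map_mul, map_pow (galI χ hM 1), galI_galI, H.law, mul_pow, ← map_pow,
    mul_left_comm _ (constI (H.ζ ^ (E - j))), ← mul_assoc, ← map_mul]
  congr 2
  rw [← pow_mul, ← pow_mul, ← pow_add]
  have e : (E - 1) * ((i + 1) * j) + j = ((E - 1) * (i * j)) + E * j := by
    conv_rhs => rw [show E * j = (E - 1) * j + j by
      rw [← Nat.succ_mul, Nat.succ_eq_add_one, Nat.sub_add_cancel NeZero.one_le]]
    ring
  rw [show H.ζ ^ ((E - 1) * (i * j) + (E - j)) =
    H.ζ ^ ((E - 1) * (i * j) + (E - j)) * H.ζ ^ (E * j) by rw [pow_mul, H.ζ_pow, one_pow, mul_one],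
    ← pow_add, show (E - 1) * (i * j) + (E - j) + E * j = (E - 1) * ((i + 1) * j) + E by omega,
    pow_add, H.ζ_pow, mul_one]

/-- The components. -/
def comp (j : Fin E) (f : BR) : AR :=
  (exists_inclA_of_fixed hM (H.galI_trI j.2.le f)).choose

theorem inclA_comp (j : Fin E) (f : BR) : inclA (H.comp j f) = H.trI j f :=
  (exists_inclA_of_fixed hM (H.galI_trI j.2.le f)).choose_spec

/-- The components of a function give back `F` times it. -/
theorem sum_comp (f : BR) : ∑ j : Fin E, inclA (H.comp j f) * H.h ^ (j : ℕ) =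
    inclA H.base * f := by
  rw [H.inclA_base]
  simp only [H.inclA_comp, trI]
  rw [Fin.sum_univ_eq_sum_range fun j => constI H.inv * (∑ i ∈ Finset.range E,
    constI ((H.ζ ^ (E - 1)) ^ (i * j)) * (galI χ hM i f * H.h ^ (E - j))) * H.h ^ j]
  have h1 : ∀ j ∈ Finset.range E, constI H.inv * (∑ i ∈ Finset.range E,
      constI ((H.ζ ^ (E - 1)) ^ (i * j)) * (galI χ hM i f * H.h ^ (E - j))) * H.h ^ j =
      ∑ i ∈ Finset.range E,
        constI (((H.ζ ^ (E - 1)) ^ i) ^ j) * (constI H.inv * galI χ hM i f * H.h ^ E) :=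
    fun j hj => by
      rw [Finset.mul_sum, Finset.sum_mul]
      refine Finset.sum_congr rfl fun i _ => ?_
      rw [← pow_mul (H.ζ ^ (E - 1)) i j, show H.h ^ E = H.h ^ (E - j) * H.h ^ j by
        rw [← pow_add, Nat.sub_add_cancel (Finset.mem_range.mp hj).le]]
      ring
  rw [Finset.sum_congr rfl h1, Finset.sum_comm]
  simp only [← Finset.sum_mul, ← map_sum]
  rw [Finset.sum_eq_single 0]
  · rw [galI_zero, ← pow_mul, mul_zero, H.ζ_sum, if_pos (dvd_zero _), mul_comm (H.h ^ E),
      ← mul_assoc, ← mul_assoc, ← map_mul]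
    conv_rhs => rw [← one_mul f, ← map_one (constI (q := q) (M := M) (O := O) (Λ := lamH M χ))]
    congr 3
    exact Subtype.ext (by
      rw [mul_comm]
      show (H.inv : ℂ) * ((E : O) : ℂ) = 1
      rw [show ((E : O) : ℂ) = (E : ℂ) by simp, H.inv_mul])
  · intro i hi hi0
    rw [← pow_mul, H.ζ_sum, if_neg, map_zero, zero_mul]
    intro hd
    have hcop : Nat.Coprime (ordH χ) (ordH χ - 1) := by
      rw [Nat.coprime_comm, Nat.coprime_self_sub_left NeZero.one_le]
      exact Nat.coprime_one_left _
    exact hi0 (Nat.eq_zero_of_dvd_of_lt (hcop.dvd_of_dvd_mul_left hd) (Finset.mem_range.mp hi))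
  · exact fun h => absurd (Finset.mem_range.mpr (NeZero.pos _)) h

/-- The powers of `h` below `E` are free. -/
theorem free {a : Fin E → AR} (h : ∑ j, inclA (a j) * H.h ^ (j : ℕ) = 0) (k : Fin E) : a k = 0 := by
  have h1 : ∀ i, ∑ j : Fin E, inclA (a j) * (constI ((H.ζ ^ (j : ℕ)) ^ i) * H.h ^ (j : ℕ)) = 0 :=
    fun i => by
      have h2 := congrArg (galI χ hM i) h
      rw [map_sum, map_zero] at h2
      refine Eq.trans (Finset.sum_congr rfl fun j _ => ?_) h2
      rw [map_mul, galI_inclA, map_pow (galI χ hM i), H.galI_h, mul_pow, ← map_pow,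
        ← pow_mul, ← pow_mul, mul_comm (j : ℕ)]
  have h2 : ∑ j : Fin E, ∑ i ∈ Finset.range E, constI ((H.ζ ^ (E - k)) ^ i) *
      (inclA (a j) * (constI ((H.ζ ^ (j : ℕ)) ^ i) * H.h ^ (j : ℕ))) = 0 := by
    rw [Finset.sum_comm]
    refine Finset.sum_eq_zero fun i _ => ?_
    rw [← Finset.mul_sum, h1, mul_zero]
  have h3 : ∀ j : Fin E, ∑ i ∈ Finset.range E, constI ((H.ζ ^ (E - k)) ^ i) *
      (inclA (a j) * (constI ((H.ζ ^ (j : ℕ)) ^ i) * H.h ^ (j : ℕ))) =
      constI (if E ∣ (E - k) + j then (E : O) else 0) * (inclA (a j) * H.h ^ (j : ℕ)) := fun j => by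
    rw [← H.ζ_sum, map_sum, Finset.sum_mul]
    refine Finset.sum_congr rfl fun i _ => ?_
    rw [pow_add, mul_pow, map_mul]
    ring
  simp only [h3] at h2
  rw [Finset.sum_eq_single k (fun j _ hj => ?_) (fun h => absurd (Finset.mem_univ k) h),
    if_pos (by rw [Nat.sub_add_cancel k.2.le]), map_natCast] at h2
  · have hE : (E : BR) ≠ 0 := fun h0 => by
      have h4 := map_natCast ((Pi.evalRingHom (fun _ : ℍ => ℂ) UpperHalfPlane.I).comp
        (InvRing q M O (lamH M χ)).subtype) E
      rw [h0, map_zero] at h4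
      exact NeZero.ne E (Nat.cast_eq_zero.mp h4.symm)
    refine inclA_injective (χ := χ) ?_
    rw [map_zero]
    exact ((mul_eq_zero.mp ((mul_eq_zero.mp h2).resolve_left hE))).resolve_right
      (pow_ne_zero _ H.ne)
  · rw [if_neg, map_zero, zero_mul]
    intro hd
    refine hj (Fin.ext ?_)
    obtain ⟨c, hc⟩ := hd
    have hj2 := j.2
    have hk2 := k.2
    rcases c with _ | _ | c
    · omega
    · omega
    · have : E * (c + 2) ≤ E - (k : ℕ) + (j : ℕ) := le_of_eq hc.symm
      rw [mul_add] at this
      omega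

variable (M O χ) in
/-- The covering as an algebra over the base. -/
abbrev algB : Algebra AR BR := (inclA (χ := χ)).toAlgebra

/-- The components are additive. -/
theorem comp_add (j : Fin E) (f g : BR) : H.comp j (f + g) = H.comp j f + H.comp j g :=
  inclA_injective (χ := χ) (by
    rw [map_add, H.inclA_comp, H.inclA_comp, H.inclA_comp]
    simp only [trI, map_add, add_mul, mul_add, Finset.sum_add_distrib])

theorem comp_inclA_mul (j : Fin E) (a : AR) (f : BR) :
    H.comp j (inclA a * f) = a * H.comp j f :=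
  inclA_injective (χ := χ) (by
    rw [map_mul, H.inclA_comp, H.inclA_comp]
    simp only [trI, map_mul, galI_inclA, Finset.mul_sum]
    exact Finset.sum_congr rfl fun i _ => by ring)

include H in
/-- The covering ring is finite over the base. -/
theorem finite [IsNoetherianRing AR] :
    letI := algB (q := q) M O χ
    Module.Finite AR BR := by
  let := algB (q := q) M O χ
  let L : BR →ₗ[AR] (Fin E → AR) :=
    { toFun := fun f j => H.comp j f
      map_add' := fun f g => funext fun j => H.comp_add j f g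
      map_smul' := fun a f => funext fun j => by
        rw [Algebra.smul_def]
        exact H.comp_inclA_mul j a f }
  refine Module.Finite.of_injective L ((injective_iff_map_eq_zero L).mpr fun f hf => ?_)
  have h1 := H.sum_comp f
  rw [Finset.sum_eq_zero fun j _ => by
    rw [show H.comp j f = 0 from congrFun hf j, map_zero, zero_mul]] at h1
  exact (mul_eq_zero.mp h1.symm).resolve_left fun h0 =>
    H.base_ne (inclA_injective (χ := χ) (h0.trans (map_zero _).symm))

section Point

variable (haux : AuxLevel M m) (hA : GoodRoot M O (zetaC M))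

include haux hA hM in
/-- A point of the covering ring over the constants is an evaluation. -/
theorem exists_point (ψ : BR →+* ℂ) (hψ : ∀ r : O, ψ (constI r) = r) :
    ∃ τ : ℍ, ∀ f : BR, ψ f = (f : ℍ → ℂ) τ := by
  classical
  obtain ⟨τ0, hτ0⟩ := exists_point_of_constHom haux hA (ψ.comp (inclA (χ := χ))) fun r => by
    rw [RingHom.comp_apply, inclA, ofLRing_constL, hψ]
  let e : ℕ → BR →+* ℂ := fun i =>
    (Pi.evalRingHom (fun _ : ℍ => ℂ) τ0).comp
      ((InvRing q M O (lamH M χ)).subtype.comp (galI χ hM i))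
  have key : ∀ b : BR, ∃ i < E, ψ b = e i b := by
    intro b
    set Pl : BR[X] := ∏ i ∈ Finset.range E, (X - C (galI χ hM i b))
    have hfix : Pl.map (galI χ hM 1) = Pl := by
      simp only [Pl, Polynomial.map_prod, Polynomial.map_sub, Polynomial.map_X, Polynomial.map_C,
        galI_galI]
      have h1 := Finset.prod_range_succ' (fun i => X - C (galI χ hM i b)) E
      rw [Finset.prod_range_succ, galI_ordH] at h1
      rw [galI_zero] at h1
      exact (mul_right_cancel₀ (X_sub_C_ne_zero b) h1).symm
    have hcoef : Pl.map ψ = Pl.map (e 0) := by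
      ext k
      rw [coeff_map, coeff_map]
      obtain ⟨a, ha⟩ := exists_inclA_of_fixed hM (f := Pl.coeff k)
        (by rw [← coeff_map, hfix])
      rw [← ha, ← RingHom.comp_apply, hτ0]
      show _ = (galI χ hM 0 (inclA a) : ℍ → ℂ) τ0
      rw [galI_zero]
      rfl
    have h0 : (Pl.map ψ).eval (ψ b) = 0 := by
      rw [Polynomial.eval_map, Polynomial.eval₂_at_apply]
      simp only [Pl, Polynomial.eval_prod, eval_sub, eval_X, eval_C]
      rw [Finset.prod_eq_zero (Finset.mem_range.mpr (NeZero.pos E))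
        (by rw [galI_zero, sub_self]), map_zero]
    rw [hcoef] at h0
    simp only [Pl, Polynomial.map_prod, Polynomial.map_sub, Polynomial.map_X, Polynomial.map_C,
      Polynomial.eval_prod, eval_sub, eval_X, eval_C, Finset.prod_eq_zero_iff] at h0
    obtain ⟨i, hi, hi0⟩ := h0
    refine ⟨i, Finset.mem_range.mp hi, ?_⟩
    rw [sub_eq_zero.mp hi0]
    show (galI χ hM 0 (galI χ hM i b) : ℍ → ℂ) τ0 = (galI χ hM i b : ℍ → ℂ) τ0
    rw [galI_zero]
  suffices h : ∃ i < E, ∀ f : BR, ψ f = e i f by
    obtain ⟨i, -, hi⟩ := h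
    exact ⟨((genH hM ^ i : lam q M) : SL(2, ℤ)) • τ0, fun f => hi f⟩
  by_contra hno
  push Not at hno
  choose w hw using hno
  let b : Fin E → BR := fun k => w k k.2
  let Q : ℕ → ℂ[X] := fun i => ∑ k : Fin E, C (ψ (b k) - e i (b k)) * X ^ (k : ℕ)
  have hQ : ∏ i ∈ Finset.range E, Q i ≠ 0 := Finset.prod_ne_zero_iff.mpr fun i hi h0 => by
    have h1 := congrArg (fun p => p.coeff i) h0
    simp only [Q, finsetSum_coeff, coeff_C_mul, coeff_X_pow, coeff_zero, mul_ite, mul_one,
      mul_zero] at h1
    rw [Finset.sum_eq_single (⟨i, Finset.mem_range.mp hi⟩ : Fin E)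
      (fun k _ hk => if_neg fun h => hk (Fin.ext h.symm)) (fun h => absurd (Finset.mem_univ _) h),
      if_pos rfl, sub_eq_zero] at h1
    exact hw i (Finset.mem_range.mp hi) h1
  obtain ⟨t, ht⟩ : ∃ t : ℕ, (∏ i ∈ Finset.range E, Q i).eval (t : ℂ) ≠ 0 := by
    by_contra hall
    push Not at hall
    exact hQ (Polynomial.eq_zero_of_infinite_isRoot _
      (Set.infinite_of_injective_forall_mem (Nat.cast_injective (R := ℂ)) hall))
  obtain ⟨i, hi, hbi⟩ := key (∑ k : Fin E, (t : BR) ^ (k : ℕ) * b k)
  refine ht ?_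
  rw [eval_prod, Finset.prod_eq_zero (Finset.mem_range.mpr hi)]
  simp only [Q, eval_finsetSum, eval_mul, eval_C, eval_pow, eval_X, sub_mul, Finset.sum_sub_distrib]
  rw [sub_eq_zero]
  simpa [mul_comm] using hbi

end Point

section Extend

variable {R : Type} [CommRing R] [IsDomain R] [IsIntegrallyClosed R] (γ : LRing q M O →+* R) {r : R}

/-- The polynomial attached to a function. -/
def poly (f : BR) : AR[X] := ∑ j : Fin E, C (H.comp j f) * X ^ (j : ℕ)

/-- The polynomial of a function evaluates at `h` to `F` times it. -/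
theorem eval_poly (f : BR) : (H.poly f).eval₂ inclA H.h = inclA H.base * f := by
  simp only [poly, eval₂_finsetSum, eval₂_mul, eval₂_C, eval₂_X_pow]
  exact H.sum_comp f

omit [IsDomain R] [IsIntegrallyClosed R] in
/-- Relations at `h` pass to any root of the image of the base function. -/
theorem eval_eq_zero (hr : r ^ E = γ H.base) {p : AR[X]} (hp : p.eval₂ inclA H.h = 0) :
    p.eval₂ γ r = 0 := by
  have hmon : (X ^ E - C H.base : AR[X]).Monic := monic_X_pow_sub_C _ (NeZero.ne E)
  obtain ⟨d, hd⟩ : ∃ d, p = p %ₘ (X ^ E - C H.base) + (X ^ E - C H.base) * d :=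
    ⟨_, (Polynomial.modByMonic_add_div p _).symm⟩
  have hdeg : (p %ₘ (X ^ E - C H.base)).natDegree < E := by
    have h := Polynomial.natDegree_modByMonic_lt p hmon (by
      intro h1
      have h2 := congrArg natDegree h1
      rw [natDegree_X_pow_sub_C, natDegree_one] at h2
      exact NeZero.ne E h2)
    rwa [natDegree_X_pow_sub_C] at h
  have hz : ∀ k : Fin E, (p %ₘ (X ^ E - C H.base)).coeff k = 0 := by
    refine H.free (a := fun k => (p %ₘ (X ^ E - C H.base)).coeff k) ?_
    rw [hd] at hp
    simp only [eval₂_add, eval₂_mul, eval₂_sub, eval₂_X_pow, eval₂_C, H.inclA_base, sub_self,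
      zero_mul, add_zero] at hp
    rwa [eval₂_eq_sum_range' _ hdeg, ← Fin.sum_univ_eq_sum_range] at hp
  have h0 : p %ₘ (X ^ E - C H.base) = 0 := Polynomial.ext fun k => by
    rw [coeff_zero]
    by_cases hk : k < E
    · exact hz ⟨k, hk⟩
    · exact coeff_eq_zero_of_natDegree_lt (by omega)
  rw [hd, h0, zero_add]
  simp [hr]

omit [IsDomain R] [IsIntegrallyClosed R] in
/-- Polynomials agreeing at `h` agree at any root of the image of the base function. -/
theorem eval_congr (hr : r ^ E = γ H.base) {p p' : AR[X]}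
    (hp : p.eval₂ inclA H.h = p'.eval₂ inclA H.h) : p.eval₂ γ r = p'.eval₂ γ r := by
  rw [← sub_eq_zero, ← eval₂_sub]
  exact H.eval_eq_zero γ hr (by rw [eval₂_sub, sub_eq_zero]; exact hp)

include H in
/-- A map of the base extends along a root of the image of `F`. -/
theorem exists_extend [IsNoetherianRing AR] (hr : r ^ E = γ H.base) (hγ : γ H.base ≠ 0) :
    ∃ ι : BR →+* R, (∀ a, ι (inclA a) = γ a) ∧ ι H.h = r := by
  let := algB (q := q) M O χ
  have := H.finite
  set K := FractionRing R
  set al := algebraMap R K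
  have hb : al (γ H.base) ≠ 0 :=
    fun h => hγ (IsFractionRing.injective R K (h.trans (map_zero al).symm))
  let ev : AR[X] →+* R := eval₂RingHom γ r
  have hev : ∀ {p p' : AR[X]}, p.eval₂ inclA H.h = p'.eval₂ inclA H.h → ev p = ev p' :=
    fun h => H.eval_congr γ hr h
  let φ : BR →+* K :=
    { toFun := fun f => al (ev (H.poly f)) / al (γ H.base)
      map_one' := by
        rw [hev (p' := C H.base) (by rw [H.eval_poly, eval₂_C, mul_one]),
          show ev (C H.base) = γ H.base from eval₂_C _ _, div_self hb]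
      map_zero' := by
        rw [hev (p' := 0) (by rw [H.eval_poly, mul_zero, eval₂_zero]), map_zero, map_zero, zero_div]
      map_add' := fun f g => by
        rw [hev (p' := H.poly f + H.poly g) (by
          rw [eval₂_add, H.eval_poly, H.eval_poly, H.eval_poly, mul_add]), map_add,
            map_add, add_div]
      map_mul' := fun f g => by
        rw [div_mul_div_comm, eq_div_iff (mul_ne_zero hb hb), div_mul_eq_mul_div, div_eq_iff hb,
          ← map_mul al (ev _) (ev _), ← map_mul ev]
        rw [hev (p := H.poly f * H.poly g) (p' := H.poly (f * g) * C H.base) (by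
          rw [eval₂_mul, eval₂_mul, H.eval_poly, H.eval_poly, H.eval_poly, eval₂_C]; ring),
          map_mul, show ev (C H.base) = γ H.base from eval₂_C _ _, map_mul]
        ring }
  have hφA : ∀ a, φ (inclA a) = al (γ a) := fun a => by
    show al (ev _) / _ = _
    rw [hev (p' := C (H.base * a)) (by rw [H.eval_poly, eval₂_C, map_mul]),
      show ev (C (H.base * a)) = γ (H.base * a) from eval₂_C _ _, map_mul, map_mul,
      mul_div_cancel_left₀ _ hb]
  have hint : ∀ f, IsIntegral R (φ f) := fun f => by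
    obtain ⟨p, hp, hpf⟩ := Algebra.IsIntegral.isIntegral (R := AR) f
    refine ⟨p.map γ, hp.map γ, ?_⟩
    rw [eval₂_map]
    have h := congrArg φ hpf
    rw [map_zero, hom_eval₂, show φ.comp (algebraMap AR BR) = al.comp γ from RingHom.ext hφA] at h
    exact h
  choose w hw using fun f => IsIntegrallyClosed.algebraMap_eq_of_integral (hint f)
  have hinj : Function.Injective al := IsFractionRing.injective R K
  refine ⟨{ toFun := w
            map_one' := hinj ((hw 1).trans (φ.map_one.trans al.map_one.symm))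
            map_zero' := hinj ((hw 0).trans (φ.map_zero.trans al.map_zero.symm))
            map_add' := fun f g => hinj ((hw _).trans ((φ.map_add f g).trans (by
              rw [map_add]; exact congrArg₂ (· + ·) (hw f).symm (hw g).symm)))
            map_mul' := fun f g => hinj ((hw _).trans ((φ.map_mul f g).trans (by
              rw [map_mul]; exact congrArg₂ (· * ·) (hw f).symm (hw g).symm))) },
    fun a => hinj ((hw _).trans (hφA a)), hinj ((hw _).trans ?_)⟩
  show al (ev _) / _ = _
  rw [hev (p' := X * C H.base) (by rw [H.eval_poly, eval₂_mul, eval₂_X, eval₂_C, mul_comm]),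
    map_mul, show ev (C H.base) = γ H.base from eval₂_C _ _, show ev X = r from eval₂_X _ _,
    map_mul, mul_div_cancel_right₀ _ hb]

end Extend

section Detect

variable {R : Type} [CommRing R] (ι : InvRing q M O (lamH M χ) →+* R) {J : Ideal (LRing q M O)}
  (pr : R →+ LRing q M O ⧸ J)
  (hpr : ∀ a x, pr (ι (inclA a) * x) = Ideal.Quotient.mk J a * pr x)
  (hpr1 : pr 1 = 1)
include hpr hpr1

theorem pr_map (a : AR) : pr (ι (inclA a)) = Ideal.Quotient.mk J a := by
  have h := hpr a 1
  rwa [mul_one, hpr1, mul_one] at h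

/-- Membership is detected on the translates of one extension, up to `E F²`. -/
theorem detect {b g u : BR} {x y : ℕ → R}
    (h : ∀ i < E, ι (galI χ hM i b) = x i * ι (galI χ hM i g) + y i * ι (galI χ hM i u)) :
    constI (E : O) * inclA (H.base * H.base) * b ∈ Ideal.span {g, u} ⊔ J.map inclA := by
  set K : Ideal BR := J.map (inclA (χ := χ))
  set j : AR ⧸ J →+* BR ⧸ K := Ideal.Quotient.lift J ((Ideal.Quotient.mk K).comp inclA)
    fun a ha => Ideal.Quotient.eq_zero_iff_mem.mpr (Ideal.mem_map_of_mem _ ha)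
  set mk := Ideal.Quotient.mk K
  have hζ : ∀ r : O, ι (constI r) = ι (inclA (constL r)) := fun r => by
    rw [inclA, ofLRing_constL]
  set cf : ℕ → (ℕ → R) → R := fun k x => ∑ i ∈ Finset.range E,
    ι (constI ((H.ζ ^ (E - 1)) ^ (i * k))) * (x i * ι H.h ^ (E - k))
  set Pr : (ℕ → R) → BR ⧸ K := fun x =>
    ∑ k : Fin E, j (pr (cf k x)) * mk H.h ^ (k : ℕ)
  have hadd : ∀ x x', Pr (fun i => x i + x' i) = Pr x + Pr x' := fun x x' => by
    simp only [Pr, cf, add_mul, mul_add, Finset.sum_add_distrib, map_add]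
  have hA' : ∀ a x, Pr (fun i => ι (galI χ hM i (inclA a)) * x i) = mk (inclA a) * Pr x :=
    fun a x => by
      simp only [Pr, galI_inclA, Finset.mul_sum]
      refine Finset.sum_congr rfl fun k _ => ?_
      rw [show cf k (fun i => ι (inclA a) * x i) = ι (inclA a) * cf k x by
        simp only [cf, Finset.mul_sum]; exact Finset.sum_congr rfl fun i _ => by ring,
        hpr, map_mul, mul_assoc]
      rfl
  have hh : ∀ x, Pr (fun i => ι (galI χ hM i H.h) * x i) = mk H.h * Pr x := fun x => by
    have hstep : ∀ k, k + 1 ≤ E → cf (k + 1) (fun i => ι (galI χ hM i H.h) * x i) = cf k x := by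
      intro k hk
      simp only [cf]
      refine Finset.sum_congr rfl fun i _ => ?_
      rw [H.galI_h, map_mul, show E - k = E - (k + 1) + 1 by omega, pow_succ]
      rw [H.ζ_inv_pow_succ i k, map_mul, map_mul]
      ring
    have h0 : cf 0 (fun i => ι (galI χ hM i H.h) * x i) = ι (inclA H.base) * cf (E - 1) x := by
      simp only [cf, Finset.mul_sum, Nat.sub_zero, mul_zero, pow_zero, map_one, one_mul]
      refine Finset.sum_congr rfl fun i _ => ?_
      rw [H.galI_h, map_mul, H.inclA_base, map_pow, Nat.sub_sub_self NeZero.one_le, pow_one,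
        H.ζ_inv_pow_pred i]
      simp only [map_pow]
      ring
    simp only [Pr, Finset.mul_sum]
    obtain ⟨e, he⟩ : ∃ e, E = e + 1 := ⟨E - 1, (Nat.sub_add_cancel NeZero.one_le).symm⟩
    rw [Fin.sum_univ_eq_sum_range fun k =>
        j (pr (cf k fun i => ι (galI χ hM i H.h) * x i)) * mk H.h ^ k,
      Fin.sum_univ_eq_sum_range fun k => mk H.h * (j (pr (cf k x)) * mk H.h ^ k)]
    conv_lhs => rw [he, Finset.sum_range_succ']
    conv_rhs => rw [he, Finset.sum_range_succ]
    refine congrArg₂ (· + ·) (Finset.sum_congr rfl fun k hk => ?_) ?_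
    · rw [hstep k (by have := Finset.mem_range.mp hk; omega)]
      ring
    · rw [h0, hpr, map_mul, show j (Ideal.Quotient.mk J H.base) = mk (inclA H.base) from rfl,
        H.inclA_base, map_pow, show E - 1 = e by omega, he]
      ring
  have hmul : ∀ c x, mk (inclA H.base) * Pr (fun i => ι (galI χ hM i c) * x i) =
      mk (inclA H.base * c) * Pr x := fun c x => by
    have hpow : ∀ (k : ℕ) x, Pr (fun i => ι (galI χ hM i (H.h ^ k)) * x i) =
        mk H.h ^ k * Pr x := fun k => by
      induction k with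
      | zero => intro x; simp
      | succ k ih =>
        intro x
        have := hh (fun i => ι (galI χ hM i (H.h ^ k)) * x i)
        rw [ih, ← mul_assoc, ← pow_succ'] at this
        rw [← this]
        congr 1
        funext i
        rw [pow_succ', map_mul, map_mul, mul_assoc]
    rw [← hA', ← H.sum_comp c]
    have hzero : Pr (fun _ => 0) = 0 := by simp [Pr, cf]
    have hsum : ∀ (s : Finset (Fin E)) (f : Fin E → ℕ → R),
        Pr (fun i => ∑ k ∈ s, f k i) = ∑ k ∈ s, Pr (f k) := fun s f => by
      induction s using Finset.induction with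
      | empty => simpa using hzero
      | insert k s hk ih => simp only [Finset.sum_insert hk]; rw [hadd, ih]
    rw [show (fun i => ι (galI χ hM i (inclA H.base)) * (ι (galI χ hM i c) * x i)) =
      fun i => ∑ k : Fin E, ι (galI χ hM i (inclA (H.comp k c))) *
        (ι (galI χ hM i (H.h ^ (k : ℕ))) * x i) by
      funext i
      rw [← mul_assoc, ← map_mul, ← map_mul, ← H.sum_comp c, map_sum, map_sum, Finset.sum_mul]
      exact Finset.sum_congr rfl fun k _ => by rw [map_mul, map_mul, mul_assoc], hsum, map_sum,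
      Finset.sum_mul]
    exact Finset.sum_congr rfl fun k _ => by rw [hA', hpow, map_mul, map_pow, mul_assoc]
  have hb : Pr (fun i => ι (galI χ hM i b)) = mk (constI (E : O) * (inclA H.base * b)) := by
    rw [← H.sum_comp b, Finset.mul_sum, map_sum]
    refine Finset.sum_congr rfl fun k _ => ?_
    rw [show cf k (fun i => ι (galI χ hM i b)) =
      ι (inclA (constL (E : O) * H.comp k b)) by
      rw [map_mul inclA,
        show inclA (constL (E : O)) = (constI (E : O) : BR) from ofLRing_constL _ _,
        H.inclA_comp, trI, ← mul_assoc, ← map_mul, show (E : O) * H.inv = 1 from Subtype.ext (by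
          rw [mul_comm]
          show (H.inv : ℂ) * ((E : O) : ℂ) = 1
          rw [show ((E : O) : ℂ) = (E : ℂ) by simp, H.inv_mul]), map_one, one_mul]
      simp only [cf, map_sum, map_mul, map_pow], pr_map ι pr hpr hpr1]
    show mk (inclA (constL (E : O) * H.comp k b)) * mk H.h ^ (k : ℕ) = _
    rw [map_mul inclA, ← map_pow, ← map_mul, mul_assoc, inclA, ofLRing_constL]
  have h1 : Pr (fun i => ι (galI χ hM i b)) = Pr (fun i => ι (galI χ hM i g) * x i) +
      Pr (fun i => ι (galI χ hM i u) * y i) := by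
    rw [← hadd]
    simp only [Pr]
    refine Finset.sum_congr rfl fun k _ => ?_
    congr 3
    simp only [cf]
    refine Finset.sum_congr rfl fun i hi => ?_
    rw [h i (Finset.mem_range.mp hi)]
    ring
  have h2 := congrArg (mk (inclA H.base) * ·) h1
  simp only [mul_add] at h2
  rw [hmul, hmul, hb, ← map_mul] at h2
  obtain ⟨X1, hX1⟩ := Ideal.Quotient.mk_surjective (Pr x)
  obtain ⟨X2, hX2⟩ := Ideal.Quotient.mk_surjective (Pr y)
  rw [← hX1, ← hX2, ← map_mul, ← map_mul, ← map_add, Ideal.Quotient.eq] at h2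
  rw [show constI (E : O) * inclA (H.base * H.base) * b =
    (g * (inclA H.base * X1) + u * (inclA H.base * X2)) +
    (inclA H.base * (constI (E : O) * (inclA H.base * b)) -
      (inclA H.base * g * X1 + inclA H.base * u * X2)) by rw [map_mul]; ring]
  exact Submodule.add_mem_sup
    (add_mem (Ideal.mul_mem_right _ _ (Ideal.subset_span (by simp)))
      (Ideal.mul_mem_right _ _ (Ideal.subset_span (by simp)))) h2

end Detect

end CoverGen

end FermatAgent.BAD
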