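import Fermat.Agent.BAD.Diamond.Coeff

/-!
# Roots on the tame covering of a node under a twisted semilinear map

`τ` fixes the first coordinate; if `τ Y ≡ Y'` on the second branch and `Y`, `Y'` are constants times
`n`-th powers, then `τ²Y · Y' · (τY · τY') ^ (n - 1)` has a root congruent to `τY · τY'`.
-/

set_option autoImplicit false

noncomputable section

open IsLocalRing

namespace FermatAgent.BAD

section Ext

variable {O O₂ : Type} [CommRing O] [CommRing O₂] (f : O →+* O₂)

theorem map_diagMap {σ : O →+* O} {σ₂ : O₂ →+* O₂} (hσ : ∀ r, σ₂ (f r) = f (σ r)) (a : Fin 2 → O)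
    (E : ℕ) [NeZero E] (x : MvPowerSeries (Fin 2) O) :
    MvPowerSeries.map f (diagMap σ a E x) =
      diagMap σ₂ (fun i => f (a i)) E (MvPowerSeries.map f x) := by
  ext d
  by_cases h : ∀ i, E ∣ d i
  · obtain ⟨d', rfl⟩ := exists_eq_smul h
    simp only [MvPowerSeries.coeff_map, coeff_diagMap_smul, map_mul, map_pow, hσ]
  · push Not at h
    obtain ⟨i, hi⟩ := h
    rw [MvPowerSeries.coeff_map, coeff_diagMap_of_not_dvd _ _ _ _ hi,
      coeff_diagMap_of_not_dvd _ _ _ _ hi, map_zero]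

/-- Enlarging the coefficients commutes with diagonal maps. -/
theorem nodeExt_nodeDiag {σ : O →+* O} {σ₂ : O₂ →+* O₂} (hσ : ∀ r, σ₂ (f r) = f (σ r))
    {a : Fin 2 → O} {E : ℕ} [NeZero E] {c c' : O} (h : σ c = a 0 * a 1 * c' ^ E)
    (h₂ : σ₂ (f c) = f (a 0) * f (a 1) * f c' ^ E) (x : Node O c) :
    nodeExt f c' (nodeDiag h x) =
      nodeDiag (a := fun i => f (a i)) h₂ (nodeExt f c x) := by
  obtain ⟨g, rfl⟩ := nodeMk_surjective c x
  rw [nodeDiag_nodeMk, nodeExt_nodeMk, nodeExt_nodeMk, nodeDiag_nodeMk, map_diagMap f hσ]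

variable [IsLocalRing O] [IsLocalRing O₂] [IsLocalHom f]

/-- The branches commute with enlarging the coefficients. -/
theorem branch_nodeExt {c : O} (hc : c ∈ maximalIdeal O) (hc₂ : f c ∈ maximalIdeal O₂) (i : Fin 2)
    (x : Node O c) : branch hc₂ i (nodeExt f c x) =
      PowerSeries.map (ResidueField.map f) (branch hc i x) := by
  obtain ⟨g, rfl⟩ := nodeMk_surjective c x
  ext e
  rw [nodeExt_nodeMk, branch_nodeMk, branch_nodeMk, PowerSeries.coeff_map, coeff_axisHom,
    coeff_axisHom, MvPowerSeries.coeff_map, ResidueField.map_residue]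

/-- A non-zero branch stays non-zero over larger coefficients. -/
theorem branch_nodeExt_ne_zero {c : O} (hc : c ∈ maximalIdeal O) (hc₂ : f c ∈ maximalIdeal O₂)
    {i : Fin 2} {x : Node O c} (hx : branch hc i x ≠ 0) : branch hc₂ i (nodeExt f c x) ≠ 0 := by
  rw [branch_nodeExt f hc hc₂]
  exact fun h => hx (PowerSeries.map_injective _ (RingHom.injective _) (h.trans (map_zero _).symm))

end Ext

section Comm

variable {O : Type} [CommRing O] [IsDomain O] {σ : O →+* O} {c ϖ a₁ u θ : O} {E : ℕ} [NeZero E]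

omit [NeZero E] in
theorem tame_unit_eq (hϖ : ϖ ≠ 0)
    (hca : (RingHom.id O) c = ![(1 : O), a₁] 0 * ![(1 : O), a₁] 1 * ϖ ^ E)
    (hu : σ c = ![(1 : O), u] 0 * ![(1 : O), u] 1 * c ^ 1) (hθ : σ ϖ = θ * ϖ) :
    u * a₁ = θ ^ E * σ a₁ := by
  have h1 : c = a₁ * ϖ ^ E := by simpa using hca
  have h2 : σ c = u * c := by simpa using hu
  rw [h1, map_mul, map_pow, hθ, mul_pow] at h2
  exact mul_right_cancel₀ (pow_ne_zero E hϖ) (by linear_combination -h2)

/-- The covering commutes with the semilinear maps. -/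
theorem tame_comm (hϖ : ϖ ≠ 0)
    (hca : (RingHom.id O) c = ![(1 : O), a₁] 0 * ![(1 : O), a₁] 1 * ϖ ^ E)
    (hu : σ c = ![(1 : O), u] 0 * ![(1 : O), u] 1 * c ^ 1)
    (hτ : σ ϖ = ![(1 : O), θ] 0 * ![(1 : O), θ] 1 * ϖ ^ 1) (x : Node O c) :
    nodeDiag hca (nodeDiag hu x) = nodeDiag hτ (nodeDiag hca x) := by
  have hua := tame_unit_eq hϖ hca hu (θ := θ) (by simpa using hτ)
  have hb : σ c = ![1, u * a₁] 0 * ![1, u * a₁] 1 * ϖ ^ E := by
    have h1 : c = a₁ * ϖ ^ E := by simpa using hca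
    have h2 : σ c = u * c := by simpa using hu
    simp only [Matrix.cons_val_zero, Matrix.cons_val_one, one_mul]
    rw [h2]; nth_rewrite 1 [h1]; ring
  rw [nodeDiag_nodeDiag hca hu hb (mul_one E) (RingHom.id_comp σ) ?_ x,
    nodeDiag_nodeDiag hτ hca hb (one_mul E) (RingHom.comp_id σ) ?_ x]
  · intro i; fin_cases i <;> simp [hua]
  · intro i; fin_cases i <;> simp [mul_comm a₁ u]

end Comm

section Const

variable {R : Type} [CommRing R] [IsLocalRing R] [IsAdicComplete (maximalIdeal R) R]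

/-- A unit with constant residue is a constant times an `n`-th power. -/
theorem exists_const_mul_pow {O : Type} [CommRing O] {C : O →+* R} {n : ℕ} (hn : IsUnit (n : R))
    {U : R} {c : O} (hc : IsUnit c) (h : residue R U = residue R (C c)) :
    ∃ H : R, U = C c * H ^ n := by
  obtain ⟨d, hd⟩ := (hc.map C).exists_left_inv
  obtain ⟨α, hα, -⟩ := exists_root_of_residue hn (u := d * U) (r := 1) isUnit_one (by
    rw [map_one, one_pow, map_mul, h, ← map_mul, hd, map_one])
  exact ⟨α, by rw [hα, ← mul_assoc, mul_comm (C c) d, hd, one_mul]⟩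

end Const

section Units

variable {O : Type} [CommRing O] [IsDomain O] [IsDiscreteValuationRing O]
  [IsAdicComplete (maximalIdeal O) O] {n : ℕ}

/-- A unit of a node is a constant times an `n`-th power for `n` invertible. -/
theorem node_unit_eq_const_mul_pow {c : O} (hc : c ∈ maximalIdeal O) (hn : IsUnit (n : O))
    {U : Node O c} (hU : IsUnit U) :
    ∃ (c₀ : O) (H : Node O c), IsUnit c₀ ∧ U = nodeC c c₀ * H ^ n := by
  have := node_isLocalRing hc
  have : IsAdicComplete (maximalIdeal (Node O c)) (Node O c) := node_isAdicComplete hc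
  obtain ⟨F, rfl⟩ := nodeMk_surjective c U
  have : IsLocalHom (nodeMk c) := IsLocalHom.of_surjective _ (nodeMk_surjective c)
  have hF : IsUnit F := isUnit_of_map_unit (nodeMk c) F hU
  have hc0 : IsUnit (MvPowerSeries.constantCoeff F) := hF.map _
  obtain ⟨H, hH⟩ := exists_const_mul_pow (R := Node O c) (C := nodeC c)
    (by simpa using hn.map (nodeC c)) (U := nodeMk c F) hc0 (by
      rw [← sub_eq_zero, ← map_sub, residue_eq_zero_iff, IsLocalRing.mem_maximalIdeal,
        mem_nonunits_iff, nodeC, RingHom.comp_apply, ← map_sub]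
      intro h
      have h1 := (isUnit_of_map_unit (nodeMk c) _ h).map (MvPowerSeries.constantCoeff (σ := Fin 2))
      rw [map_sub, MvPowerSeries.constantCoeff_C, sub_self] at h1
      exact not_isUnit_zero h1)
  exact ⟨_, H, hc0, hH⟩

/-- A unit power series is a constant times an `n`-th power for `n` invertible. -/
theorem ps_unit_eq_const_mul_pow (hn : IsUnit (n : O)) {U : PowerSeries O} (hU : IsUnit U) :
    ∃ (c₀ : O) (H : PowerSeries O), IsUnit c₀ ∧ U = PowerSeries.C c₀ * H ^ n := by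
  obtain ⟨ϖ, hϖ⟩ := IsDiscreteValuationRing.exists_irreducible O
  have : IsAdicComplete (maximalIdeal (PowerSeries O)) (PowerSeries O) :=
    GaloisBasic.isAdicComplete_mvPowerSeries_of_complete
  have hc0 : IsUnit (PowerSeries.constantCoeff U) := hU.map _
  obtain ⟨H, hH⟩ := exists_const_mul_pow (R := PowerSeries O) (C := PowerSeries.C)
    (by rw [← map_natCast (PowerSeries.C (R := O))]; exact hn.map _) (U := U) hc0 (by
      rw [← sub_eq_zero, ← map_sub, residue_eq_zero_iff, IsLocalRing.mem_maximalIdeal,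
        mem_nonunits_iff, PowerSeries.isUnit_iff_constantCoeff, map_sub,
        PowerSeries.constantCoeff_C, sub_self]
      exact not_isUnit_zero)
  exact ⟨_, H, hc0, hH⟩

end Units

section Jump

variable {O : Type} [CommRing O] [IsDomain O] [IsDiscreteValuationRing O]
  [IsAdicComplete (maximalIdeal O) O] {ϖ : O} (hϖ : Irreducible ϖ) {σ : O →+* O}
  (hσ : ∀ r, residue O (σ r) = residue O r) {θ : O}

include hσ in
/-- **The root on the covering of a node.** -/
theorem exists_root_jump (hτ : σ ϖ = ![(1 : O), θ] 0 * ![(1 : O), θ] 1 * ϖ ^ 1) {n : ℕ}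
    (hn : IsUnit (n : O)) {Y Y' : Node O ϖ} {c c' : O} {H H' : Node O ϖ} (hc : IsUnit c)
    (hc' : IsUnit c') (hY : Y = nodeC ϖ c * H ^ n) (hY' : Y' = nodeC ϖ c' * H' ^ n)
    (hbY : branch (unif_mem hϖ) 1 Y' ≠ 0)
    (h1 : branch (unif_mem hϖ) 1 (nodeDiag hτ Y) = branch (unif_mem hϖ) 1 Y') :
    ∃ L, L ^ n = nodeDiag hτ (nodeDiag hτ Y) * Y' * (nodeDiag hτ Y * nodeDiag hτ Y') ^ (n - 1) ∧
      nodeC ϖ ϖ ∣ L - nodeDiag hτ Y * nodeDiag hτ Y' := by
  have hϖm := unif_mem hϖ
  set τ := nodeDiag hτ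
  set br := branch hϖm
  have hn0 : n ≠ 0 := by rintro rfl; simp at hn
  have hnk : IsUnit (n : ResidueField O) := by
    rw [← map_natCast (residue O)]; exact hn.map _
  have hτC : ∀ r, τ (nodeC ϖ r) = nodeC ϖ (σ r) := fun r => nodeDiag_nodeC _ r
  have hb0 : ∀ x, br 0 (τ x) = br 0 x := fun x => by
    rw [branch_semi hϖm hϖm hτ hσ]
    simp [br, PowerSeries.rescale_one]
  have hH' : br 1 H' ≠ 0 := fun h0 => hbY (by
    rw [hY', map_mul, map_pow, show branch (unif_mem hϖ) 1 H' = 0 from h0, zero_pow hn0, mul_zero])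
  -- `τH` and `H'` differ by a constant on the second branch
  obtain ⟨g, hg⟩ : ∃ g, br 1 (τ H) = PowerSeries.C g * br 1 H' := by
    have h2 : PowerSeries.C (residue O c) * br 1 (τ H) ^ n =
        PowerSeries.C (residue O c') * br 1 H' ^ n := by
      have := h1
      rw [hY, hY', map_mul, map_mul (br 1), map_pow τ, hτC, map_mul, map_pow, map_pow, branch_nodeC,
        branch_nodeC, hσ] at this
      exact this
    obtain ⟨d, hd⟩ := (hc.map (residue O)).exists_left_inv
    have h3 : br 1 (τ H) ^ n = PowerSeries.C (d * residue O c') * br 1 H' ^ n := by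
      rw [map_mul, mul_assoc, ← h2, ← mul_assoc, ← map_mul, hd, map_one, one_mul]
    obtain ⟨w, hw⟩ := (IsIntegrallyClosed.pow_dvd_pow_iff hn0).mp
      (show br 1 H' ^ n ∣ br 1 (τ H) ^ n from h3 ▸ dvd_mul_left _ _)
    rw [hw, mul_pow, mul_comm _ (br 1 H' ^ n)] at h3
    have hwn : w ^ n = PowerSeries.C (d * residue O c') := mul_left_cancel₀ (pow_ne_zero n hH') h3
    have hwu : IsUnit w := (isUnit_pow_iff hn0).mp (hwn ▸ ((IsUnit.of_mul_eq_one _ hd).mul
      (hc'.map (residue O))).map _)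
    refine ⟨PowerSeries.constantCoeff w, ?_⟩
    rw [hw, mul_comm]
    congr 1
    refine eq_of_pow_eq_pow (O := PowerSeries (ResidueField O)) (n := n)
      (by rw [PowerSeries.isUnit_iff_constantCoeff, map_natCast]; exact hnk) hwu ?_ ?_
    · rw [← map_pow, ← map_pow, hwn, PowerSeries.constantCoeff_C]
    · rw [← sub_eq_zero, ← map_sub, residue_eq_zero_iff, IsLocalRing.mem_maximalIdeal,
        mem_nonunits_iff, PowerSeries.isUnit_iff_constantCoeff]
      simp
  have hg2 : br 1 (τ (τ H)) = PowerSeries.C g * br 1 (τ H') := by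
    rw [branch_semi hϖm hϖm hτ hσ 1 (τ H), branch_semi hϖm hϖm hτ hσ 1 H', hg, map_mul]
    congr 1
    ext e
    rw [PowerSeries.coeff_rescale, PowerSeries.coeff_C]
    split_ifs with he
    · rw [he, pow_zero, one_mul]
    · rw [mul_zero]
  obtain ⟨α, hα, hαres⟩ := exists_root_of_residue hn
    (u := σ (σ c) * c' * (σ c * σ c') ^ (n - 1)) (r := c * c') (hc.mul hc') (by
      obtain ⟨N, rfl⟩ : ∃ N, n = N + 1 := ⟨n - 1, by omega⟩
      simp only [map_mul, map_pow, hσ, Nat.add_sub_cancel]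
      ring)
  set K := τ (τ H) * H' * (τ H * τ H') ^ (n - 1)
  refine ⟨nodeC ϖ α * K, ?_, ?_⟩
  · rw [mul_pow, ← map_pow (nodeC ϖ), hα, hY, hY']
    simp only [K, map_mul, map_pow, hτC, mul_pow, ← pow_mul]
    ring
  · have hn1 : n - 1 + 1 = n := Nat.sub_add_cancel (Nat.one_le_iff_ne_zero.mpr hn0)
    refine dvd_of_branches hϖm hϖ.maximalIdeal_eq ?_ ?_
    · show br 0 _ = 0
      simp only [K, hY, hY', map_sub, map_mul, map_pow, hb0, hτC, br, branch_nodeC, hαres, hσ]
      rw [← pow_succ', hn1, mul_pow]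
      ring
    · show br 1 _ = 0
      have e : br 1 (τ (τ H) * H') = br 1 (τ H * τ H') := by
        rw [map_mul, map_mul, hg2, hg]; ring
      simp only [K, map_sub, map_mul (br 1) (nodeC ϖ α), map_mul (br 1) _ ((τ H * τ H') ^ (n - 1)),
        e, map_pow (br 1)]
      rw [← pow_succ', hn1, hY, hY']
      simp only [map_mul, map_pow, hτC, br, branch_nodeC, hαres, hσ, mul_pow]
      ring

end Jump

end FermatAgent.BAD
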