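import Fermat.Agent.BAD.Diamond.Group
import Fermat.Agent.BAD.GaloisConj

/-!
# Inertia on the covering

It fixes the functions modulo the uniformiser at the cusps of type `∞` and moves them by the
diamond of its cyclotomic value at the cusps of type `0`.
-/

set_option autoImplicit false

open UpperHalfPlane CongruenceSubgroup
open scoped MatrixGroups

noncomputable section

namespace FermatAgent.BAD

open FermatAgent.ES (BSub BRing SerIn HasLExp lexp lexp_eq lexp_act act zetaC AuxLevel CPlace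
  GalRel modMat mapSer twistSer)

variable {q M m : ℕ} [hq : Fact q.Prime] [NeZero M] {P : CPlace q} {O : Subring ℂ}
  (D : InertData M P O) (χ : (ZMod q)ˣ →* ℂˣ) (haux : AuxLevel M m) (hM : M.Coprime q)

namespace ConjData

variable (C : ConjData q M O) {Λ : Subgroup SL(2, ℤ)}
  (hΛ : ∀ {γ γ' : SL(2, ℤ)}, GalRel (C.a : ZMod (q * M)) γ γ' → γ' ∈ Λ → γ ∈ Λ)

/-- The conjugation of an invariant ring. -/
def conjInv : InvRing q M O Λ →+* InvRing q M O Λ :=
  ((BSub (q * M)).val.toRingHom.comp ((C.conjB haux).comp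
    ((InvRing q M O Λ).subtype.codRestrict (BSub (q * M)) fun f => f.2.1.1))).codRestrict _
    fun f => ⟨C.conjB_mem_BRing haux f.2.1, fun _ hγ =>
      C.act_conjB haux (G := {γ | γ ∈ Λ}) hΛ (fun γ h => f.2.2 γ h) hγ⟩

/-- The expansions of the conjugate. -/
theorem serI_conjInv (f : InvRing q M O Λ) {γ γ' : SL(2, ℤ)}
    (h : GalRel (C.a : ZMod (q * M)) γ γ') :
    serI M O Λ q γ' (C.conjInv haux hΛ f) = mapSer (C.σ : ℂ →+* ℂ) (serI M O Λ q γ f) :=
  C.lexp_conjB haux ⟨f, f.2.1.1⟩ h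

end ConjData

namespace InertData

/-- The cyclotomic value modulo `q`. -/
def aQ : (ZMod q)ˣ := (ES.isUnit_natCast_of_dvd (dvd_mul_right q M) D.unit).unit

omit [NeZero M] in
/-- The cyclotomic value modulo `q`. -/
theorem coe_aQ : ((D.aQ : (ZMod q)ˣ) : ZMod q) = (D.a : ZMod q) := IsUnit.unit_spec _

/-- A lift of the cyclotomic value. -/
def deltaA : lam q M := (exists_lam_lower hM D.aQ).choose

/-- The lift has the cyclotomic value as lower right entry modulo `q`. -/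
theorem lowQ_deltaA : lowQ q (Subgroup.inclusion inf_le_left (D.deltaA hM)) = D.aQ :=
  (exists_lam_lower hM D.aQ).choose_spec

omit [NeZero M] in
theorem galRel_modQ {γ γ' : SL(2, ℤ)} (h : GalRel (D.a : ZMod (q * M)) γ γ') :
    (γ 0 0 : ZMod q) = γ' 0 0 ∧ (γ 1 1 : ZMod q) = γ' 1 1 ∧
      (γ 0 1 : ZMod q) * D.a = γ' 0 1 ∧ (γ 1 0 : ZMod q) = D.a * γ' 1 0 := by
  obtain ⟨h00, h01, h10, h11⟩ := (GalRel.of_dvd (dvd_mul_right q M) h).entries
  have hu : (D.a : ZMod q) ≠ 0 := D.coe_aQ ▸ D.aQ.ne_zero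
  exact ⟨h00.symm, mul_right_cancel₀ hu (by rw [← h11, mul_comm]), h01.symm, h10.symm⟩

omit [NeZero M] in
theorem exists_lam_of_galRel {γ γ' : SL(2, ℤ)} (h : GalRel (D.a : ZMod (q * M)) γ γ')
    (hγ' : γ' ∈ lam q M) :
    ∃ hγ : γ ∈ lam q M, charH M χ ⟨γ, hγ⟩ = charH M χ ⟨γ', hγ'⟩ :=
  ⟨D.lam_of_galRel h hγ', charH_congr χ (Units.ext (D.galRel_modQ h).2.1)⟩

omit [NeZero M] in
theorem lamH_of_galRel {γ γ' : SL(2, ℤ)} (h : GalRel (D.a : ZMod (q * M)) γ γ')
    (hγ' : γ' ∈ lamH M χ) : γ ∈ lamH M χ := by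
  obtain ⟨h', h1⟩ := (mem_lamH χ).mp hγ'
  obtain ⟨hγ, hc⟩ := D.exists_lam_of_galRel χ h h'
  exact (mem_lamH χ).mpr ⟨hγ, hc.trans h1⟩

/-- The conjugation of the covering ring. -/
def conjI : InvRing q M O (lamH M χ) →+* InvRing q M O (lamH M χ) :=
  D.conjInv haux (D.lamH_of_galRel χ)

/-- The expansions of the conjugate on the covering. -/
theorem serI_conjI (f : InvRing q M O (lamH M χ)) {γ γ' : SL(2, ℤ)}
    (h : GalRel (D.a : ZMod (q * M)) γ γ') :
    serI M O (lamH M χ) q γ' (D.conjI χ haux f) =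
      mapSer (D.σ : ℂ →+* ℂ) (serI M O (lamH M χ) q γ f) :=
  D.serI_conjInv haux _ f h

/-- On the base inertia is the conjugation of the coefficients. -/
theorem conjI_ofLRing (f : LRing q M O) :
    D.conjI χ haux (ofLRing (lamH_le χ) f) = ofLRing (lamH_le χ) (D.conjL haux f) := rfl

/-- Inertia commutes with the covering group. -/
theorem conjI_actI {δ : SL(2, ℤ)} (hδ : δ ∈ lam q M) (f : InvRing q M O (lamH M χ)) :
    D.conjI χ haux (actI δ (conj_mem_lamH χ hδ) f) =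
      actI δ (conj_mem_lamH χ hδ) (D.conjI χ haux f) := by
  refine serI_injective 1 ?_
  obtain ⟨γ, hr⟩ := GalRel.exists_left D.unit δ
  obtain ⟨hγ, hc⟩ := D.exists_lam_of_galRel χ hr hδ
  rw [serI_actI, mul_one, D.serI_conjI χ haux _ (GalRel.one _),
    D.serI_conjI χ haux f hr, serI_actI, mul_one]
  congr 1
  rw [serI_apply, serI_apply, ← mul_one δ, ← lexp_act, ← mul_one γ, ← lexp_act,
    act_eq_act_of_charH χ f.2.2 hγ hδ hc]

section Congruence

variable (hO : O ≤ P.ring)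
include hO

omit hq [NeZero M] in
theorem serLT_mapSer_sub {s : LaurentSeries ℂ} (hs : SerIn O s) :
    P.SerLT (mapSer (D.σ : ℂ →+* ℂ) s - s) := fun n => by
  rw [HahnSeries.coeff_sub, ES.coeff_mapSer, RingEquiv.coe_toRingHom]
  exact D.small _ (hO (hs n))

theorem serLT_twist_sub {s : LaurentSeries ℂ} (hs : SerIn O s) {j : ℕ} (hj : M ∣ j) :
    P.SerLT (twistSer (zetaC (q * M) ^ j) s - s) := fun n => by
  rw [HahnSeries.coeff_sub, ES.coeff_twistSer]
  set z := zetaC (q * M) ^ j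
  have hzq : (z ^ n) ^ q = 1 := by
    rw [← zpow_natCast, ← zpow_mul, mul_comm n, zpow_mul, zpow_natCast, pow_prime_twist hj,
      one_zpow]
  rw [show s.coeff n * z ^ n - s.coeff n = -(s.coeff n * (1 - z ^ n)) by ring,
    AbsoluteValue.map_neg, map_mul]
  exact mul_lt_one_of_nonneg_of_lt_one_right (hO (hs n)) (P.abv.nonneg _)
    (abv_one_sub_lt_of_pow_prime P hzq)

include hM in
/-- At the cusps of type `∞` inertia is the identity. -/
theorem conjI_sub_mem_inf (f : InvRing q M O (lamH M χ)) {γ' : SL(2, ℤ)} (hγ' : γ' ∈ Gamma0 q) :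
    D.conjI χ haux f - f ∈ smallI M (lamH M χ) hO γ' := by
  obtain ⟨γ, hr⟩ := GalRel.exists_left D.unit γ'
  have hγ := (D.gamma0_iff hr).mpr hγ'
  have hl : γ' * γ⁻¹ ∈ lam q M :=
    ⟨(Gamma0 q).mul_mem hγ' ((Gamma0 q).inv_mem hγ), ES.mem_Gamma_of_modMat (by
      rw [ES.modMat_mul, D.modMat_eq_of_galRel hM hr, ← ES.modMat_mul, mul_inv_cancel,
        ES.modMat_one])⟩
  have hc : γ' * γ⁻¹ ∈ lamH M χ := by
    refine (mem_lamH χ).mpr ⟨hl, charH_of_diag χ ?_⟩
    have hlow : lowQ q ⟨γ', hγ'⟩ = lowQ q ⟨γ, hγ⟩ := Units.ext (D.galRel_modQ hr).2.1.symm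
    have h1 : lowQ q (⟨γ', hγ'⟩ * ⟨γ, hγ⟩⁻¹) = 1 := by
      rw [map_mul, map_inv, hlow, mul_inv_cancel]
    exact congrArg Units.val h1
  rw [mem_smallI, map_sub, D.serI_conjI χ haux f hr]
  have e : serI M O (lamH M χ) q γ' f = serI M O (lamH M χ) q γ f := by
    rw [serI_apply, serI_apply]
    conv_rhs => rw [← f.2.2 _ hc, lexp_act, inv_mul_cancel_right]
  rw [e]
  exact D.serLT_mapSer_sub hO (serIn_serI γ f)

/-- At the cusps of type `0` inertia is the diamond of its cyclotomic value. -/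
theorem conjI_sub_mem_zero (f : InvRing q M O (lamH M χ)) {γ' : SL(2, ℤ)}
    (hγ' : γ' ∉ Gamma0 q) :
    D.conjI χ haux f - actI (D.deltaA hM : SL(2, ℤ)) (conj_mem_lamH χ (D.deltaA hM).2) f ∈
      smallI M (lamH M χ) hO γ' := by
  obtain ⟨γ, hr⟩ := GalRel.exists_left D.unit γ'
  have hγ : γ ∉ Gamma0 q := fun h => hγ' ((D.gamma0_iff hr).mp h)
  obtain ⟨j, δ, hj, hδ, e⟩ := exists_mem_lam_mul_T_pow hM hγ hγ' (D.modMat_eq_of_galRel hM hr)
  obtain ⟨h00, h11, h01, h10⟩ := D.galRel_modQ hr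
  have hdet : (γ' 0 0 : ZMod q) * γ' 1 1 - (γ' 0 1 : ZMod q) * γ' 1 0 = 1 := by
    have h := congrArg (Int.cast : ℤ → ZMod q) (Matrix.SpecialLinearGroup.det_coe γ')
    rw [Matrix.det_fin_two] at h
    exact_mod_cast h
  have hd : (δ 1 1 : ZMod q) * D.a = 1 := by
    have hd10 : (δ 1 0 : ZMod q) = 0 := Gamma0_mem.mp hδ.1
    have hm : ∀ i k, (γ' i k : ZMod q) =
        (δ i 0 : ZMod q) * ((γ * ModularGroup.T ^ j) 0 k : ℤ) +
          (δ i 1 : ZMod q) * ((γ * ModularGroup.T ^ j) 1 k : ℤ) := fun i k => by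
      rw [e, Matrix.SpecialLinearGroup.coe_mul, Matrix.mul_apply, Fin.sum_univ_two]
      push_cast
      rfl
    have h := hm 1 0
    simp only [Matrix.SpecialLinearGroup.coe_mul, ES.T_pow_coe, Matrix.mul_apply, Fin.sum_univ_two,
      Matrix.of_apply, Matrix.cons_val', Matrix.cons_val_zero, Matrix.cons_val_one,
      Matrix.cons_val_fin_one] at h
    push_cast at h
    simp only [mul_one, mul_zero, add_zero, hd10, zero_mul, zero_add, h10] at h
    have hC : (γ' 1 0 : ZMod q) ≠ 0 := fun h0 => hγ' (Gamma0_mem.mpr h0)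
    exact mul_right_cancel₀ hC (by linear_combination -h)
  have hlow : charH M χ (⟨δ, hδ⟩ : lam q M) * charH M χ (D.deltaA hM) = 1 := by
    show χ (lowQ q ⟨δ, hδ.1⟩) * χ (lowQ q ⟨_, (D.deltaA hM).2.1⟩) = 1
    rw [← map_mul, show lowQ q ⟨_, (D.deltaA hM).2.1⟩ = D.aQ from D.lowQ_deltaA hM]
    refine (congrArg χ (?_ : lowQ q ⟨δ, hδ.1⟩ * D.aQ = 1)).trans (map_one χ)
    refine Units.ext ?_
    rw [Units.val_mul, coe_lowQ, D.coe_aQ, Units.val_one]
    exact hd
  set dA : InvRing q M O (lamH M χ) →+* InvRing q M O (lamH M χ) :=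
    actI (D.deltaA hM : SL(2, ℤ)) (conj_mem_lamH χ (D.deltaA hM).2)
  have hf : act δ (dA f : ℍ → ℂ) = f := by
    rw [coe_actI, ← ES.act_mul, act_eq_act_of_charH χ f.2.2 (mul_mem (D.deltaA hM).2 hδ)
      (one_mem _) ((map_mul (charH M χ) (D.deltaA hM) ⟨δ, hδ⟩).trans
        ((mul_comm _ _).trans (hlow.trans (map_one _).symm))), ES.act_one]
  have h1 : serI M O (lamH M χ) q γ' (dA f) =
      twistSer (zetaC (q * M) ^ j) (serI M O (lamH M χ) q γ f) := by
    rw [serI_apply, serI_apply, e, ← lexp_act, hf, ES.lexp_mul_T_pow f.2.1.1]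
  rw [mem_smallI, map_sub, D.serI_conjI χ haux f hr, h1]
  set s := serI M O (lamH M χ) q γ f
  rw [show mapSer (D.σ : ℂ →+* ℂ) s - twistSer (zetaC (q * M) ^ j) s =
    (mapSer (D.σ : ℂ →+* ℂ) s - s) + -(twistSer (zetaC (q * M) ^ j) s - s) by ring]
  exact CPlace.SerLT.add (D.serLT_mapSer_sub hO (serIn_serI γ f))
    (serLT_twist_sub hO (serIn_serI γ f) hj).neg

/-- The diamond of the cyclotomic value. -/
abbrev diaA : InvRing q M O (lamH M χ) →+* InvRing q M O (lamH M χ) :=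
  actI (D.deltaA hM : SL(2, ℤ)) (conj_mem_lamH χ (D.deltaA hM).2)

/-- Translation moves the functions small at one cusp to those small at another. -/
theorem actI_mem_smallI {δ : SL(2, ℤ)} (hδ : δ ∈ lam q M) {f : InvRing q M O (lamH M χ)}
    {γ : SL(2, ℤ)} (h : f ∈ smallI M (lamH M χ) hO (δ * γ)) :
    actI δ (conj_mem_lamH χ hδ) f ∈ smallI M (lamH M χ) hO γ := by
  rw [mem_smallI, serI_actI]
  exact h

variable (hO' : P.IsCDVR O) {ϖ : O} (hϖ : Irreducible ϖ)
include hO' hϖ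

/-- `τ²y · δy ≡ τy · δτy` modulo the uniformiser. -/
theorem unif_dvd_twist_sub (y : InvRing q M O (lamH M χ)) :
    constI ϖ ∣ D.conjI χ haux (D.conjI χ haux y) * D.diaA χ hM y -
      D.conjI χ haux y * D.diaA χ hM (D.conjI χ haux y) := by
  refine dvd_of_small hO hO' hϖ fun γ => ?_
  set T := D.conjI χ haux
  set d := D.diaA χ hM
  by_cases hγ : γ ∈ Gamma0 q
  · have h1 := D.conjI_sub_mem_inf χ haux hM hO (T y) hγ
    have h2 := D.conjI_sub_mem_inf χ haux hM hO y (mul_mem (D.deltaA hM).2.1 hγ)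
    have h3 : d (T y - y) ∈ smallI M (lamH M χ) hO γ :=
      actI_mem_smallI χ hO (D.deltaA hM).2 h2
    rw [map_sub] at h3
    rw [show T (T y) * d y - T y * d (T y) = (T (T y) - T y) * d y - T y * (d (T y) - d y) by ring]
    exact sub_mem (Ideal.mul_mem_right _ _ h1) (Ideal.mul_mem_left _ _ h3)
  · have h1 := D.conjI_sub_mem_zero χ haux hM hO (T y) hγ
    have h2 := D.conjI_sub_mem_zero χ haux hM hO y hγ
    rw [show T (T y) * d y - T y * d (T y) = (T (T y) - d (T y)) * d y - d (T y) * (T y - d y) by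
      ring]
    exact sub_mem (Ideal.mul_mem_right _ _ h1) (Ideal.mul_mem_left _ _ h2)

end Congruence

end InertData

end FermatAgent.BAD
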