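import Fermat.Agent.BAD.Diamond.Cover
import Fermat.Agent.BAD.Crit
import Fermat.Agent.BAD.CuspRoot
import Fermat.Agent.BAD.Diamond.Twist
import Fermat.Agent.BAD.Diamond.Complete
import Fermat.Agent.BAD.Diamond.Jump

/-!
# Rings detecting membership at the closed points of the special fibre of the covering

At a smooth point (`coverRoot_smooth`) the completion of the covering is a ring of power series, at
a crossing point (`coverRoot_node`) a tame covering of a node; in both the functions with divisible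
multiplicities give the root required by the root criterion (`coverRoot`).
-/

set_option autoImplicit false

open UpperHalfPlane CongruenceSubgroup IsLocalRing
open scoped MatrixGroups

noncomputable section

namespace FermatAgent.BAD

open FermatAgent.ES (BSub BRing act zetaC AuxLevel CPlace GoodRoot GoodPoint)

variable {q M m : ℕ} [hq : Fact q.Prime] [NeZero M] {O : Subring ℂ} {χ : (ZMod q)ˣ →* ℂˣ}

local notation "BR" => InvRing q M O (lamH M χ)
local notation "AR" => LRing q M O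

/-- The multiplicities of the zeros of `y` are divisible by `n`, witnessed on the covering. -/
def DivisibleI (n : ℕ) (y : InvRing q M O (lamH M χ)) : Prop :=
  ∀ τ, (y : ℍ → ℂ) τ = 0 → ∃ (i : ℕ) (e d g : InvRing q M O (lamH M χ)),
    (e : ℍ → ℂ) τ ≠ 0 ∧ (g : ℍ → ℂ) τ ≠ 0 ∧ y * e = d ^ (n * i) * g

/-- The coefficient rings allowed by `D` in which `c` has an `E`-th root. -/
def RootExt {P : CPlace q} (D : InertData M P O) (E : ℕ) : Prop :=
  ∀ c : O, ∃ (O₂ : Subring ℂ) (_ : O ≤ O₂) (h₂ : P.IsCDVR O₂), (∀ z ∈ O₂, D.σ z ∈ O₂) ∧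
    Finite (haveI := h₂.dvr; ResidueField O₂) ∧ ∃ θ : O₂, (θ : ℂ) ^ E = c

section Small

variable {P : CPlace q} (hO : O ≤ P.ring) {hM : M.Coprime q}

/-- A map killing the base functions small at a family of cusps kills the small functions. -/
theorem map_eq_zero_of_small {R : Type} [CommRing R] [IsDomain R]
    (φ : InvRing q M O (lamH M χ) →+* R) (s : SL(2, ℤ) → Prop)
    (hs : ∀ (δ : lam q M) γ, s γ → s ((δ : SL(2, ℤ)) * γ))
    (hA0 : ∀ a ∈ smallAt hO s, φ (inclA a) = 0) {b : InvRing q M O (lamH M χ)}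
    (hb : ∀ γ, s γ → b ∈ smallI M (lamH M χ) hO γ) (hM : M.Coprime q) : φ b = 0 := by
  set I : Ideal BR := ⨅ γ ∈ {γ | s γ}, smallI M (lamH M χ) hO γ with hI
  have hmem : ∀ {x : BR}, x ∈ I ↔ ∀ γ, s γ → x ∈ smallI M (lamH M χ) hO γ := fun {x} => by
    simp [hI, Submodule.mem_iInf]
  have hgal : ∀ i, galI χ hM i b ∈ I := fun i => hmem.mpr fun γ hγ =>
    InertData.actI_mem_smallI χ hO (genH hM ^ i).2 (hb _ (hs _ γ hγ))
  set Pl : Polynomial BR :=
    ∏ i ∈ Finset.range (ordH χ), (Polynomial.X - Polynomial.C (galI χ hM i b)) with hPl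
  have hfix : Pl.map (galI χ hM 1) = Pl := by
    simp only [Pl, Polynomial.map_prod, Polynomial.map_sub, Polynomial.map_X, Polynomial.map_C,
      galI_galI]
    have h1 :=
      Finset.prod_range_succ' (fun i => Polynomial.X - Polynomial.C (galI χ hM i b)) (ordH χ)
    rw [Finset.prod_range_succ, galI_ordH] at h1
    rw [galI_zero] at h1
    exact (mul_right_cancel₀ (Polynomial.X_sub_C_ne_zero b) h1).symm
  have hPlI : Pl.map (Ideal.Quotient.mk I) = Polynomial.X ^ ordH χ := by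
    rw [hPl, Polynomial.map_prod, Finset.prod_congr rfl (g := fun _ => Polynomial.X) fun i _ => ?_,
      Finset.prod_const, Finset.card_range]
    rw [Polynomial.map_sub, Polynomial.map_X, Polynomial.map_C,
      Ideal.Quotient.eq_zero_iff_mem.mpr (hgal i), map_zero, sub_zero]
  have hdeg : Pl.natDegree = ordH χ := by
    rw [hPl, Polynomial.natDegree_prod_of_monic _ _ fun i _ => Polynomial.monic_X_sub_C _]
    simp
  have hmon : Pl.Monic := Polynomial.monic_prod_of_monic _ _ fun i _ => Polynomial.monic_X_sub_C _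
  have hmap : Pl.map φ = Polynomial.X ^ ordH χ := Polynomial.ext fun k => by
    rw [Polynomial.coeff_map, Polynomial.coeff_X_pow]
    split_ifs with hk
    · rw [hk, ← hdeg, Polynomial.coeff_natDegree, hmon.leadingCoeff, map_one]
    · obtain ⟨a, ha⟩ := exists_inclA_of_fixed hM (f := Pl.coeff k)
        (by rw [← Polynomial.coeff_map, hfix])
      rw [← ha]
      refine hA0 a fun γ hγ => ?_
      have h1 := congrArg (fun p => p.coeff k) hPlI
      simp only [Polynomial.coeff_map, Polynomial.coeff_X_pow, if_neg hk,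
        Ideal.Quotient.eq_zero_iff_mem, ← ha] at h1
      have h2 := hmem.mp h1 γ hγ
      rwa [mem_smallI, inclA, serI_ofLRing] at h2
  have h0 : (Pl.map φ).eval (φ b) = 0 := by
    rw [Polynomial.eval_map, Polynomial.eval₂_at_apply]
    simp only [Pl, Polynomial.eval_prod, Polynomial.eval_sub, Polynomial.eval_X, Polynomial.eval_C]
    rw [Finset.prod_eq_zero (Finset.mem_range.mpr (NeZero.pos (ordH χ)))
      (by rw [galI_zero, sub_self]), map_zero]
  rw [hmap, Polynomial.eval_pow, Polynomial.eval_X] at h0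
  exact (pow_eq_zero_iff (NeZero.ne _)).mp h0

theorem galI_prod (hM : M.Coprime q) (b : InvRing q M O (lamH M χ)) :
    galI χ hM 1 (∏ i ∈ Finset.range (ordH χ), galI χ hM i b) =
      ∏ i ∈ Finset.range (ordH χ), galI χ hM i b := by
  rw [map_prod]
  simp only [galI_galI]
  rcases eq_or_ne b 0 with rfl | hb
  · simp [NeZero.ne]
  have h1 := Finset.prod_range_succ' (fun i => galI χ hM i b) (ordH χ)
  rw [Finset.prod_range_succ, galI_ordH] at h1
  rw [galI_zero] at h1
  exact (mul_right_cancel₀ hb h1).symm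

/-- The norm to the base. -/
def nrmI (hM : M.Coprime q) (b : InvRing q M O (lamH M χ)) : LRing q M O :=
  (exists_inclA_of_fixed hM (galI_prod hM b)).choose

/-- The norm is the product of the translates. -/
theorem inclA_nrmI (hM : M.Coprime q) (b : InvRing q M O (lamH M χ)) :
    inclA (nrmI hM b) = ∏ i ∈ Finset.range (ordH χ), galI χ hM i b :=
  (exists_inclA_of_fixed hM (galI_prod hM b)).choose_spec

/-- A function divides its norm. -/
theorem dvd_nrmI (hM : M.Coprime q) (b : InvRing q M O (lamH M χ)) : b ∣ inclA (nrmI hM b) := by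
  rw [inclA_nrmI]
  refine Dvd.dvd.trans ?_ (Finset.dvd_prod_of_mem _ (Finset.mem_range.mpr (NeZero.pos (ordH χ))))
  rw [galI_zero]

include hO in
/-- The norm of a function with unit coefficients has unit coefficients. -/
theorem unitAt_nrmI (hM : M.Coprime q) {b : InvRing q M O (lamH M χ)} (hb : UnitAll P b)
    (s : SL(2, ℤ) → Prop) : UnitAt P s (nrmI hM b) := fun γ _ => by
  have h1 : UnitAll P (inclA (χ := χ) (nrmI hM b)) := by
    rw [inclA_nrmI]
    refine Finset.prod_induction _ (UnitAll P) (fun x y hx hy => UnitAll.mul hO hx hy) ?_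
      fun i _ => UnitAll.actI hb _ _
    intro γ
    rw [map_one]
    exact ⟨0, by simp⟩
  have h2 := h1 γ
  rwa [inclA, serI_ofLRing] at h2

end Small

namespace CoverGen

variable {hM : M.Coprime q} (H : CoverGen M O χ hM)

/-- Assembling the roots on the translates. -/
theorem coverRoot_of_local {R : Type} [CommRing R] (ι : InvRing q M O (lamH M χ) →+* R)
    {𝔪 : Ideal (LRing q M O)} {ϖ : O} {π : R} {u : Rˣ} {e : ℕ} (he : e ≠ 0)
    (hu : ι (constI ϖ) = u * π ^ e) (hπ : ∀ x, π * x = 0 → x = 0)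
    (pr : ∀ k : ℕ, R →+ LRing q M O ⧸ 𝔪 ^ k)
    (hpr : ∀ k a x, pr k (ι (inclA a) * x) = Ideal.Quotient.mk (𝔪 ^ k) a * pr k x)
    (hpr1 : ∀ k, pr k 1 = 1) {n : ℕ} {y G : InvRing q M O (lamH M χ)}
    (hG : ∀ i, RegMod π (ι (galI χ hM i G)))
    (hroot : ∀ i, ∃ L, L ^ n = ι (galI χ hM i y) ∧ π ∣ L - ι (galI χ hM i G)) :
    letI := algB (q := q) M O χ
    CoverRoot 𝔪 (constL ϖ) (constI (ordH χ : O) * inclA (H.base * H.base)) y G n := by
  let := algB (q := q) M O χ
  choose L hL hLG using hroot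
  set ι' : BR →+* (Fin (ordH χ) → R) := RingHom.pi fun i => ι.comp (galI χ hM i)
  refine ⟨_, inferInstance, ι', fun _ => π,
    ⟨fun _ => u, fun _ => ((u⁻¹ : Rˣ) : R), funext fun _ => u.mul_inv, funext fun _ => u.inv_mul⟩,
    e, fun i => L i, he, ?_, fun x hx => funext fun i => hπ _ (congrFun hx i), ?_,
    funext fun i => hL i, ?_, fun b g w hb k => ?_⟩
  · funext i
    show ι (galI χ hM i (inclA (constL ϖ))) = (u : R) * π ^ e
    rw [galI_inclA, inclA, ofLRing_constL, hu]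
  · rintro x ⟨w, hw⟩
    choose r hr using fun i : Fin (ordH χ) => hG i (x i) ⟨w i, congrFun hw i⟩
    exact ⟨r, funext hr⟩
  · choose r hr using fun i : Fin (ordH χ) => hLG i
    exact Ideal.le_radical (Ideal.mem_span_singleton.mpr ⟨r, funext hr⟩)
  · obtain ⟨x, z, hxz⟩ := Ideal.mem_span_pair.mp hb
    exact H.detect ι (pr k) (hpr k) (hpr1 k)
      (x := fun i => if h : i < ordH χ then x ⟨i, h⟩ else 0)
      (y := fun i => if h : i < ordH χ then z ⟨i, h⟩ else 0) fun i hi => by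
        have h1 := congrFun hxz ⟨i, hi⟩
        simp only [dif_pos hi]
        exact h1.symm

variable (haux : AuxLevel M m) (hA : GoodRoot M O (zetaC M)) {P : CPlace q} (hO' : P.IsCDVR O)
  (hζ : zetaC (q * M) ∈ O) (hqm : q ≠ m) (D : InertData M P O) {ϖ : O} (hϖ : Irreducible ϖ)

/-- `τ²y · δy`. -/
def twA (y : InvRing q M O (lamH M χ)) : InvRing q M O (lamH M χ) :=
  D.conjI χ haux (D.conjI χ haux y) * D.diaA χ hM y

/-- `τy · δτy`. -/
def twB (y : InvRing q M O (lamH M χ)) : InvRing q M O (lamH M χ) :=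
  D.conjI χ haux y * D.diaA χ hM (D.conjI χ haux y)

/-- Inertia commutes with the powers of the generator. -/
theorem galI_conjI (i : ℕ) (f : InvRing q M O (lamH M χ)) :
    galI χ hM i (D.conjI χ haux f) = D.conjI χ haux (galI χ hM i f) :=
  (D.conjI_actI χ haux (genH hM ^ i).2 f).symm

theorem diaA_conjI (f : InvRing q M O (lamH M χ)) :
    D.diaA χ hM (D.conjI χ haux f) = D.conjI χ haux (D.diaA χ hM f) :=
  (D.conjI_actI χ haux (D.deltaA hM).2 f).symm

include hO' in
include hM in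
theorem unitAll_conjI {f : InvRing q M O (lamH M χ)} (hf : UnitAll P f) :
    UnitAll P (D.conjI χ haux f) := fun γ => by
  refine unitCoeff_serI_of_not_small hO'.le fun h => ?_
  by_cases hγ : γ ∈ Gamma0 q
  · refine hf.not_small hO'.le γ ?_
    have := sub_mem h (D.conjI_sub_mem_inf χ haux hM hO'.le f hγ)
    rwa [sub_sub_cancel] at this
  · refine (UnitAll.actI hf _ (conj_mem_lamH χ (D.deltaA hM).2)).not_small hO'.le γ ?_
    have := sub_mem h (D.conjI_sub_mem_zero χ haux hM hO'.le f hγ)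
    rwa [sub_sub_cancel] at this

include hO' in
/-- The twist `τy · δτy` keeps unit coefficients at all cusps. -/
theorem unitAll_twB {y : InvRing q M O (lamH M χ)} (hy : UnitAll P y) :
    UnitAll P (twB haux D y (hM := hM)) :=
  UnitAll.mul hO'.le (unitAll_conjI (hM := hM) haux hO' D hy)
    (UnitAll.actI (unitAll_conjI (hM := hM) haux hO' D hy) _ _)

variable {R : Type} [CommRing R] [IsDomain R] (ι : InvRing q M O (lamH M χ) →+* R)

omit [IsDomain R] in
include hO' in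
/-- A map killing nothing of the norms kills no function with unit coefficients. -/
theorem ne_zero_of_unitAll (hM' : M.Coprime q) {s : SL(2, ℤ) → Prop}
    (hne : ∀ a, UnitAt P s a → ι (inclA a) ≠ 0) {f : InvRing q M O (lamH M χ)}
    (hf : UnitAll P f) : ι f ≠ 0 := fun h0 => by
  refine hne _ (unitAt_nrmI hO'.le hM' hf s) ?_
  obtain ⟨w, hw⟩ := dvd_nrmI hM' f
  rw [hw, map_mul, h0, zero_mul]

end CoverGen

namespace CoverGen

variable {hM : M.Coprime q} (H : CoverGen M O χ hM)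
variable (haux : AuxLevel M m) (hA : GoodRoot M O (zetaC M)) {P : CPlace q} (hO' : P.IsCDVR O)
  (hζ : zetaC (q * M) ∈ O) (hqm : q ≠ m) (D : InertData M P O) {ϖ : O} (hϖ : Irreducible ϖ)

include hO' in
theorem isUnit_ordH : IsUnit (ordH χ : O) := isUnit_natCast_O hO' (ordH_coprime χ)

omit hq in
theorem isLocalHom_inclusion {O₂ : Subring ℂ} (hO' : P.IsCDVR O) (h₂ : P.IsCDVR O₂) (hle : O ≤ O₂) :
    IsLocalHom (Subring.inclusion hle) :=
  ⟨fun a ha => (hO'.isUnit_iff a).mpr ((h₂.isUnit_iff _).mp ha)⟩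

omit hq in
theorem unif_mem_ext {O₂ : Subring ℂ} (hO' : P.IsCDVR O) (h₂ : P.IsCDVR O₂) (hle : O ≤ O₂) {ϖ : O}
    (hϖ : Irreducible ϖ) :
    haveI := h₂.dvr
    Subring.inclusion hle ϖ ∈ maximalIdeal O₂ := by
  have := h₂.dvr
  exact (h₂.mem_maximalIdeal_iff _).mpr (abv_unif hO' hϖ)

include haux hA hO' hϖ in
/-- The root at a smooth point. -/
theorem coverRoot_smooth [IsNoetherianRing (LRing q M O)] {𝔪 : Ideal (LRing q M O)}
    {s : SL(2, ℤ) → Prop}
    (e : haveI := hO'.dvr; PowerSeries O ≃+* AdicCompletion 𝔪 (LRing q M O))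
    (heC : ∀ r : O, e (PowerSeries.C r) = algebraMap _ _ (constL r : LRing q M O))
    (hne : ∀ z, ∀ b : LRing q M O, e z = algebraMap _ _ b → UnitAt P s b →
      (haveI := hO'.dvr; psRes z) ≠ 0)
    (hx : RootExt D (ordH χ)) (hH : UnitAll P H.h)
    (hdF : Divisible q M O (ordH χ) (H.base : ℍ → ℂ)) {n : ℕ} (hn : n.Coprime q)
    {y : InvRing q M O (lamH M χ)} (hy : UnitAll P y)
    (hda : DivisibleI n (twA haux D y (hM := hM)))
    (hdb : DivisibleI n (twB haux D y (hM := hM))) :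
    letI := algB (q := q) M O χ
    CoverRoot 𝔪 (constL ϖ) (constI (ordH χ : O) * inclA (H.base * H.base))
      (twA haux D y (hM := hM) * twB haux D y (hM := hM) ^ (n - 1))
      (twB haux D y (hM := hM)) n := by
  let := algB (q := q) M O χ
  have := hO'.dvr
  have := hO'.complete
  set f := algebraMap (LRing q M O) (AdicCompletion 𝔪 (LRing q M O))
  set F : LRing q M O →+* PowerSeries O := e.symm.toRingHom.comp f
  have hF : ∀ a, e (F a) = f a := fun a => e.apply_symm_apply (f a)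
  have hFC : ∀ r : O, F (constL r) = PowerSeries.C r := fun r => e.injective (by rw [hF, heC])
  have hbase : ∀ t, UnitAt P t H.base := fun t γ _ => by
    have h1 := UnitAll.pow hO'.le hH (ordH χ) γ
    rw [← H.inclA_base, inclA, serI_ofLRing] at h1
    exact h1
  have hFb : psRes (F H.base) ≠ 0 := hne _ _ (hF _) (hbase s)
  obtain ⟨U, H₀, hUH⟩ := exists_series_factor haux hA hdF F hFC hFb
  obtain ⟨c₀, H₁, -, hc₀⟩ := ps_unit_eq_const_mul_pow (n := ordH χ) (isUnit_ordH hO') U.isUnit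
  obtain ⟨O₂, hle, h₂, -, hfin₂, θ, hθ⟩ := hx c₀
  have := h₂.dvr
  have := h₂.complete
  have : Finite (ResidueField O₂) := hfin₂
  set ext := Subring.inclusion hle
  have : IsLocalHom ext := isLocalHom_inclusion hO' h₂ hle
  set γ : LRing q M O →+* PowerSeries O₂ := (PowerSeries.map ext).comp F
  set r : PowerSeries O₂ := PowerSeries.C θ * PowerSeries.map ext (H₁ * H₀)
  have hr : r ^ ordH χ = γ H.base := by
    show _ = PowerSeries.map ext (F H.base)
    rw [hUH, hc₀, mul_pow, ← map_pow, ← map_pow, show θ ^ ordH χ = ext c₀ from Subtype.ext hθ]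
    simp only [map_mul, map_pow, PowerSeries.map_C, mul_pow]
    ring
  have hres : ∀ x, psRes (PowerSeries.map ext x) =
      PowerSeries.map (ResidueField.map ext) (psRes x) := fun x => by
    ext i
    simp only [PowerSeries.coeff_map, ResidueField.map_residue]
  have hγne : ∀ a, UnitAt P s a → psRes (γ a) ≠ 0 := fun a ha h0 => hne _ _ (hF a) ha (by
    refine PowerSeries.map_injective _ (RingHom.injective (ResidueField.map ext)) ?_
    rw [map_zero, ← hres]
    exact h0)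
  obtain ⟨ι, hι, -⟩ := H.exists_extend γ hr fun h0 => hγne _ (hbase s) (by rw [h0, map_zero])
  obtain ⟨π, hπ⟩ := IsDiscreteValuationRing.exists_irreducible O₂
  have hϖ0 : ext ϖ ≠ 0 := fun h =>
    hϖ.ne_zero (Subring.inclusion_injective hle (h.trans (map_zero _).symm))
  obtain ⟨e₂, w, hw⟩ := IsDiscreteValuationRing.eq_unit_mul_pow_irreducible hϖ0 hπ
  have he₂ : e₂ ≠ 0 := by
    rintro rfl
    exact (IsLocalRing.mem_maximalIdeal _).mp (unif_mem_ext hO' h₂ hle hϖ)
      (by rw [hw, pow_zero, mul_one]; exact w.isUnit)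
  have hιC : ∀ c : O, ι (constI c) = PowerSeries.C (ext c) := fun c => by
    rw [← ofLRing_constL (lamH_le χ) c]
    show ι (inclA _) = _
    rw [hι]
    show PowerSeries.map ext (F _) = _
    rw [hFC, PowerSeries.map_C]
  have hιne : ∀ b, UnitAll P b → psRes (ι b) ≠ 0 := fun b hb =>
    ne_zero_of_unitAll hO' (psRes.comp ι) hM (s := s) (fun a ha => by
      rw [RingHom.comp_apply, hι]; exact hγne a ha) hb
  obtain ⟨ρ, hρ, hρ1⟩ := exists_retraction ext (Subring.inclusion_injective hle) hϖ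
    (unif_mem_ext hO' h₂ hle hϖ)
  let pr : ∀ k : ℕ, PowerSeries O₂ →+ LRing q M O ⧸ 𝔪 ^ k := fun k =>
    ((AdicCompletion.evalₐ 𝔪 k).toRingHom.toAddMonoidHom.comp e.toRingHom.toAddMonoidHom).comp
      (coefRetr ρ)
  have hG := unitAll_twB haux hO' D hy (hM := hM)
  have hC0 : PowerSeries.C π ≠ 0 := fun h0 =>
    hπ.ne_zero (PowerSeries.C_injective (by rw [h0, map_zero]))
  refine H.coverRoot_of_local ι (π := PowerSeries.C π) (u := Units.map PowerSeries.C.toMonoidHom w)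
    he₂ ?_ (fun x hx => (mul_eq_zero.mp hx).resolve_left hC0) pr (fun k a x => ?_) (fun k => ?_)
    (fun i x hx => ?_) fun i => ?_
  · rw [hιC, hw, map_mul, map_pow]; rfl
  · rw [hι]
    show AdicCompletion.evalₐ 𝔪 k (e (coefRetr ρ (MvPowerSeries.map ext (F a) * x))) = _
    rw [coefRetr_mul hρ]
    show AdicCompletion.evalₐ 𝔪 k (e (F a * coefRetr ρ x)) = _
    rw [map_mul, map_mul, hF, (AdicCompletion.evalₐ 𝔪 k).commutes a]
    rfl
  · show AdicCompletion.evalₐ 𝔪 k (e (coefRetr ρ 1)) = 1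
    rw [← map_one (MvPowerSeries.map (σ := Unit) ext), coefRetr_map hρ hρ1]
    show AdicCompletion.evalₐ 𝔪 k (e 1) = 1
    rw [map_one, map_one]
  · obtain ⟨z, hz⟩ := hx
    have h1 := congrArg psRes hz
    rw [map_mul, map_mul, psRes_C_unif hπ, zero_mul] at h1
    exact dvd_of_psRes_eq_zero hπ
      ((mul_eq_zero.mp h1).resolve_left (hιne _ (UnitAll.actI hG _ _)))
  · obtain ⟨w', hw'⟩ := D.unif_dvd_twist_sub χ haux hM hO'.le hO' hϖ y
    have hab : psRes (ι (galI χ hM i (twA haux D y (hM := hM)))) =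
        psRes (ι (galI χ hM i (twB haux D y (hM := hM)))) := by
      rw [← sub_eq_zero, ← map_sub, ← map_sub, ← map_sub,
        show twA haux D y (hM := hM) - twB haux D y (hM := hM) = constI ϖ * w' from hw', map_mul,
        map_mul, galI_constI, hιC, map_mul, hw, map_mul, map_pow, map_mul, map_pow, psRes_C_unif hπ,
        zero_pow he₂, mul_zero, zero_mul]
    obtain ⟨L, hL, hLb⟩ := exists_ps_root O₂.subtype O₂.subtype_injective
      (isUnit_natCast_O h₂ hn) hab (hιne _ (UnitAll.actI hG _ _)) (fun z hz ψ hψ hz0 => by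
        obtain ⟨τ, hτ⟩ := CoverGen.exists_point (hM := hM) haux hA (ψ.comp ι) fun c => by
          rw [RingHom.comp_apply, hιC, hψ]; rfl
        obtain ⟨x, hxd, rfl⟩ : ∃ x, DivisibleI n x ∧ ι (galI χ hM i x) = z := by
          rcases hz with rfl | rfl
          exacts [⟨_, hda, rfl⟩, ⟨_, hdb, rfl⟩]
        have hev : ∀ x : BR, ψ (ι (galI χ hM i x)) =
            (x : ℍ → ℂ) (((genH hM ^ i : lam q M) : SL(2, ℤ)) • τ) := fun x => by
          rw [← RingHom.comp_apply, hτ]; rfl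
        obtain ⟨j, a, d, g, ha, hg, heq⟩ := hxd _ (by rw [← hev]; exact hz0)
        exact ⟨j, ι (galI χ hM i d), ι (galI χ hM i a), ι (galI χ hM i g),
          fun h => ha (by rw [← hev]; exact h), fun h => hg (by rw [← hev]; exact h),
          by rw [← map_mul, ← map_mul, heq, map_mul, map_mul, map_pow, map_pow]⟩)
    refine ⟨L, by rw [map_mul, map_mul, map_pow, map_pow, hL], ?_⟩
    exact dvd_of_psRes_eq_zero hπ (by rw [map_sub, hLb, sub_self])

include hO' in
/-- The base function has unit coefficients at every cusp. -/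
private lemma unitAt_base (hH : UnitAll P H.h) (t : SL(2, ℤ) → Prop) : UnitAt P t H.base :=
  fun γ _ => by
    have h1 := UnitAll.pow hO'.le hH (ordH χ) γ
    rw [← H.inclA_base, inclA, serI_ofLRing] at h1
    exact h1

/-- A nonzero element of the maximal ideal is a unit times a positive power of a uniformiser. -/
private lemma exists_eq_unit_mul_pow {R : Type} [CommRing R] [IsDomain R]
    [IsDiscreteValuationRing R] {π x : R} (hπ : Irreducible π) (hx : x ∈ maximalIdeal R)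
    (h0 : x ≠ 0) : ∃ E, NeZero E ∧ ∃ a : Rˣ, x = a * π ^ E := by
  obtain ⟨E, a, rfl⟩ := IsDiscreteValuationRing.eq_unit_mul_pow_irreducible h0 hπ
  refine ⟨E, ⟨fun hE => (IsLocalRing.mem_maximalIdeal _).mp hx ?_⟩, a, rfl⟩
  rw [hE, pow_zero, mul_one]
  exact a.isUnit

/-- A map trivial on residues multiplies the uniformiser by some `θ`. -/
private lemma exists_map_unif_eq_mul {R : Type} [CommRing R] [IsDomain R]
    [IsDiscreteValuationRing R] {π : R} (hπ : Irreducible π) {σ : R →+* R}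
    (hσ : ∀ r, residue R (σ r) = residue R r) : ∃ θ, σ π = θ * π := by
  have h : σ π ∈ maximalIdeal R := by
    rw [← residue_eq_zero_iff, hσ, residue_eq_zero_iff]; exact unif_mem hπ
  rw [hπ.maximalIdeal_eq, Ideal.mem_span_singleton'] at h
  exact h.imp fun θ hθ => hθ.symm

/-- Roots of the same element agreeing on a branch where they do not vanish are equal, if the
degree is prime to the residue characteristic. -/
private lemma eq_of_pow_eq_of_branch_eq {R : Type} [CommRing R] [IsLocalRing R] {c : R}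
    [IsDomain (Node R c)] (hc : c ∈ maximalIdeal R) {E : ℕ} (hE : IsUnit (E : R)) {i : Fin 2}
    {x y : Node R c} (h : x ^ E = y ^ E) (hb : branch hc i x = branch hc i y)
    (hy : branch hc i y ≠ 0) : x = y := by
  refine sub_eq_zero.mp ((mul_eq_zero.mp (by rw [geom_sum₂_mul, h, sub_self] :
    (∑ j ∈ Finset.range E, x ^ j * y ^ (E - 1 - j)) * (x - y) = 0)).resolve_left fun h0 => ?_)
  have h1 := congrArg (branch hc i) h0
  simp only [map_sum, map_mul, map_pow, map_zero, hb, ← pow_add] at h1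
  rw [Finset.sum_congr rfl (g := fun _ => branch hc i y ^ (E - 1)) fun j hj => by
      congr 1; have := Finset.mem_range.mp hj; omega,
    Finset.sum_const, Finset.card_range, nsmul_eq_mul, mul_eq_zero,
    ← map_natCast (PowerSeries.C (R := ResidueField R)), ← map_natCast (residue R)] at h1
  exact h1.elim (((hE.map (residue R)).map PowerSeries.C).ne_zero) (pow_ne_zero _ hy)

include H in
/-- Maps agreeing on the base and at the generator are equal. -/
private lemma ringHom_ext_of_inclA {R : Type} [CommRing R] [IsDomain R] {f g : BR →+* R}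
    (hA : ∀ a, f (inclA a) = g (inclA a)) (hh : f H.h = g H.h) (hne : f (inclA H.base) ≠ 0) :
    f = g := RingHom.ext fun b => by
  refine mul_left_cancel₀ hne ?_
  conv_rhs => rw [hA]
  rw [← map_mul, ← map_mul, ← H.sum_comp b, map_sum, map_sum]
  exact Finset.sum_congr rfl fun j _ => by rw [map_mul, map_mul, map_pow, map_pow, hA, hh]

section Tower

variable {R S : Type} [CommRing R] [IsDomain R] [CommRing S] [IsDomain S] (f : R →+* S)
  {c ϖ a : R} {π b : S} {E E' : ℕ} [NeZero E] [NeZero E']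
  (hca : (RingHom.id R) c = ![(1 : R), a] 0 * ![(1 : R), a] 1 * ϖ ^ E)
  (hcb : (RingHom.id S) (f ϖ) = ![(1 : S), b] 0 * ![(1 : S), b] 1 * π ^ E')

/-- The tower of coverings of nodes commutes with the semilinear maps. -/
private lemma nodeDiag_tower_comm {σ : R →+* R} {σ' : S →+* S} (hσ : ∀ r, σ' (f r) = f (σ r))
    {θ : R} {θ' : S} (hϖ : ϖ ≠ 0) (hπ : π ≠ 0)
    (hu : σ c = ![(1 : R), 1] 0 * ![(1 : R), 1] 1 * c ^ 1) (hθ : σ ϖ = θ * ϖ)
    (hτ : σ' π = ![(1 : S), θ'] 0 * ![(1 : S), θ'] 1 * π ^ 1) (z : Node R c) :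
    nodeDiag hτ (nodeDiag hcb (nodeExt f ϖ (nodeDiag hca z))) =
      nodeDiag hcb (nodeExt f ϖ (nodeDiag hca (nodeDiag hu z))) := by
  have hτ₁ : σ ϖ = ![(1 : R), θ] 0 * ![(1 : R), θ] 1 * ϖ ^ 1 := by simp [hθ]
  have hτe : σ' (f ϖ) = ![(1 : S), f θ] 0 * ![(1 : S), f θ] 1 * f ϖ ^ 1 := by simp [hσ, hθ]
  have hτe' : σ' (f ϖ) = f (![(1 : R), θ] 0) * f (![(1 : R), θ] 1) * f ϖ ^ 1 := by simp [hσ, hθ]
  rw [tame_comm hϖ hca hu hτ₁, nodeExt_nodeDiag f hσ hτ₁ hτe', ← tame_comm hπ hcb hτe hτ]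
  congr 1
  obtain ⟨g, hg⟩ := nodeMk_surjective (f ϖ) (nodeExt f ϖ (nodeDiag hca z))
  rw [← hg, nodeDiag_nodeMk, nodeDiag_nodeMk]
  refine congrArg (fun v => nodeMk (f ϖ) (diagMap σ' v 1 g)) ?_
  funext i; fin_cases i <;> simp

/-- The tower of coverings of nodes has a linear retraction. -/
private lemma exists_tower_retraction [IsDiscreteValuationRing R]
    [IsAdicComplete (maximalIdeal R) R] [IsDiscreteValuationRing S]
    [Finite (ResidueField S)] (hf : Function.Injective f)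
    (hϖ : Irreducible ϖ) (hπ : Irreducible π) (hc : c ∈ maximalIdeal R)
    (hϖS : f ϖ ∈ maximalIdeal S) (ha : IsUnit a) (hb : IsUnit b) :
    ∃ ρ : Node S π →+ Node R c,
      (∀ z x, ρ (nodeDiag hcb (nodeExt f ϖ (nodeDiag hca z)) * x) = z * ρ x) ∧ ρ 1 = 1 := by
  obtain ⟨ρ, hρ, hρ1⟩ := exists_retraction f hf hϖ hϖS
  obtain ⟨R₂, hR₂, hR₂1⟩ := exists_nodeDiagRetr hπ hϖS hcb fun i => by fin_cases i <;> simp [hb]
  obtain ⟨Rρ, hRρ, hRρ1⟩ := exists_nodeRetr f ϖ hρ hρ1
  obtain ⟨R₁, hR₁, hR₁1⟩ := exists_nodeDiagRetr hϖ hc hca fun i => by fin_cases i <;> simp [ha]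
  refine ⟨R₁.comp (Rρ.comp R₂), fun z x => ?_, ?_⟩
  · simp only [AddMonoidHom.comp_apply, hR₂, hRρ, hR₁]
  · simp only [AddMonoidHom.comp_apply, hR₂1, hRρ1, hR₁1]

end Tower

include haux hA hO' in
/-- The base function at a node is a constant times an `ordH χ`-th power. -/
private lemma exists_base_eq_const_mul_pow [IsDiscreteValuationRing O]
    [IsAdicComplete (maximalIdeal O) O]
    (hdF : Divisible q M O (ordH χ) (H.base : ℍ → ℂ)) (hϖ : Irreducible ϖ)
    (F : LRing q M O →+* Node O ϖ) (hFC : ∀ r, F (constL r) = nodeC ϖ r)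
    (hFb : ∀ i, branch (unif_mem hϖ) i (F H.base) ≠ 0) :
    ∃ (c : O) (R : Node O ϖ), F H.base = nodeC ϖ c * R ^ ordH χ := by
  have hϖm := unif_mem hϖ
  obtain ⟨U, H₀, hUH⟩ : ∃ (U : (Node O ϖ)ˣ) (H₀ : Node O ϖ), F H.base = U * H₀ ^ ordH χ :=
    exists_node_factor_of_witness hϖ O.subtype O.subtype_injective hFb fun ψ hψ h0 =>
      exists_witness_of_divisible haux hA hdF F ψ (fun r => by rw [hFC, hψ]; rfl) h0
  obtain ⟨c, H₁, -, hc⟩ :=
    node_unit_eq_const_mul_pow (n := ordH χ) hϖm (isUnit_ordH hO') U.isUnit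
  exact ⟨c, H₁ * H₀, by rw [hUH, hc, mul_pow, mul_assoc]⟩

section NodeHom

variable {O₂ : Subring ℂ} [IsDiscreteValuationRing O₂] [IsAdicComplete (maximalIdeal O₂) O₂]
  (hle : O ≤ O₂) {π : O₂} (hπ : Irreducible π) {n : ℕ}

include haux hA in
/-- On the covering of a node a translate of a function with zeros of multiplicity divisible by
`n` is a constant times an `n`-th power. -/
private lemma exists_galI_eq_const_mul_pow (h₂ : P.IsCDVR O₂) (ι : BR →+* Node O₂ π)
    (hιC : ∀ c : O, ι (constI c) = nodeC π (Subring.inclusion hle c))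
    (hne : ∀ b, UnitAll P b → ∀ i, branch (unif_mem hπ) i (ι b) ≠ 0) (hn : n.Coprime q)
    {b : BR} (hb : UnitAll P b) (hdb : DivisibleI n b) (j : ℕ) :
    ∃ (c : O₂) (K : Node O₂ π), IsUnit c ∧ ι (galI χ hM j b) = nodeC π c * K ^ n := by
  have hπm := unif_mem hπ
  have hbb : ∀ i, branch hπm i (ι (galI χ hM j b)) ≠ 0 :=
    hne _ (UnitAll.actI hb _ (conj_mem_lamH χ (genH (M := M) hM ^ j).2))
  obtain ⟨V, K, hVK⟩ := exists_node_factor_of_witness (n := n) hπ O₂.subtype O₂.subtype_injective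
    hbb (fun ψ hψC h0 => by
      obtain ⟨t, ht⟩ := CoverGen.exists_point (hM := hM) haux hA (ψ.comp ι) fun c => by
        rw [RingHom.comp_apply, hιC, hψC]; rfl
      have hev : ∀ x : BR, ψ (ι (galI χ hM j x)) =
          (x : ℍ → ℂ) (((genH hM ^ j : lam q M) : SL(2, ℤ)) • t) := fun x => by
        rw [← RingHom.comp_apply, ht]; rfl
      obtain ⟨l, a, d, g', ha, hg', heq⟩ := hdb _ (by rw [← hev]; exact h0)
      exact ⟨l, ι (galI χ hM j d), ι (galI χ hM j a), ι (galI χ hM j g'),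
        (hev _).trans_ne ha, (hev _).trans_ne hg',
        by rw [← map_mul, ← map_mul, heq, map_mul, map_mul, map_pow, map_pow]⟩)
  obtain ⟨c, K', hc, hK'⟩ := node_unit_eq_const_mul_pow hπm (isUnit_natCast_O h₂ hn) V.isUnit
  exact ⟨c, K' * K, hc, by rw [hVK, hK', mul_pow, mul_assoc]⟩

variable {σ₂ : O₂ →+* O₂} (hσ₂ : ∀ r, residue O₂ (σ₂ r) = residue O₂ r) {θ₂ : O₂}
  (hτ₂ : σ₂ π = ![(1 : O₂), θ₂] 0 * ![(1 : O₂), θ₂] 1 * π ^ 1)

include haux hA hσ₂ in
/-- The root of `twA y · twB y ^ (n - 1)` on a translate, near `twB y`. -/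
private lemma exists_root_twist (h₂ : P.IsCDVR O₂) (ι : BR →+* Node O₂ π)
    (hιC : ∀ c : O, ι (constI c) = nodeC π (Subring.inclusion hle c))
    (hne : ∀ b, UnitAll P b → ∀ i, branch (unif_mem hπ) i (ι b) ≠ 0)
    (hbr1 : ∀ b, (∀ γ, γ ∉ Gamma0 q → b ∈ smallI M (lamH M χ) hO'.le γ) →
      branch (unif_mem hπ) 1 (ι b) = 0)
    (hτι : ∀ b, nodeDiag hτ₂ (ι b) = ι (D.conjI χ haux b)) (hn : n.Coprime q)
    {y : BR} (hy : UnitAll P y) (hdy : DivisibleI n y) (i : ℕ) :
    ∃ L, L ^ n = ι (galI χ hM i (twA haux D y (hM := hM) * twB haux D y (hM := hM) ^ (n - 1))) ∧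
      nodeC π π ∣ L - ι (galI χ hM i (twB haux D y (hM := hM))) := by
  have hπm := unif_mem hπ
  obtain ⟨k, -, hk⟩ := exists_charH_eq_genH_pow χ hM (D.deltaA hM)
  have hdia : ∀ b : BR, D.diaA χ hM b = galI χ hM k b := fun b => Subtype.ext
    (act_eq_act_of_charH χ b.2.2 (D.deltaA hM).2 (genH hM ^ k).2
      (by rw [Subtype.coe_eta, Subtype.coe_eta]; exact hk))
  obtain ⟨c, K, hc, hY⟩ := exists_galI_eq_const_mul_pow haux hA hle hπ h₂ ι hιC hne hn hy hdy i
  obtain ⟨c', K', hc', hY'⟩ :=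
    exists_galI_eq_const_mul_pow haux hA hle hπ h₂ ι hιC hne hn hy hdy (k + i)
  have hjump : branch hπm 1 (nodeDiag hτ₂ (ι (galI χ hM i y))) =
      branch hπm 1 (ι (galI χ hM (k + i) y)) := by
    rw [hτι, ← galI_conjI haux D, ← galI_galI, ← hdia, ← sub_eq_zero, ← map_sub, ← map_sub,
      ← map_sub]
    exact hbr1 _ fun γ hγ => InertData.actI_mem_smallI χ hO'.le (genH hM ^ i).2
      (D.conjI_sub_mem_zero χ haux hM hO'.le y
        fun h => hγ (by simpa using (Gamma0 q).mul_mem ((Gamma0 q).inv_mem (genH hM ^ i).2.1) h))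
  obtain ⟨L, hL, hLb⟩ := exists_root_jump hπ hσ₂ hτ₂ (isUnit_natCast_O h₂ hn) hc hc' hY hY'
    (hne _ (UnitAll.actI hy _ _) 1) hjump
  have hta : ι (galI χ hM i (twA haux D y (hM := hM))) =
      nodeDiag hτ₂ (nodeDiag hτ₂ (ι (galI χ hM i y))) * ι (galI χ hM (k + i) y) := by
    rw [twA, map_mul, map_mul, hdia, galI_galI, galI_conjI haux D, galI_conjI haux D, ← hτι, ← hτι]
  have htb : ι (galI χ hM i (twB haux D y (hM := hM))) =
      nodeDiag hτ₂ (ι (galI χ hM i y)) * nodeDiag hτ₂ (ι (galI χ hM (k + i) y)) := by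
    rw [twB, map_mul, map_mul, diaA_conjI haux D, hdia, galI_conjI haux D, galI_conjI haux D,
      galI_galI, ← hτι, ← hτι]
  exact ⟨L, by rw [map_mul, map_mul, map_pow, map_pow, hta, htb, hL], by rw [htb]; exact hLb⟩

include haux hA hO' hσ₂ in
/-- The root at a crossing point, from the map of the base to the covering of the node. -/
private lemma coverRoot_of_node_hom [IsNoetherianRing (LRing q M O)] {𝔪 : Ideal (LRing q M O)}
    (h₂ : P.IsCDVR O₂) {E : ℕ} [NeZero E] {a₂ : O₂ˣ}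
    (hϖE : Subring.inclusion hle ϖ = a₂ * π ^ E) (γ : LRing q M O →+* Node O₂ π)
    (hγC : ∀ c : O, γ (constL c) = nodeC π (Subring.inclusion hle c))
    (hr : ∃ r, r ^ ordH χ = γ H.base)
    (hs0 : ∀ a ∈ smallAt hO'.le (· ∈ Gamma0 q), branch (unif_mem hπ) 0 (γ a) = 0)
    (hs1 : ∀ a ∈ smallAt hO'.le (· ∉ Gamma0 q), branch (unif_mem hπ) 1 (γ a) = 0)
    (hu0 : ∀ a, UnitAt P (· ∈ Gamma0 q) a → branch (unif_mem hπ) 0 (γ a) ≠ 0)
    (hu1 : ∀ a, UnitAt P (· ∉ Gamma0 q) a → branch (unif_mem hπ) 1 (γ a) ≠ 0)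
    (hτγ : ∀ a, nodeDiag hτ₂ (γ a) = γ (D.conjL haux a))
    (R : Node O₂ π →+ AdicCompletion 𝔪 (LRing q M O))
    (hR : ∀ a x, R (γ a * x) = algebraMap _ _ a * R x) (hR1 : R 1 = 1)
    (hH : UnitAll P H.h) (hn : n.Coprime q) {y : BR} (hy : UnitAll P y) (hdy : DivisibleI n y) :
    letI := algB (q := q) M O χ
    CoverRoot 𝔪 (constL ϖ) (constI (ordH χ : O) * inclA (H.base * H.base))
      (twA haux D y (hM := hM) * twB haux D y (hM := hM) ^ (n - 1))
      (twB haux D y (hM := hM)) n := by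
  let := algB (q := q) M O χ
  have hπm := unif_mem hπ
  have := node_isDomain hπ
  have := node_ufm hπ
  have hbase := H.unitAt_base hO' hH
  have hγb : γ H.base ≠ 0 := fun h0 => hu0 _ (hbase _) (by rw [h0, map_zero])
  obtain ⟨r, hr⟩ := hr
  obtain ⟨ι, hι, -⟩ := H.exists_extend γ hr hγb
  have hιC : ∀ c : O, ι (constI c) = nodeC π (Subring.inclusion hle c) := fun c => by
    rw [← ofLRing_constL (lamH_le χ) c]
    show ι (inclA _) = _
    rw [hι, hγC]
  have hbr0 : ∀ b, (∀ γ ∈ Gamma0 q, b ∈ smallI M (lamH M χ) hO'.le γ) →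
      branch hπm 0 (ι b) = 0 := fun b hb =>
    map_eq_zero_of_small hO'.le ((branch hπm 0).comp ι) (· ∈ Gamma0 q)
      (fun δ _ h => mul_mem δ.2.1 h)
      (fun a ha => by rw [RingHom.comp_apply, hι]; exact hs0 a ha) hb hM
  have hbr1 : ∀ b, (∀ γ, γ ∉ Gamma0 q → b ∈ smallI M (lamH M χ) hO'.le γ) →
      branch hπm 1 (ι b) = 0 := fun b hb =>
    map_eq_zero_of_small hO'.le ((branch hπm 1).comp ι) (· ∉ Gamma0 q)
      (fun δ _ h h' => h (by simpa using (Gamma0 q).mul_mem ((Gamma0 q).inv_mem δ.2.1) h'))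
      (fun a ha => by rw [RingHom.comp_apply, hι]; exact hs1 a ha) hb hM
  have hne : ∀ b, UnitAll P b → ∀ i, branch hπm i (ι b) ≠ 0 := fun b hb =>
    Fin.forall_fin_two.mpr
      ⟨ne_zero_of_unitAll hO' ((branch hπm 0).comp ι) hM (s := (· ∈ Gamma0 q))
        (fun a ha => by rw [RingHom.comp_apply, hι]; exact hu0 a ha) hb,
       ne_zero_of_unitAll hO' ((branch hπm 1).comp ι) hM (s := (· ∉ Gamma0 q))
        (fun a ha => by rw [RingHom.comp_apply, hι]; exact hu1 a ha) hb⟩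
  set τ := nodeDiag hτ₂
  have hA12 : ∀ a, τ (ι (inclA a)) = ι (D.conjI χ haux (inclA a)) := fun a => by
    rw [hι, hτγ, inclA, D.conjI_ofLRing]
    exact (hι _).symm
  have hh12 : τ (ι H.h) = ι (D.conjI χ haux H.h) := by
    refine eq_of_pow_eq_of_branch_eq hπm (i := 0) (isUnit_natCast_O h₂ (ordH_coprime χ)) ?_ ?_
      (hne _ (unitAll_conjI (hM := hM) haux hO' D hH) 0)
    · rw [← map_pow τ, ← map_pow ι, ← map_pow ι, ← map_pow (D.conjI χ haux), ← H.inclA_base,
        hA12]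
    rw [branch_semi hπm hπm hτ₂ hσ₂, Matrix.cons_val_zero, map_one, PowerSeries.rescale_one,
      RingHom.id_apply, ← sub_eq_zero, ← map_sub, ← map_sub]
    refine hbr0 _ fun γ hγ => ?_
    rw [← neg_sub]
    exact neg_mem (D.conjI_sub_mem_inf χ haux hM hO'.le H.h hγ)
  have hτι : ∀ b, τ (ι b) = ι (D.conjI χ haux b) := RingHom.congr_fun
    (H.ringHom_ext_of_inclA (f := τ.comp ι) (g := ι.comp (D.conjI χ haux)) hA12 hh12 fun h0 =>
      hu0 _ (unitAt_conjL haux hO' hM D (hbase _))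
        (by rw [← hτγ, ← hι, show τ (ι (inclA H.base)) = 0 from h0, map_zero]))
  refine H.coverRoot_of_local ι (π := nodeC π π) (u := Units.map (nodeC π).toMonoidHom a₂)
    (NeZero.ne E) ?_
    (fun x hx => nodeC_uniformiser_regular hπm hπ.maximalIdeal_eq hπ.ne_zero hx)
    (fun k => (AdicCompletion.evalₐ 𝔪 k).toRingHom.toAddMonoidHom.comp R)
    (fun k a x => ?_) (fun k => ?_)
    (fun i => regMod_of_branches hπm hπ.maximalIdeal_eq
      (hne _ (UnitAll.actI (unitAll_twB haux hO' D hy (hM := hM)) _ _)))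
    fun i => exists_root_twist haux hA hO' D hle hπ hσ₂ hτ₂ h₂ ι hιC hne hbr1 hτι hn hy hdy i
  · rw [hιC, hϖE, map_mul, map_pow]; rfl
  · rw [hι]
    show AdicCompletion.evalₐ 𝔪 k (R (γ a * x)) = _
    rw [hR, map_mul, (AdicCompletion.evalₐ 𝔪 k).commutes a]
    rfl
  · show AdicCompletion.evalₐ 𝔪 k (R 1) = 1
    rw [hR1, map_one]

end NodeHom

include haux hA hO' hϖ hζ hqm in
/-- The root at a crossing point. -/
theorem coverRoot_node [IsNoetherianRing (LRing q M O)] {𝔪 : Ideal (LRing q M O)} [𝔪.IsMaximal]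
    (hfin : Finite (haveI := hO'.dvr; ResidueField O))
    (hinf : pInf hO'.le ≤ 𝔪) (hzero : pZero hO'.le ≤ 𝔪) {τ0 τ1 : ℍ}
    (hg : GoodPoint haux O τ0) (ht : raiseL M (tPar haux hA hg) ∈ 𝔪)
    (hg' : GoodPoint haux O τ1)
    (ht' : (atkinEquiv hM hζ).symm (raiseL M (tPar haux hA hg')) ∈ 𝔪)
    (hx : RootExt D (ordH χ)) (hH : UnitAll P H.h)
    (hdF : Divisible q M O (ordH χ) (H.base : ℍ → ℂ)) {n : ℕ} (hn : n.Coprime q)
    {y : InvRing q M O (lamH M χ)} (hy : UnitAll P y) (hdy : DivisibleI n y) :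
    letI := algB (q := q) M O χ
    CoverRoot 𝔪 (constL ϖ) (constI (ordH χ : O) * inclA (H.base * H.base))
      (twA haux D y (hM := hM) * twB haux D y (hM := hM) ^ (n - 1))
      (twB haux D y (hM := hM)) n := by
  let := algB (q := q) M O χ
  have := hO'.dvr
  have := hO'.complete
  have : Finite (ResidueField O) := hfin
  set σ := D.σO
  have hσ : ∀ r, residue O (σ r) = residue O r := D.residue_σO hO'
  obtain ⟨e, heC, -, -, he0, he1, hu0, hu1, heτ⟩ := exists_node_iso haux hA hO'.le hO' hϖ hM hζ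
    hqm hinf hzero hg ht hg' ht' (σ := σ) (D.conjL_constL haux) (D.conjL_kXL haux hM hA hζ).1
    (D.conjL_kXL haux hM hA hζ).2 (D.unif_dvd_conjL_sub haux hM hO'.le hO' hϖ)
  set f := algebraMap (LRing q M O) (AdicCompletion 𝔪 (LRing q M O))
  set F : LRing q M O →+* Node O (q : O) := e.symm.toRingHom.comp f
  have hF : ∀ a, e (F a) = f a := fun a => e.apply_symm_apply (f a)
  -- the covering over `O`
  have hqm' := natCast_q_mem_maximal (q := q) (P := P) hO'
  have hϖm := unif_mem hϖ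
  obtain ⟨E₁, _, a₁, hqE⟩ := exists_eq_unit_mul_pow hϖ hqm'
    fun h => natCast_q_ne_zero (by rw [h]; rfl)
  have hca : (RingHom.id O) (q : O) =
      ![(1 : O), (a₁ : O)] 0 * ![(1 : O), (a₁ : O)] 1 * ϖ ^ E₁ := by simpa using hqE
  set T₁ := nodeDiag hca
  have hua₁ : ∀ i, IsUnit (![(1 : O), (a₁ : O)] i) := fun i => by fin_cases i <;> simp
  have hidres : ∀ r, residue O ((RingHom.id O) r) = residue O r := fun _ => rfl
  have hFC : ∀ r : O, T₁.comp F (constL r) = nodeC ϖ r := fun r => by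
    show T₁ (F (constL r)) = _
    rw [show F (constL r) = nodeC (q : O) r from e.injective (by rw [hF, heC]), nodeDiag_nodeC]
    rfl
  have hbase := H.unitAt_base hO' hH
  obtain ⟨c₀, R₀, hR₀⟩ := H.exists_base_eq_const_mul_pow haux hA hO' hdF hϖ (T₁.comp F) hFC
    (Fin.forall_fin_two.mpr
      ⟨branch_nodeDiag_ne_zero hqm' hϖm hca hidres (hua₁ 0) (hu0 _ _ (hF _) (hbase _)),
       branch_nodeDiag_ne_zero hqm' hϖm hca hidres (hua₁ 1) (hu1 _ _ (hF _) (hbase _))⟩)
  -- the larger coefficients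
  obtain ⟨O₂, hle, h₂, hstab, hfin₂, θ₀, hθ₀⟩ := hx c₀
  have := h₂.dvr
  have := h₂.complete
  have : Finite (ResidueField O₂) := hfin₂
  let D₂ : InertData M P O₂ := ⟨⟨D.σ, D.a, hstab, D.unit, D.zeta⟩, D.small⟩
  set ext := Subring.inclusion hle
  have : IsLocalHom ext := isLocalHom_inclusion hO' h₂ hle
  obtain ⟨π, hπ⟩ := IsDiscreteValuationRing.exists_irreducible O₂
  have hπm := unif_mem hπ
  have hextm : ext ϖ ∈ maximalIdeal O₂ := unif_mem_ext hO' h₂ hle hϖ
  obtain ⟨E₂, _, a₂, hϖE⟩ := exists_eq_unit_mul_pow hπ hextm fun h =>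
    hϖ.ne_zero (Subring.inclusion_injective hle (h.trans (map_zero _).symm))
  have hca₂ : (RingHom.id O₂) (ext ϖ) =
      ![(1 : O₂), (a₂ : O₂)] 0 * ![(1 : O₂), (a₂ : O₂)] 1 * π ^ E₂ := by simpa using hϖE
  have hidres₂ : ∀ r, residue O₂ ((RingHom.id O₂) r) = residue O₂ r := fun _ => rfl
  have hua₂ : ∀ i, IsUnit (![(1 : O₂), (a₂ : O₂)] i) := fun i => by fin_cases i <;> simp
  set T₂ := nodeDiag hca₂
  set γ : LRing q M O →+* Node O₂ π := (T₂.comp (nodeExt ext ϖ)).comp (T₁.comp F)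
  have hγ0 : ∀ (i : Fin 2) a, branch hqm' i (F a) = 0 → branch hπm i (γ a) = 0 := fun i a ha => by
    show branch hπm i (T₂ (nodeExt ext ϖ (T₁ (F a)))) = 0
    rw [branch_nodeDiag hextm hπm hca₂ hidres₂, branch_nodeExt ext hϖm hextm,
      branch_nodeDiag hqm' hϖm hca hidres, ha]
    simp
  have hγ1 : ∀ (i : Fin 2) a, branch hqm' i (F a) ≠ 0 → branch hπm i (γ a) ≠ 0 := fun i a ha =>
    branch_nodeDiag_ne_zero hextm hπm hca₂ hidres₂ (hua₂ i) (branch_nodeExt_ne_zero ext hϖm hextm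
      (branch_nodeDiag_ne_zero hqm' hϖm hca hidres (hua₁ i) ha))
  -- the semilinear map
  obtain ⟨θ₁, hθ₁⟩ := exists_map_unif_eq_mul hϖ hσ
  obtain ⟨θ₂, hθ₂⟩ := exists_map_unif_eq_mul hπ (D₂.residue_σO h₂)
  have hhu : σ (q : O) = ![(1 : O), 1] 0 * ![(1 : O), 1] 1 * (q : O) ^ 1 := by simp
  have hτ₂ : D₂.σO π = ![(1 : O₂), θ₂] 0 * ![(1 : O₂), θ₂] 1 * π ^ 1 := by simp [hθ₂]
  obtain ⟨ρ, hρ, hρ1⟩ := exists_tower_retraction ext hca hca₂ (Subring.inclusion_injective hle) hϖ
    hπ hqm' hextm a₁.isUnit a₂.isUnit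
  refine H.coverRoot_of_node_hom haux hA hO' D hle hπ (D₂.residue_σO h₂) hτ₂ h₂ hϖE γ
    (fun c => ?_) ⟨nodeC π θ₀ * T₂ (nodeExt ext ϖ R₀), ?_⟩
    (fun a ha => hγ0 0 a (he0 _ _ (hF a) ha)) (fun a ha => hγ0 1 a (he1 _ _ (hF a) ha))
    (fun a ha => hγ1 0 a (hu0 _ _ (hF a) ha)) (fun a ha => hγ1 1 a (hu1 _ _ (hF a) ha))
    (fun a => ?_) (e.toRingHom.toAddMonoidHom.comp ρ) (fun a x => ?_) ?_ hH hn hy hdy
  · show T₂ (nodeExt ext ϖ (T₁.comp F (constL c))) = _
    rw [hFC, nodeExt_nodeC, nodeDiag_nodeC]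
    rfl
  · show _ = T₂ (nodeExt ext ϖ (T₁.comp F H.base))
    rw [hR₀, mul_pow, ← map_pow (nodeC π), show θ₀ ^ ordH χ = ext c₀ from Subtype.ext hθ₀]
    simp only [T₂, map_mul, map_pow, nodeExt_nodeC, nodeDiag_nodeC, RingHom.id_apply]
  · show _ = T₂ (nodeExt ext ϖ (T₁ (F (D.conjL haux a))))
    rw [show F (D.conjL haux a) = nodeDiag hhu (F a) from
      e.injective ((hF _).trans (heτ hhu _ _ (hF a)).symm)]
    exact nodeDiag_tower_comm ext hca hca₂ (fun r => Subtype.ext rfl) hϖ.ne_zero hπ.ne_zero hhu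
      hθ₁ hτ₂ (F a)
  · show e (ρ (T₂ (nodeExt ext ϖ (T₁ (F a))) * x)) = _
    rw [hρ, map_mul, hF]
    rfl
  · show e (ρ 1) = 1
    rw [hρ1, map_one]

include haux hA hO' hϖ hζ hqm in
/-- **The roots at all closed points.** -/
theorem coverRoot [IsNoetherianRing (LRing q M O)] {𝔪 : Ideal (LRing q M O)} [h𝔪 : 𝔪.IsMaximal]
    (hfin : Finite (haveI := hO'.dvr; ResidueField O)) (hϖm : constL ϖ ∈ 𝔪)
    (htv : (pInf hO'.le ≤ 𝔪 →
        ∃ (τ0 : ℍ) (hg : GoodPoint haux O τ0), raiseL M (tPar haux hA hg) ∈ 𝔪) ∧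
      (pZero hO'.le ≤ 𝔪 → ∃ (τ0 : ℍ) (hg : GoodPoint haux O τ0),
        (atkinEquiv hM hζ).symm (raiseL M (tPar haux hA hg)) ∈ 𝔪))
    (hx : RootExt D (ordH χ)) (hH : UnitAll P H.h)
    (hdF : Divisible q M O (ordH χ) (H.base : ℍ → ℂ)) {n : ℕ} (hn : n.Coprime q)
    {y : InvRing q M O (lamH M χ)} (hy : UnitAll P y) (hdy : DivisibleI n y)
    (hda : DivisibleI n (twA haux D y (hM := hM)))
    (hdb : DivisibleI n (twB haux D y (hM := hM))) :
    letI := algB (q := q) M O χ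
    CoverRoot 𝔪 (constL ϖ) (constI (ordH χ : O) * inclA (H.base * H.base))
      (twA haux D y (hM := hM) * twB haux D y (hM := hM) ^ (n - 1))
      (twB haux D y (hM := hM)) n := by
  have := hO'.dvr
  have hs := exists_smooth_iso haux hA hO'.le hO' hϖ hM hζ hqm hϖm
  by_cases hinf : pInf hO'.le ≤ 𝔪
  · obtain ⟨τ0, hg, ht⟩ := htv.1 hinf
    by_cases hzero : pZero hO'.le ≤ 𝔪
    · obtain ⟨τ1, hg', ht'⟩ := htv.2 hzero
      exact H.coverRoot_node haux hA hO' hζ hqm D hϖ hfin hinf hzero hg ht hg' ht' hx hH hdF hn hy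
        hdy
    · obtain ⟨e, heC, -, -, he⟩ := hs.1 hinf hzero hg ht
      exact H.coverRoot_smooth haux hA hO' D hϖ e heC he hx hH hdF hn hy hda hdb
  · have hzero : pZero hO'.le ≤ 𝔪 :=
      (mem_pInf_or_pZero hO'.le h𝔪.isPrime hO' hϖ hϖm).resolve_left hinf
    obtain ⟨τ1, hg', ht'⟩ := htv.2 hzero
    obtain ⟨e, heC, -, -, he⟩ := hs.2 hzero hinf hg' ht'
    exact H.coverRoot_smooth haux hA hO' D hϖ e heC he hx hH hdF hn hy hda hdb

end CoverGen

end FermatAgent.BAD
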