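import Fermat.Agent.BAD.CuspRoot
import Fermat.Agent.BAD.Diamond.Local

/-!
# Roots of the expansions at the cusps of the covering

As at the cusps of the base, with the evaluation points supplied by the generator.
-/

set_option autoImplicit false

open UpperHalfPlane CongruenceSubgroup IsLocalRing
open scoped MatrixGroups

noncomputable section

namespace FermatAgent.BAD

open FermatAgent.ES (BSub BRing SerIn lexp act zetaC AuxLevel CPlace GoodRoot liftSer)

variable {q M m : ℕ} [hq : Fact q.Prime] [NeZero M] {O : Subring ℂ} {χ : (ZMod q)ˣ →* ℂˣ}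
  {hM : M.Coprime q} (H : CoverGen M O χ hM) (haux : AuxLevel M m)
  (hA : GoodRoot M O (zetaC M)) {P : CPlace q} (hO' : P.IsCDVR O)

include haux hA hM hO' in
/-- **An integral root of the expansion at a cusp of the covering.** -/
theorem CoverGen.exists_cusp_root [IsDiscreteValuationRing O] {n : ℕ} (hn : n.Coprime q) {ϖ : O}
    (hϖ : Irreducible ϖ) {a b : InvRing q M O (lamH M χ)} (hab : constI ϖ ∣ a - b)
    (hda : DivisibleI n a) (hdb : DivisibleI n b)
    (γ : SL(2, ℤ)) (hb : P.UnitCoeff (serI M O (lamH M χ) q γ b))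
    (hoa : (n : ℤ) ∣ (serOI M O (lamH M χ) q γ a).order)
    (hob : (n : ℤ) ∣ (serOI M O (lamH M χ) q γ b).order) :
    ∃ L : LaurentSeries ℂ, SerIn O L ∧ L ^ n = serI M O (lamH M χ) q γ (a * b ^ (n - 1)) ∧
      P.SerLT (L - serI M O (lamH M χ) q γ b) := by
  have hd : ∀ {f : InvRing q M O (lamH M χ)}, DivisibleI n f →
      ∀ Φ : InvRing q M O (lamH M χ) →+* ℂ, (∀ c, Φ (constI c) = (c : ℂ)) → Φ f = 0 →
        ∃ (i : ℕ) (E D G : InvRing q M O (lamH M χ)), Φ E ≠ 0 ∧ Φ G ≠ 0 ∧
          f * E = D ^ (n * i) * G := by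
    intro f hf Φ hΦ h0
    obtain ⟨τ, hτ⟩ := CoverGen.exists_point (hM := hM) haux hA Φ hΦ
    obtain ⟨i, E, D, G, hE, hG, heq⟩ := hf τ (by rw [← hτ]; exact h0)
    exact ⟨i, E, D, G, by rwa [hτ], by rwa [hτ], heq⟩
  rw [← liftSer_serOI] at hb ⊢
  rw [← liftSer_serOI]
  exact exists_series_root_of_zeros (serOI M O (lamH M χ) q γ) hO'
    (fun c => serOI_ext (by rw [serI_constI, liftSer_C]; rfl)) hn hϖ hab (hd hda) (hd hdb) hb hoa
    hob

end FermatAgent.BAD
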