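import Fermat.Agent.BAD.Diamond.Normal

/-!
# A normalised generator of the covering

A function with the tautological multiplier and unit coefficients at all cusps.
-/

set_option autoImplicit false

open UpperHalfPlane CongruenceSubgroup IsLocalRing
open scoped MatrixGroups Manifold

noncomputable section

namespace FermatAgent.BAD

open FermatAgent.ES (BSub BRing SerIn lexp lexp_eq hasLExp_lexp act zetaC AuxLevel CPlace GoodRoot)

variable {q M m : ℕ} [hq : Fact q.Prime] [NeZero M] {P : CPlace q}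

/-- A coefficient ring containing the root of unity of level `q M` has good roots of level `M`. -/
theorem goodRoot_O (hM : M.Coprime q) {O : Subring ℂ} (hO' : P.IsCDVR O)
    (hζ : zetaC (q * M) ∈ O) : GoodRoot M O (zetaC M) :=
  hO'.goodRoot (P.goodRoot hM) (by rw [← zetaC_level_pow (q := q)]; exact O.pow_mem hζ q)

/-- A complete discrete valuation ring containing given integers. -/
theorem exists_ring (hP : P.HasCDVRs) (hM : M.Coprime q) {S : Finset ℂ}
    (hS : (S : Set ℂ) ⊆ P.ring) :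
    ∃ O : Subring ℂ, P.IsCDVR O ∧ GoodRoot M O (zetaC M) ∧ zetaC (q * M) ∈ O ∧ (S : Set ℂ) ⊆ O := by
  classical
  obtain ⟨R, -, hRS⟩ := hP
  set T : Finset ℂ := insert (zetaC (q * M)) S
  have hT : (T : Set ℂ) ⊆ P.ring := by
    intro x hx
    rcases Finset.mem_insert.mp hx with rfl | h
    exacts [goodRoot_zeta, hS h]
  obtain ⟨hO', hsub⟩ := hRS _ T.finite_toSet hT
  exact ⟨_, hO', goodRoot_O hM hO' (hsub (Finset.mem_insert_self _ _)),
    hsub (Finset.mem_insert_self _ _), fun x hx => hsub (Finset.mem_insert_of_mem hx)⟩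

omit hq in
/-- A root of a series with unit coefficients which is integral up to a constant is integral. -/
theorem root_integral {O : Subring ℂ} (hO' : P.IsCDVR O) {s : LaurentSeries ℂ} (hs : SerIn O s)
    {c : ℂ} {n : ℕ} (hn : n ≠ 0) (hin : SerIn P.ring ((HahnSeries.C c * s) ^ n))
    (hu : P.UnitCoeff ((HahnSeries.C c * s) ^ n)) :
    SerIn P.ring (HahnSeries.C c * s) ∧ P.UnitCoeff (HahnSeries.C c * s) := by
  have := hO'.dvr
  obtain ⟨ϖ, hϖ⟩ := IsDiscreteValuationRing.exists_irreducible O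
  have hs0 : s ≠ 0 := fun h => by
    obtain ⟨i, hi⟩ := hu
    simp [h, zero_pow hn] at hi
  obtain ⟨j, u, huin, huu, hsu⟩ := exists_unit_part hO' hϖ hs hs0
  have huP : SerIn P.ring u := fun i => hO'.le (huin i)
  set d := c * (ϖ : ℂ) ^ j
  have e : HahnSeries.C c * s = HahnSeries.C d * u := by rw [hsu, map_mul, mul_assoc]
  rw [e] at hin hu ⊢
  have hun := CPlace.UnitCoeff.pow huP huu n
  have hpow : ∀ i, ((HahnSeries.C d * u) ^ n).coeff i = d ^ n * (u ^ n).coeff i := fun i => by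
    rw [mul_pow, ← map_pow, HahnSeries.C_mul_eq_smul, HahnSeries.coeff_smul, smul_eq_mul]
  have hd1 : P.abv d = 1 := by
    refine (pow_eq_one_iff_of_nonneg (P.abv.nonneg _) hn).mp (le_antisymm ?_ ?_)
    · obtain ⟨k, hk⟩ := hun
      have h := hin k
      rwa [P.mem_ring, hpow, map_mul, map_pow, hk, mul_one] at h
    · obtain ⟨i, hi⟩ := hu
      rw [hpow, map_mul, map_pow] at hi
      have h1 : P.abv ((u ^ n).coeff i) ≤ 1 := huP.pow n i
      nlinarith [pow_nonneg (P.abv.nonneg d) n]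
  refine ⟨fun i => ?_, ?_⟩
  · rw [P.mem_ring, HahnSeries.C_mul_eq_smul, HahnSeries.coeff_smul, smul_eq_mul, map_mul, hd1,
      one_mul]
    exact huP i
  · obtain ⟨i, hi⟩ := huu
    exact ⟨i, by rw [HahnSeries.C_mul_eq_smul, HahnSeries.coeff_smul, smul_eq_mul, map_mul, hd1,
      one_mul, hi]⟩

/-- The value of the character at the generator is integral. -/
theorem zetaH_mem_ring (χ : (ZMod q)ˣ →* ℂˣ) : zetaH χ ∈ P.ring :=
  (P.abv_eq_one_of_pow_eq_one (NeZero.ne (ordH χ)) (zetaH_prim χ).pow_eq_one).le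

variable (haux : AuxLevel M m) (hM : M.Coprime q) (hqm : q ≠ m) (χ : (ZMod q)ˣ →* ℂˣ)

include haux hM hqm in
/-- **A function with the tautological multiplier and unit coefficients at all cusps.** -/
theorem exists_genFn (hP : P.HasCDVRs) :
    ∃ h : InvRing q M P.ring (lamH M χ), UnitAll P h ∧ ∀ δ : lam q M,
      act (δ : SL(2, ℤ)) (h : ℍ → ℂ) = (fun _ => (charH M χ δ : ℂ)) * (h : ℍ → ℂ) := by
  classical
  obtain ⟨w, hw, hw0, hlaw⟩ := exists_multiplier χ haux hM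
  obtain ⟨c, hc0, -, hc⟩ := exists_const_mul_sepN (P := P) haux hM hw
  set h1 : ℍ → ℂ := (fun _ => c) * sepN q haux * w with hh1
  have hlaw1 : ∀ δ : lam q M,
      act (δ : SL(2, ℤ)) h1 = (fun _ => (charH M χ δ : ℂ)) * h1 := fun δ => by
    rw [hh1, ES.act_mulFun, ES.act_mulFun, ES.act_const, act_sepN haux (Gamma_M_le haux δ.2),
      hlaw δ]
    ring
  have hchar : ∀ δ : lam q M, (charH M χ δ : ℂ) ^ ordH χ = 1 := fun δ => by
    rw [← Units.val_pow_eq_pow_val, ← Units.val_one]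
    exact congrArg Units.val (chi_pow_ordH χ _)
  have hF : h1 ^ ordH χ ∈ InvRing q M P.ring (lam q M) := by
    refine ⟨pow_mem hc _, fun δ hδ => ?_⟩
    rw [show act δ (h1 ^ ordH χ) = act δ h1 ^ ordH χ from rfl, hlaw1 ⟨δ, hδ⟩, mul_pow]
    funext τ
    simp [hchar]
  obtain ⟨S, hS, hSO⟩ := exists_finset_mem_InvRing haux hM hF
  obtain ⟨O, hO', hA, hζ, hsub⟩ := exists_ring hP hM hS
  have hh10 : h1 ≠ 0 := fun h0 => hw0 (funext fun τ => by
    have h := congrFun h0 τ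
    simp only [hh1, Pi.mul_apply, Pi.zero_apply, mul_eq_zero] at h
    exact h.resolve_left (not_or.mpr ⟨hc0, sepN_ne_zero haux τ⟩))
  have hf0 : (⟨_, hSO O hO' hA hζ hsub⟩ : InvRing q M O (lam q M)) ≠ 0 := fun h0 => by
    refine hh10 (funext fun τ => ?_)
    have h := congrFun (congrArg Subtype.val h0) τ
    exact (pow_eq_zero_iff (NeZero.ne (ordH χ))).mp h
  obtain ⟨z₀, c', y, hc', hy, hyu⟩ := exists_normalI haux hA hO' hM hζ hqm
    (fun γ hγ => lam_le_lam haux hγ) gamma_qM_le hf0 (NeZero.pos (ordH χ))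
  set h' : ℍ → ℂ := (z₀ : ℍ → ℂ) * h1 with hh'
  have hh'mem : h' ∈ InvRing q M P.ring (lamH M χ) := by
    refine ⟨mul_mem z₀.2.1 hc, fun δ hδ => ?_⟩
    obtain ⟨hδ', h1'⟩ := (mem_lamH χ).mp hδ
    rw [hh', ES.act_mulFun, z₀.2.2 δ hδ', hlaw1 ⟨δ, hδ'⟩, h1']
    funext τ
    simp
  obtain ⟨S₂, hS₂, hS₂O⟩ := exists_finset_mem_InvRing haux hM hh'mem
  obtain ⟨O₂, hO₂, hA₂, hζ₂, hsub₂⟩ := exists_ring hP hM hS₂
  have hh'O := hS₂O O₂ hO₂ hA₂ hζ₂ hsub₂
  set h : ℍ → ℂ := (fun _ => c') * h' with hh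
  have hhB : h ∈ BSub (q * M) := mul_mem ((BSub (q * M)).algebraMap_mem _) hh'mem.1.1
  have hpow : h ^ ordH χ = (y : ℍ → ℂ) := by
    rw [hy, hh, hh', ← mul_assoc, mul_pow]
  have key : ∀ γ, SerIn P.ring (lexp (q * M) γ h) ∧ P.UnitCoeff (lexp (q * M) γ h) := fun γ => by
    have e : lexp (q * M) γ h = HahnSeries.C c' * lexp (q * M) γ h' :=
      lexp_eq ((ES.HasLExp.const _).mul (hasLExp_lexp hh'mem.1.1 γ))
    have e2 : lexp (q * M) γ (y : ℍ → ℂ) = lexp (q * M) γ h ^ ordH χ := by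
      rw [← hpow]
      exact lexp_eq (((hasLExp_lexp hhB γ).pow _).congr_fun fun τ => by simp)
    rw [e] at e2 ⊢
    refine root_integral hO₂ (hh'O.1.2 γ) (NeZero.ne (ordH χ)) ?_ ?_
    · rw [← e2]; exact y.2.1.2 γ
    · rw [← e2]; exact hyu γ
  refine ⟨⟨h, ⟨hhB, fun γ => (key γ).1⟩, fun δ hδ => ?_⟩, fun γ => (key γ).2, fun δ => ?_⟩
  · rw [hh, ES.act_mulFun, hh'mem.2 δ hδ, ES.act_const]
  · show act (δ : SL(2, ℤ)) h = _ * h
    rw [hh, hh', ES.act_mulFun, ES.act_mulFun, z₀.2.2 _ δ.2, ES.act_const, hlaw1 δ]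
    ring

variable {χ}

/-- The generator over a ring containing the function and the roots of unity. -/
theorem exists_coverGen {O : Subring ℂ} (hO' : P.IsCDVR O) {h : InvRing q M P.ring (lamH M χ)}
    (hu : UnitAll P h) (hlaw : ∀ δ : lam q M,
      act (δ : SL(2, ℤ)) (h : ℍ → ℂ) = (fun _ => (charH M χ δ : ℂ)) * (h : ℍ → ℂ))
    (hhO : (h : ℍ → ℂ) ∈ InvRing q M O (lamH M χ)) (hz : zetaH χ ∈ O) :
    ∃ H : CoverGen M O χ hM, (H.h : ℍ → ℂ) = h ∧ UnitAll P H.h := by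
  obtain ⟨u, hu'⟩ := isUnit_natCast_O hO' (ordH_coprime χ)
  refine ⟨⟨⟨_, hhO⟩, ⟨_, hz⟩, ((u⁻¹ : Oˣ) : O), rfl, ?_, Subtype.ext ?_, fun h0 => ?_⟩, rfl,
    fun γ => hu γ⟩
  · have h1 := congrArg Subtype.val u.inv_mul
    rw [Subring.coe_mul, hu', show (((ordH χ : O)) : ℂ) = (ordH χ : ℂ) by simp] at h1
    exact h1
  · show act ((genH hM ^ 1 : lam q M) : SL(2, ℤ)) (h : ℍ → ℂ) = (fun _ => zetaH χ) * (h : ℍ → ℂ)
    rw [hlaw, coe_charH_genH_pow, pow_one]
  · obtain ⟨i, hi⟩ := hu 1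
    have h1 : (h : ℍ → ℂ) = 0 := congrArg Subtype.val h0
    rw [serI_apply, h1, lexp_eq (γ := 1) (f := (0 : ℍ → ℂ)) ES.HasLExp.zero] at hi
    simp at hi

end FermatAgent.BAD
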