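import Fermat.Agent.BAD.DivisibleWitness
import Mathlib.RingTheory.RootsOfUnity.PrimitiveRoots

/-!
# The cyclic covering attached to a character modulo `q`

The kernel of a character of `(ℤ/q)ˣ` inside `Γ₀(q) ∩ Γ(M)`, a generator of the quotient, and
functions with a given multiplier.
-/

set_option autoImplicit false

open UpperHalfPlane CongruenceSubgroup
open scoped MatrixGroups

noncomputable section

namespace FermatAgent.BAD

open FermatAgent.ES (BSub BRing act zetaC AuxLevel GalGrp repG orbPt fibIdem modMat)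

variable {q M m : ℕ} [hq : Fact q.Prime] [NeZero M]

variable (q) in
/-- The lower right entry modulo `q`. -/
def lowQ : Gamma0 q →* (ZMod q)ˣ := (Gamma0Map q).toHomUnits

/-- The lower right entry modulo `q` as an element of `ℤ/q`. -/
theorem coe_lowQ (γ : Gamma0 q) :
    ((lowQ q γ : (ZMod q)ˣ) : ZMod q) = ((γ : SL(2, ℤ)) 1 1 : ZMod q) := rfl

variable (χ : (ZMod q)ˣ →* ℂˣ)

variable (M) in
/-- The character on `Γ₀(q) ∩ Γ(M)`. -/
def charH : lam q M →* ℂˣ :=
  (χ.comp (lowQ q)).comp (Subgroup.inclusion inf_le_left)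

variable (M) in
/-- The kernel of the character in `Γ₀(q) ∩ Γ(M)`. -/
def lamH : Subgroup SL(2, ℤ) := (charH M χ).ker.map (lam q M).subtype

section

omit [NeZero M]

/-- Membership in the kernel of the character. -/
theorem mem_lamH {γ : SL(2, ℤ)} :
    γ ∈ lamH M χ ↔ ∃ h : γ ∈ lam q M, charH M χ ⟨γ, h⟩ = 1 := by
  simp [lamH, Subgroup.mem_map, MonoidHom.mem_ker]

/-- The kernel of the character lies in `Γ₀(q) ∩ Γ(M)`. -/
theorem lamH_le : lamH M χ ≤ lam q M := fun _ h => ((mem_lamH χ).mp h).choose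

/-- The character depends only on the lower right entry modulo `q`. -/
theorem charH_congr {γ γ' : lam q M} (h : lowQ q (Subgroup.inclusion inf_le_left γ) =
    lowQ q (Subgroup.inclusion inf_le_left γ')) : charH M χ γ = charH M χ γ' := congrArg χ h

/-- The character is trivial on elements with lower right entry `1` modulo `q`. -/
theorem charH_of_diag {γ : lam q M} (h : ((γ : SL(2, ℤ)) 1 1 : ZMod q) = 1) :
    charH M χ γ = 1 :=
  (congrArg χ (Units.ext h : lowQ q (Subgroup.inclusion inf_le_left γ) = 1)).trans (map_one χ)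

theorem gamma_qM_le_lamH : Gamma (q * M) ≤ lamH M χ := fun _ hγ => (mem_lamH χ).mpr
  ⟨gamma_qM_le hγ, charH_of_diag χ
    (Gamma_mem.mp (ES.gamma_le_of_dvd (dvd_mul_right q M) hγ)).2.2.2⟩

/-- The kernel of the character is normal in `Γ₀(q) ∩ Γ(M)`. -/
theorem conj_mem_lamH {δ : SL(2, ℤ)} (hδ : δ ∈ lam q M) :
    ∀ γ ∈ lamH M χ, δ * γ * δ⁻¹ ∈ lamH M χ := fun γ hγ => by
  obtain ⟨h, h1⟩ := (mem_lamH χ).mp hγ
  refine (mem_lamH χ).mpr ⟨mul_mem (mul_mem hδ h) (inv_mem hδ), ?_⟩
  rw [show (⟨δ * γ * δ⁻¹, mul_mem (mul_mem hδ h) (inv_mem hδ)⟩ : lam q M) =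
    ⟨δ, hδ⟩ * ⟨γ, h⟩ * ⟨δ, hδ⟩⁻¹ from rfl, map_mul, map_mul, map_inv, h1, mul_one, mul_inv_cancel]

/-- Translations of an invariant function only depend on the character. -/
theorem act_eq_act_of_charH {f : ℍ → ℂ} (hf : ∀ γ ∈ lamH M χ, act γ f = f) {δ δ' : SL(2, ℤ)}
    (hδ : δ ∈ lam q M) (hδ' : δ' ∈ lam q M) (h : charH M χ ⟨δ, hδ⟩ = charH M χ ⟨δ', hδ'⟩) :
    act δ f = act δ' f := by
  have hmem : δ * δ'⁻¹ ∈ lamH M χ := (mem_lamH χ).mpr ⟨mul_mem hδ (inv_mem hδ'), by
    rw [show (⟨δ * δ'⁻¹, mul_mem hδ (inv_mem hδ')⟩ : lam q M) = ⟨δ, hδ⟩ * ⟨δ', hδ'⟩⁻¹ from rfl,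
      map_mul, map_inv, h, mul_inv_cancel]⟩
  rw [show δ = δ * δ'⁻¹ * δ' by group, ES.act_mul, hf _ hmem]

end

/-- Every unit modulo `q` is a lower right entry in `Γ₀(q) ∩ Γ(M)`. -/
theorem exists_lam_lower (hM : M.Coprime q) (u : (ZMod q)ˣ) :
    ∃ γ : lam q M, lowQ q (Subgroup.inclusion inf_le_left γ) = u := by
  set e := ZMod.chineseRemainder (Nat.Coprime.symm hM)
  set x := e.symm ((u : ZMod q), 1)
  set y := e.symm (((u⁻¹ : (ZMod q)ˣ) : ZMod q), 1)
  have hxy : y * x = 1 := by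
    rw [← map_mul, Prod.mk_mul_mk, u.inv_mul, mul_one, ← Prod.one_eq_mk, map_one]
  obtain ⟨γ, hγ⟩ := ES.exists_lift_modMat (M := q * M) (a := y) (b := 0) (c := 0) (d := x)
    (by rw [hxy, mul_zero, sub_zero])
  have hx : e x = ((u : ZMod q), 1) := e.apply_symm_apply _
  have hy : e y = (((u⁻¹ : (ZMod q)ˣ) : ZMod q), 1) := e.apply_symm_apply _
  have hent : ∀ (i j : Fin 2) (z : ZMod (q * M)), ((γ i j : ℤ) : ZMod (q * M)) = z →
      ((γ i j : ℤ) : ZMod q) = (e z).1 ∧ ((γ i j : ℤ) : ZMod M) = (e z).2 := fun i j z h => by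
    rw [← h, map_intCast, Prod.fst_intCast, Prod.snd_intCast]
    exact ⟨rfl, rfl⟩
  have h00 := hent 0 0 y (by simpa [modMat] using congrFun (congrFun hγ 0) 0)
  have h01 := hent 0 1 0 (by simpa [modMat] using congrFun (congrFun hγ 0) 1)
  have h10 := hent 1 0 0 (by simpa [modMat] using congrFun (congrFun hγ 1) 0)
  have h11 := hent 1 1 x (by simpa [modMat] using congrFun (congrFun hγ 1) 1)
  rw [hy] at h00
  rw [hx] at h11
  rw [map_zero] at h01 h10
  have hmem : γ ∈ lam q M :=
    Subgroup.mem_inf.mpr ⟨Gamma0_mem.mpr h10.1, Gamma_mem.mpr ⟨h00.2, h01.2, h10.2, h11.2⟩⟩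
  exact ⟨⟨γ, hmem⟩, Units.ext h11.1⟩

variable (q) in
/-- A generator of `(ℤ/q)ˣ`. -/
def unitGen : (ZMod q)ˣ := (IsCyclic.exists_generator (α := (ZMod q)ˣ)).choose

/-- Every unit modulo `q` is a power of the generator. -/
theorem mem_zpowers_unitGen (u : (ZMod q)ˣ) : u ∈ Subgroup.zpowers (unitGen q) :=
  (IsCyclic.exists_generator (α := (ZMod q)ˣ)).choose_spec u

/-- The order of the character. -/
def ordH : ℕ := orderOf (χ (unitGen q))

/-- The value of the character at the generator. -/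
def zetaH : ℂ := (χ (unitGen q) : ℂˣ)

theorem ordH_dvd : ordH χ ∣ q - 1 := by
  refine (orderOf_map_dvd χ _).trans ((orderOf_dvd_natCard _).trans ?_)
  rw [Nat.card_eq_fintype_card, ZMod.card_units]

instance neZero_ordH : NeZero (ordH χ) := ⟨fun h => by
  have h1 := ordH_dvd χ
  rw [h, zero_dvd_iff] at h1
  have := hq.out.two_le
  omega⟩

/-- The value of the character at the generator is a primitive root of unity of the order of the
character. -/
theorem zetaH_prim : IsPrimitiveRoot (zetaH χ) (ordH χ) :=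
  (IsPrimitiveRoot.orderOf (χ (unitGen q))).map_of_injective (f := Units.coeHom ℂ)
    Units.val_injective

/-- The order of the character is prime to `q`. -/
theorem ordH_coprime : (ordH χ).Coprime q := by
  refine (Nat.Prime.coprime_iff_not_dvd hq.out).mpr (fun h => ?_) |>.symm
  have h1 := Nat.le_of_dvd (by have := hq.out.two_le; omega) (h.trans (ordH_dvd χ))
  have := hq.out.pos
  omega

/-- The values of the character are killed by its order. -/
theorem chi_pow_ordH (u : (ZMod q)ˣ) : χ u ^ ordH χ = 1 := by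
  obtain ⟨k, rfl⟩ := Subgroup.mem_zpowers_iff.mp (mem_zpowers_unitGen u)
  rw [map_zpow, ← zpow_natCast, ← zpow_mul, mul_comm, zpow_mul, zpow_natCast, ordH,
    pow_orderOf_eq_one, one_zpow]

theorem exists_chi_eq_pow (u : (ZMod q)ˣ) : ∃ i < ordH χ, χ u = χ (unitGen q) ^ i := by
  obtain ⟨k, hk⟩ := Subgroup.mem_zpowers_iff.mp (mem_zpowers_unitGen u)
  have h : χ u ∈ Subgroup.zpowers (χ (unitGen q)) :=
    Subgroup.mem_zpowers_iff.mpr ⟨k, by rw [← map_zpow, hk]⟩
  have ho : IsOfFinOrder (χ (unitGen q)) :=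
    orderOf_pos_iff.mp (Nat.pos_of_ne_zero (NeZero.ne (ordH χ)))
  rw [ho.mem_zpowers_iff_mem_range_orderOf, Finset.mem_image] at h
  obtain ⟨i, hi, hi'⟩ := h
  exact ⟨i, Finset.mem_range.mp hi, hi'.symm⟩

/-- A generator of the covering group. -/
def genH (hM : M.Coprime q) : lam q M := (exists_lam_lower hM (unitGen q)).choose

theorem charH_genH (hM : M.Coprime q) : charH M χ (genH hM) = χ (unitGen q) :=
  congrArg χ (exists_lam_lower hM (unitGen q)).choose_spec

/-- The character at the powers of the generator of the covering group. -/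
theorem coe_charH_genH_pow (hM : M.Coprime q) (i : ℕ) :
    (charH M χ (genH hM ^ i) : ℂ) = zetaH χ ^ i := by
  rw [map_pow, charH_genH, Units.val_pow_eq_pow_val, zetaH]

/-- Every element has the character of a power of the generator. -/
theorem exists_charH_eq_genH_pow (hM : M.Coprime q) (δ : lam q M) :
    ∃ i < ordH χ, charH M χ δ = charH M χ (genH hM ^ i) := by
  obtain ⟨i, hi, h⟩ := exists_chi_eq_pow χ (lowQ q (Subgroup.inclusion inf_le_left δ))
  exact ⟨i, hi, by rw [map_pow, charH_genH]; exact h⟩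

/-- The `E`-th power of the generator lies in the kernel. -/
theorem genH_pow_ordH (hM : M.Coprime q) :
    ((genH hM ^ ordH χ : lam q M) : SL(2, ℤ)) ∈ lamH M χ :=
  (mem_lamH χ).mpr
    ⟨(genH hM ^ ordH χ).2, by rw [Subtype.coe_eta, map_pow, charH_genH, chi_pow_ordH]⟩

section Multiplier

variable (haux : AuxLevel M m) {Λ : Subgroup SL(2, ℤ)} (hΛ : Λ ≤ lam q M)
include haux

omit hΛ hq [NeZero M] in
theorem mem_gamma_qM_of_mk_eq_one {δ : SL(2, ℤ)} (hδ : δ ∈ lam q M)
    (h : ((⟨δ, Gamma_M_le haux hδ⟩ : Gamma m) : GalGrp (q * M) m) = 1) : δ ∈ Gamma (q * M) := by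
  rw [QuotientGroup.eq_one_iff] at h
  rcases h with h | h
  · exact ES.mem_Gamma_of_modMat h
  · exfalso
    have h11 : ((δ 1 1 : ℤ) : ZMod (q * M)) = -1 := by
      simpa [modMat] using congrFun (congrFun h 1) 1
    have h' := congrArg (ZMod.castHom (dvd_mul_left M q) (ZMod M)) h11
    rw [map_intCast, map_neg, map_one, (Gamma_mem.mp hδ.2).2.2.2] at h'
    have : Fact (2 < M) := ⟨by have := haux.three_le; omega⟩
    exact ZMod.neg_one_ne_one h'.symm

omit hΛ in
/-- A nonzero function with the given multiplier. -/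
theorem exists_multiplier (hM : M.Coprime q) :
    ∃ w : ℍ → ℂ, w ∈ BSub (q * M) ∧ w ≠ 0 ∧ ∀ δ : lam q M,
      act (δ : SL(2, ℤ)) w = (fun _ => (charH M χ δ : ℂ)) * w := by
  classical
  set haux' := auxLevel_level (q := q) haux
  set p := UpperHalfPlane.I
  have hg := ES.goodPoint_top haux' p
  set fib := fibIdem haux' p 1
  have hfib : fib ∈ BSub (q * M) := (ES.fibIdem_mem haux' ES.zetaC_goodRoot_top hg 1).1
  set e := ∑ h ∈ imgG haux (lamH_le (M := M) χ), act (repG (q * M) m h) fib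
  have he : e ∈ BSub (q * M) := Subalgebra.sum_mem _ fun h _ => ES.act_mem_BSub hfib _
  have heinv : ∀ γ ∈ lamH M χ, act γ e = e := fun γ hγ => act_sum_imgG haux _ hfib hγ
  set g := genH (q := q) (M := M) hM
  set z := zetaH χ
  have hz := zetaH_prim χ
  have hz0 : z ≠ 0 := hz.ne_zero (NeZero.ne _)
  set G : ℕ → ℍ → ℂ := fun i =>
    (fun _ => (z ^ i)⁻¹) * act ((g ^ i : lam q M) : SL(2, ℤ)) e
  set w := ∑ i ∈ Finset.range (ordH χ), G i
  have hwmem : w ∈ BSub (q * M) := Subalgebra.sum_mem _ fun i _ =>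
    mul_mem ((BSub (q * M)).algebraMap_mem _) (ES.act_mem_BSub he _)
  have hwinv : ∀ γ ∈ lamH M χ, act γ w = w := fun γ hγ => by
    simp only [w, G, ES.act_sum, ES.act_mulFun, ES.act_const]
    refine Finset.sum_congr rfl fun i _ => ?_
    rw [← ES.act_mul, show ((g ^ i : lam q M) : SL(2, ℤ)) * γ =
      ((g ^ i : lam q M) : SL(2, ℤ)) * γ * ((g ^ i : lam q M) : SL(2, ℤ))⁻¹ *
        ((g ^ i : lam q M) : SL(2, ℤ)) by group, ES.act_mul,
      heinv _ (conj_mem_lamH χ (g ^ i).2 γ hγ)]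
  have hgw : act (g : SL(2, ℤ)) w = (fun _ => z) * w := by
    have hper : G (ordH χ) = G 0 := by
      simp only [G]
      rw [show z ^ ordH χ = 1 from hz.pow_eq_one, pow_zero, inv_one, pow_zero,
        heinv _ (genH_pow_ordH χ hM), Subgroup.coe_one, ES.act_one]
    have hstep : ∀ i, act (g : SL(2, ℤ)) (G i) = (fun _ => z) * G (i + 1) := fun i => by
      simp only [G, ES.act_mulFun, ES.act_const, ← ES.act_mul, pow_succ, Subgroup.coe_mul]
      rw [← mul_assoc]
      congr 1
      funext _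
      simp only [Pi.mul_apply]
      field_simp
    simp only [w, ES.act_sum, hstep, ← Finset.mul_sum]
    congr 1
    have h1 := Finset.sum_range_succ' G (ordH χ)
    rw [Finset.sum_range_succ, hper] at h1
    exact (add_right_cancel h1).symm
  refine ⟨w, hwmem, fun h0 => ?_, fun δ => ?_⟩
  · have hval : w p = 1 := by
      simp only [w, Finset.sum_apply]
      rw [Finset.sum_eq_single 0 (fun i hi hi0 => ?_) (fun h => absurd
        (Finset.mem_range.mpr (NeZero.pos (ordH χ))) h)]
      · simp only [G, pow_zero, inv_one, Subgroup.coe_one, ES.act_one, Pi.mul_apply, one_mul]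
        show (∑ h ∈ imgG haux (lamH_le (M := M) χ), act (repG (q * M) m h) fib) p = 1
        rw [Finset.sum_apply, Finset.sum_eq_single (1 : GalGrp (q * M) m) (fun h _ hh => ?_)
          (fun h => absurd (one_mem_imgG haux _) h)]
        · exact (ES.fibIdem_orbPt haux' p 1 1).trans (if_pos rfl)
        · exact (ES.fibIdem_orbPt haux' p 1 h).trans (if_neg (Ne.symm hh))
      · show (z ^ i)⁻¹ * act _ e p = 0
        refine mul_eq_zero_of_right _ ?_
        simp only [e, ES.act_sum, Finset.sum_apply]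
        refine Finset.sum_eq_zero fun k hk => ?_
        obtain ⟨⟨l, hl⟩, rfl⟩ := (mem_imgG haux _).mp hk
        rw [← ES.act_eq_act_repG hfib, ← ES.act_mul]
        have hmem : l * ((g ^ i : lam q M) : SL(2, ℤ)) ∈ lam q M :=
          mul_mem (lamH_le χ hl) (g ^ i).2
        rw [show act (l * ((g ^ i : lam q M) : SL(2, ℤ))) fib =
          act (((⟨_, Gamma_M_le haux hmem⟩ : Gamma m)) : SL(2, ℤ)) fib from rfl,
          ES.act_eq_act_repG hfib]
        refine (ES.fibIdem_orbPt haux' p 1 _).trans (if_neg fun hone => ?_)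
        have h1 := gamma_qM_le_lamH χ (mem_gamma_qM_of_mk_eq_one haux hmem hone.symm)
        have h2 : ((g ^ i : lam q M) : SL(2, ℤ)) ∈ lamH M χ := (mul_mem_cancel_left hl).mp h1
        obtain ⟨h3, h4⟩ := (mem_lamH χ).mp h2
        have h5 := coe_charH_genH_pow χ hM i
        rw [show charH M χ (g ^ i) = 1 from h4, Units.val_one] at h5
        exact hz.pow_ne_one_of_pos_of_lt hi0 (Finset.mem_range.mp hi) h5.symm
    rw [h0] at hval
    exact zero_ne_one hval
  · obtain ⟨i, -, hi⟩ := exists_charH_eq_genH_pow χ hM δ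
    rw [act_eq_act_of_charH χ hwinv δ.2 (g ^ i).2
      (by rw [Subtype.coe_eta, Subtype.coe_eta]; exact hi), hi,
      coe_charH_genH_pow χ hM]
    induction i generalizing δ with
    | zero => rw [pow_zero, Subgroup.coe_one, ES.act_one, pow_zero]; exact (one_mul w).symm
    | succ i ih =>
      clear hi δ
      rw [pow_succ, Subgroup.coe_mul, ES.act_mul, ih (g ^ i) rfl, ES.act_mulFun, ES.act_const, hgw,
        ← mul_assoc, pow_succ]
      rfl

end Multiplier

end FermatAgent.BAD
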