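import Fermat.Agent.BAD.Divisible

/-!
# The integral functions of level `q M` invariant under a group

For a group `Λ` between `Γ(q M)` and `Γ₀(q) ∩ Γ(m)` these form the coordinate ring of an
intermediate covering; the functions small at one cusp form a prime ideal.
-/

set_option autoImplicit false

open UpperHalfPlane CongruenceSubgroup IsLocalRing
open scoped MatrixGroups Manifold

noncomputable section

namespace FermatAgent.BAD

open FermatAgent.ES (BSub BRing SerIn HasLExp lexp lexp_eq hasLExp_lexp lexp_act act zetaC AuxLevel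
  CPlace GoodRoot cuspSer liftSer GalGrp repG trG)

variable {q M m : ℕ} [Fact q.Prime] [NeZero M] {O : Subring ℂ} {Λ : Subgroup SL(2, ℤ)}

/-- The integral functions of level `q M` invariant under `Λ`. -/
def InvRing (q M : ℕ) [Fact q.Prime] [NeZero M] (O : Subring ℂ) (Λ : Subgroup SL(2, ℤ)) :
    Subring (ℍ → ℂ) where
  carrier := {f | f ∈ BRing (q * M) O ∧ ∀ δ ∈ Λ, act δ f = f}
  mul_mem' {f g} hf hg := ⟨mul_mem hf.1 hg.1, fun δ hδ => by
    rw [ES.act_mulFun, hf.2 δ hδ, hg.2 δ hδ]⟩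
  one_mem' := ⟨one_mem _, fun _ _ => rfl⟩
  add_mem' {f g} hf hg := ⟨add_mem hf.1 hg.1, fun δ hδ => by
    rw [ES.act_add, hf.2 δ hδ, hg.2 δ hδ]⟩
  zero_mem' := ⟨zero_mem _, fun _ _ => rfl⟩
  neg_mem' {f} hf := ⟨neg_mem hf.1, fun δ hδ => by rw [ES.act_neg, hf.2 δ hδ]⟩

/-- The invariant rings grow with the coefficient ring. -/
theorem InvRing_mono {O' : Subring ℂ} (h : O ≤ O') : InvRing q M O Λ ≤ InvRing q M O' Λ :=
  fun _ hf => ⟨ES.BRing_mono h hf.1, hf.2⟩

/-- Invariant functions are holomorphic. -/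
theorem InvRing.mdiff (f : InvRing q M O Λ) :
    MDiff (f : ℍ → ℂ) := ES.mdifferentiable_of_mem f.2.1.1

variable (M O Λ) in
/-- The expansion at the cusp `γ`. -/
def serI (q : ℕ) [Fact q.Prime] (γ : SL(2, ℤ)) : InvRing q M O Λ →+* LaurentSeries ℂ :=
  (ES.expHom (M := q * M) γ).comp
    ((InvRing q M O Λ).subtype.codRestrict (BSub (q * M)) fun f => f.2.1.1)

/-- The expansion of an invariant function is its expansion at level `q M`. -/
theorem serI_apply (γ : SL(2, ℤ)) (f : InvRing q M O Λ) :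
    serI M O Λ q γ f = lexp (q * M) γ (f : ℍ → ℂ) := rfl

/-- The expansions have coefficients in the coefficient ring. -/
theorem serIn_serI (γ : SL(2, ℤ)) (f : InvRing q M O Λ) : SerIn O (serI M O Λ q γ f) := f.2.1.2 γ

/-- A function is determined by one expansion. -/
theorem serI_injective (γ : SL(2, ℤ)) : Function.Injective (serI M O Λ q γ) := fun f g h =>
  Subtype.ext (ES.lexp_injective f.2.1.1 g.2.1.1 h)

variable (M O Λ) in
/-- The expansion at the cusp `γ`, with coefficients in `O`. -/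
def serOI (q : ℕ) [Fact q.Prime] (γ : SL(2, ℤ)) : InvRing q M O Λ →+* LaurentSeries O :=
  (cuspSer (M := q * M) O γ).comp
    ((InvRing q M O Λ).subtype.codRestrict (BRing (q * M) O) fun f => f.2.1)

/-- The integral expansion maps to the expansion. -/
theorem liftSer_serOI (γ : SL(2, ℤ)) (f : InvRing q M O Λ) :
    liftSer O.subtype (serOI M O Λ q γ f) = serI M O Λ q γ f := ES.liftSer_cuspSer O γ _

/-- An integral series mapping to the expansion is the integral expansion. -/
theorem serOI_ext {γ : SL(2, ℤ)} {f : InvRing q M O Λ} {t : LaurentSeries O}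
    (h : serI M O Λ q γ f = liftSer O.subtype t) : serOI M O Λ q γ f = t :=
  ES.liftSer_injective O.subtype_injective ((liftSer_serOI γ f).trans h)

/-- A constant. -/
def constI : O →+* InvRing q M O Λ where
  toFun a := ⟨fun _ => (a : ℂ), ES.const_mem_BRing a.2, fun _ _ => rfl⟩
  map_one' := rfl
  map_mul' _ _ := rfl
  map_zero' := rfl
  map_add' _ _ := rfl

/-- The expansion of a constant. -/
theorem serI_constI (γ : SL(2, ℤ)) (a : O) :
    serI M O Λ q γ (constI a) = HahnSeries.C (a : ℂ) := lexp_eq (ES.HasLExp.const (a : ℂ))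

/-- Functions on `Γ₀(q) ∩ Γ(M)` are invariant under smaller groups. -/
def ofLRing (hΛ : Λ ≤ lam q M) : LRing q M O →+* InvRing q M O Λ :=
  (LRing q M O).subtype.codRestrict _ fun f => ⟨f.2.1, fun δ hδ => f.2.2.2 δ (hΛ hδ)⟩

/-- A function on the base as a function on the covering. -/
theorem coe_ofLRing (hΛ : Λ ≤ lam q M) (f : LRing q M O) : (ofLRing hΛ f : ℍ → ℂ) = f := rfl

/-- The expansions of a function from the base. -/
theorem serI_ofLRing (hΛ : Λ ≤ lam q M) (γ : SL(2, ℤ)) (f : LRing q M O) :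
    serI M O Λ q γ (ofLRing hΛ f) = serAt M O q γ f := rfl

/-- Constants of the base are constants of the covering. -/
theorem ofLRing_constL (hΛ : Λ ≤ lam q M) (a : O) :
    ofLRing hΛ (constL a : LRing q M O) = constI a := rfl

/-- Translation by an element normalising the group. -/
def actI (δ : SL(2, ℤ)) (hδ : ∀ γ ∈ Λ, δ * γ * δ⁻¹ ∈ Λ) : InvRing q M O Λ →+* InvRing q M O Λ :=
  ((ES.actHom δ).comp (InvRing q M O Λ).subtype).codRestrict _ fun f =>
    ⟨ES.act_mem_BRing f.2.1 δ, fun γ hγ => by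
      show act γ (act δ (f : ℍ → ℂ)) = act δ (f : ℍ → ℂ)
      rw [← ES.act_mul, show δ * γ = δ * γ * δ⁻¹ * δ by group, ES.act_mul,
        f.2.2 _ (hδ γ hγ)]⟩

/-- The translate as a function. -/
theorem coe_actI (δ : SL(2, ℤ)) (hδ : ∀ γ ∈ Λ, δ * γ * δ⁻¹ ∈ Λ) (f : InvRing q M O Λ) :
    (actI δ hδ f : ℍ → ℂ) = act δ (f : ℍ → ℂ) := rfl

/-- The expansions of a translate. -/
theorem serI_actI (δ : SL(2, ℤ)) (hδ : ∀ γ ∈ Λ, δ * γ * δ⁻¹ ∈ Λ) (f : InvRing q M O Λ)
    (γ : SL(2, ℤ)) : serI M O Λ q γ (actI δ hδ f) = serI M O Λ q (δ * γ) f := by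
  rw [serI_apply, serI_apply, coe_actI, lexp_act]

section Small

variable {P : CPlace q} (hO : O ≤ P.ring)

theorem serIn_ring_serI (γ : SL(2, ℤ)) (f : InvRing q M O Λ) (h : O ≤ P.ring) :
    SerIn P.ring (serI M O Λ q γ f) := fun n => h (serIn_serI γ f n)

variable (M Λ) in
/-- The functions small at the cusp `γ`. -/
def smallI (γ : SL(2, ℤ)) : Ideal (InvRing q M O Λ) where
  carrier := {f | P.SerLT (serI M O Λ q γ f)}
  zero_mem' := by show P.SerLT (serI M O Λ q γ 0); rw [map_zero]; intro n; simp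
  add_mem' {f g} hf hg := by
    show P.SerLT (serI M O Λ q γ (f + g))
    rw [map_add]; exact CPlace.SerLT.add hf hg
  smul_mem' r f hf := by
    show P.SerLT (serI M O Λ q γ (r • f))
    rw [smul_eq_mul, map_mul, mul_comm]
    exact CPlace.SerLT.mul_serIn hf (serIn_ring_serI γ r hO)

/-- Membership in the ideal of functions small at a cusp. -/
theorem mem_smallI {γ : SL(2, ℤ)} {f : InvRing q M O Λ} :
    f ∈ smallI M Λ hO γ ↔ P.SerLT (serI M O Λ q γ f) := Iff.rfl

include hO in
/-- A function not small at a cusp has a unit coefficient there. -/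
theorem unitCoeff_serI_of_not_small {γ : SL(2, ℤ)} {f : InvRing q M O Λ}
    (h : f ∉ smallI M Λ hO γ) : P.UnitCoeff (serI M O Λ q γ f) := by
  by_contra hno
  exact h (P.serLT_of_not_unitCoeff (serIn_ring_serI γ f hO) hno)

/-- The functions small at a cusp form a prime ideal. -/
theorem smallI_isPrime (γ : SL(2, ℤ)) : (smallI M Λ hO γ : Ideal (InvRing q M O Λ)).IsPrime := by
  refine ⟨fun h => ?_, fun {f g} hfg => ?_⟩
  · have h1 : P.SerLT (serI M O Λ q γ 1) := (Ideal.eq_top_iff_one _).mp h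
    rw [map_one] at h1
    exact h1.not_unitCoeff ⟨0, by simp⟩
  · by_contra hno
    rw [not_or] at hno
    have h1 : P.SerLT (serI M O Λ q γ (f * g)) := hfg
    rw [map_mul] at h1
    exact h1.not_unitCoeff (CPlace.UnitCoeff.mul (serIn_ring_serI γ f hO) (serIn_ring_serI γ g hO)
      (unitCoeff_serI_of_not_small hO hno.1) (unitCoeff_serI_of_not_small hO hno.2))

variable (P) in
/-- A unit coefficient at every cusp. -/
def UnitAll (f : InvRing q M O Λ) : Prop := ∀ γ, P.UnitCoeff (serI M O Λ q γ f)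

include hO in
/-- Unit coefficients at all cusps are closed under products. -/
theorem UnitAll.mul {f g : InvRing q M O Λ} (hf : UnitAll P f) (hg : UnitAll P g) :
    UnitAll P (f * g) := fun γ => by
  rw [map_mul]
  exact CPlace.UnitCoeff.mul (serIn_ring_serI γ f hO) (serIn_ring_serI γ g hO) (hf γ) (hg γ)

include hO in
/-- Unit coefficients at all cusps are closed under powers. -/
theorem UnitAll.pow {f : InvRing q M O Λ} (hf : UnitAll P f) (k : ℕ) : UnitAll P (f ^ k) :=
  fun γ => by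
    rw [map_pow]
    exact CPlace.UnitCoeff.pow (serIn_ring_serI γ f hO) (hf γ) k

/-- Unit coefficients at all cusps are kept by translations. -/
theorem UnitAll.actI {f : InvRing q M O Λ} (hf : UnitAll P f) (δ : SL(2, ℤ))
    (hδ : ∀ γ ∈ Λ, δ * γ * δ⁻¹ ∈ Λ) : UnitAll P (BAD.actI δ hδ f) := fun γ => by
  rw [serI_actI]; exact hf _

/-- A function with unit coefficients is small at no cusp. -/
theorem UnitAll.not_small {f : InvRing q M O Λ} (hf : UnitAll P f) (γ : SL(2, ℤ)) :
    f ∉ smallI M Λ hO γ := fun h => (show P.SerLT _ from h).not_unitCoeff (hf γ)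

section Unif

variable (hO' : P.IsCDVR O) {ϖ : O} (hϖ : Irreducible ϖ)
include hO' hϖ

theorem constI_unif_mem (γ : SL(2, ℤ)) :
    (constI ϖ : InvRing q M O Λ) ∈ smallI M Λ hO γ := fun n => by
  rw [serI_constI, HahnSeries.C_apply]
  rcases eq_or_ne n 0 with rfl | hn
  · rw [HahnSeries.coeff_single_same]; exact abv_unif hO' hϖ
  · rw [HahnSeries.coeff_single_of_ne hn]; simp

/-- A function small at every cusp is a multiple of the uniformiser. -/
theorem dvd_of_small {f : InvRing q M O Λ} (h : ∀ γ, f ∈ smallI M Λ hO γ) : constI ϖ ∣ f := by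
  have hϖ0 : (ϖ : ℂ) ≠ 0 := fun h => hϖ.ne_zero (Subtype.ext h)
  set g : ℍ → ℂ := (fun _ => (ϖ : ℂ)⁻¹) * (f : ℍ → ℂ) with hg
  have hgser : ∀ γ, lexp (q * M) γ g = HahnSeries.C (ϖ : ℂ)⁻¹ * serI M O Λ q γ f := fun γ =>
    lexp_eq ((ES.HasLExp.const _).mul (hasLExp_lexp f.2.1.1 γ))
  have hmem : g ∈ InvRing q M O Λ := by
    refine ⟨⟨mul_mem ((BSub (q * M)).algebraMap_mem _) f.2.1.1, fun γ n => ?_⟩, fun δ hδ => ?_⟩
    · rw [hgser, HahnSeries.C_apply, HahnSeries.coeff_single_zero_mul]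
      obtain ⟨w, hw, hzw⟩ := exists_eq_unif_mul hO' hϖ (serIn_serI γ f n)
        ((show P.SerLT _ from h γ) n)
      rw [hzw, inv_mul_cancel_left₀ hϖ0]
      exact hw
    · rw [hg, ES.act_mulFun, f.2.2 δ hδ]; rfl
  refine ⟨⟨g, hmem⟩, Subtype.ext (funext fun τ => ?_)⟩
  show (f : ℍ → ℂ) τ = (ϖ : ℂ) * ((ϖ : ℂ)⁻¹ * (f : ℍ → ℂ) τ)
  rw [mul_inv_cancel_left₀ hϖ0]

omit hO' in
/-- Multiplication by the uniformiser is injective. -/
theorem constI_unif_regular {x : InvRing q M O Λ} (h : constI ϖ * x = 0) : x = 0 :=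
  Subtype.ext (funext fun τ =>
    (mul_eq_zero.mp (congrFun (congrArg Subtype.val h) τ)).resolve_left
      fun h => hϖ.ne_zero (Subtype.ext h))

include hO in
/-- A function with unit coefficients is regular modulo the uniformiser. -/
theorem regMod_of_unitAll {f : InvRing q M O Λ} (hf : UnitAll P f) :
    RegMod (constI ϖ) f := fun x hx => by
  obtain ⟨w, hw⟩ := hx
  refine dvd_of_small hO hO' hϖ fun γ => ?_
  exact ((smallI_isPrime hO γ).mem_or_mem (x := f) (y := x)
    (by rw [hw]; exact Ideal.mul_mem_right _ _ (constI_unif_mem hO hO' hϖ γ))).resolve_left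
    (hf.not_small hO γ)

end Unif

end Small

section Finset

variable (haux : AuxLevel M m) {P : CPlace q} (hM : M.Coprime q)
include haux hM

/-- An invariant function is defined over a complete ring with finitely many generators. -/
theorem exists_finset_mem_InvRing {f : ℍ → ℂ} (hf : f ∈ InvRing q M P.ring Λ) :
    ∃ S : Finset ℂ, (S : Set ℂ) ⊆ P.ring ∧ ∀ O : Subring ℂ, P.IsCDVR O →
      GoodRoot M O (zetaC M) → zetaC (q * M) ∈ O → (S : Set ℂ) ⊆ O →
        f ∈ InvRing q M O Λ := by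
  obtain ⟨S, hS, h⟩ := exists_finset_mem_BRing_level haux hM hf.1
  exact ⟨S, hS, fun O hO' hA hζ hsub => ⟨h O hO' hA hζ hsub, hf.2⟩⟩

end Finset

end FermatAgent.BAD
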