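import Fermat.Agent.BAD.Diamond.Gen
import Fermat.Agent.BAD.IsKum

/-!
# Kummer elements on the covering, their conjugates and their diamond translates

A parabolic character of a group containing `lamH` has a Kummer element `(w v / W²) ^ n` on the
covering with unit coefficients at all cusps; its orders at the cusps are divisible by `n`.
-/

set_option autoImplicit false

open UpperHalfPlane CongruenceSubgroup
open scoped MatrixGroups ModularForm Manifold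

noncomputable section

namespace FermatAgent.BAD

open FermatAgent.ES (BSub BRing SerIn HasLExp HasExp lexp lexp_eq hasLExp_lexp act zetaC AuxLevel
  CPlace GoodRoot IsTwist IsParChar parGroup GoodLevel auxW conjChar mapSer auxSer)

variable {q M m : ℕ} [hq : Fact q.Prime] [NeZero M] (haux : AuxLevel M m) (hM : M.Coprime q)
  (hqm : q ≠ m) {Γ : Subgroup SL(2, ℤ)} {N : ℕ} [NeZero N] {χ : (ZMod q)ˣ →* ℂˣ}

include hM haux hqm in
/-- **The Kummer element on the covering.** -/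
theorem exists_kummerI (hG : GoodLevel N Γ) (hlam : lamH M χ ≤ Γ) (hΓq : Γ ≤ Gamma0 q)
    (hNM : N ∣ q * M) {P : CPlace q} (hP : P.HasCDVRs) {n : ℕ} [NeZero n] (φ : parGroup Γ n) :
    ∃ (v w : ℍ → ℂ) (y : InvRing q M P.ring (lamH M χ)),
      IsTwist Γ ((2 * 2 : ℕ) : ℤ) (φ : Γ →* ℂˣ) v ∧ v ≠ 0 ∧ w ∈ BSub (q * M) ∧
      (∀ δ ∈ Γ, δ ∈ Gamma m → act δ w = w) ∧
      (y : ℍ → ℂ) = (w * fun τ => v τ / auxW haux τ ^ 2) ^ n ∧ UnitAll P y := by
  classical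
  obtain ⟨v, -, hv, hv0, -, -⟩ := ES.exists_algebraic_form hG φ
  have hv4 : IsTwist Γ ((2 * 2 : ℕ) : ℤ) (φ : Γ →* ℂˣ) v := by exact_mod_cast hv
  set u : ℍ → ℂ := fun τ => v τ / auxW haux τ ^ 2 with hu
  have hΓM : Gamma (q * M) ≤ Γ := (ES.gamma_le_of_dvd hNM).trans hG.gamma_le
  set Λ : Subgroup SL(2, ℤ) := Γ ⊓ Gamma m with hΛdef
  have hΛ : Λ ≤ lam q m := fun δ hδ => Subgroup.mem_inf.mpr
    ⟨hΓq (Subgroup.mem_inf.mp hδ).1, (Subgroup.mem_inf.mp hδ).2⟩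
  have hΛ' : Gamma (q * M) ≤ Λ := fun δ hδ =>
    Subgroup.mem_inf.mpr ⟨hΓM hδ, Gamma_M_le haux (gamma_qM_le hδ)⟩
  have hΛH : ∀ δ ∈ lamH M χ, δ ∈ Λ := fun δ hδ =>
    Subgroup.mem_inf.mpr ⟨hlam hδ, Gamma_M_le haux (lamH_le χ hδ)⟩
  have hun : u ^ n ∈ BSub (q * M) := by
    have h := ES.pow_form_mem (auxLevel_level (q := q) haux) (n := n) hΓM φ.2.1 hv4
    rwa [auxW_level haux] at h
  have huninv : ∀ δ ∈ Λ, act δ (u ^ n) = u ^ n := fun δ hδ =>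
    act_div_auxW_pow haux φ.2.1 hv4 (Subgroup.mem_inf.mp hδ).1 (Subgroup.mem_inf.mp hδ).2
  obtain ⟨τ0, hτ0⟩ := Function.ne_iff.mp hv0
  obtain ⟨c, hc0, -, hc⟩ := exists_const_mul_sepN (P := P) haux hM hun
  set C : ℍ → ℂ := (fun _ => c) * sepN q haux with hC
  have hP' := P.goodRoot hM
  have hζP : zetaC (q * M) ∈ P.ring := goodRoot_zeta
  have hN : sepN q haux ∈ BRing M P.ring := sepN_mem_BRing haux hP' hζP
  have hNinv : ∀ δ ∈ Λ, act δ (sepN q haux) = sepN q haux := fun δ hδ =>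
    act_sepN haux (Subgroup.mem_inf.mp hδ).2
  obtain ⟨d, hd0, hdP, hdc⟩ : ∃ d : ℂ, d ≠ 0 ∧ d ∈ P.ring ∧ d * c ∈ P.ring := by
    by_cases h : P.abv c ≤ 1
    · exact ⟨1, one_ne_zero, P.ring.one_mem, by rwa [one_mul]⟩
    · push Not at h
      refine ⟨c⁻¹, inv_ne_zero hc0, ?_, by rw [inv_mul_cancel₀ hc0]; exact P.ring.one_mem⟩
      rw [P.mem_ring, map_inv₀]
      exact inv_le_one_of_one_le₀ h.le
  set D : ℍ → ℂ := (fun _ => d) * C with hD
  have hconst : ∀ {x : ℂ}, x ∈ P.ring → (fun _ : ℍ => x) ∈ InvRing q M P.ring Λ := fun hx =>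
    ⟨ES.const_mem_BRing hx, fun _ _ => rfl⟩
  have hf : (D * u) ^ n ∈ InvRing q M P.ring Λ := by
    have e : (D * u) ^ n = D ^ (n - 1) * ((fun _ => d) * (C * u ^ n)) := by
      rw [← mul_assoc (fun _ => d), ← hD, ← mul_assoc, ← pow_succ,
        Nat.sub_add_cancel (NeZero.one_le (n := n)), mul_pow]
    rw [e]
    refine mul_mem (pow_mem ?_ _) (mul_mem (hconst hdP) ⟨hc, fun δ hδ => ?_⟩)
    · rw [hD, hC, ← mul_assoc, show (fun _ : ℍ => d) * (fun _ => c) = fun _ => d * c from rfl]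
      exact mul_mem (hconst hdc) ⟨(mem_LRing_of_BRing (q := q) hN).1, hNinv⟩
    · rw [hC, ES.act_mulFun, ES.act_mulFun, ES.act_const, hNinv δ hδ, huninv δ hδ]
  have hf0 : (D * u) ^ n ≠ 0 := fun h => by
    have h1 := congrFun h τ0
    simp only [Pi.pow_apply, Pi.mul_apply, Pi.zero_apply, hD, hC, hu] at h1
    exact pow_ne_zero n (mul_ne_zero (mul_ne_zero hd0 (mul_ne_zero hc0 (sepN_ne_zero haux τ0)))
      (div_ne_zero hτ0 (pow_ne_zero _ (ES.auxW_ne_zero haux τ0)))) h1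
  obtain ⟨S, hS, hSO⟩ := exists_finset_mem_InvRing haux hM hf
  obtain ⟨O, hO', hA, hζ, hsub⟩ := exists_ring hP hM hS
  obtain ⟨z₀, c', y, -, hy, hyu⟩ := exists_normalI haux hA hO' hM hζ hqm hΛ hΛ'
    (f := ⟨_, hSO O hO' hA hζ hsub⟩) (fun h => hf0 (congrArg Subtype.val h)) (NeZero.pos n)
  have hDB : D ∈ BSub (q * M) := mul_mem ((BSub (q * M)).algebraMap_mem _)
    (mul_mem ((BSub (q * M)).algebraMap_mem _) (mem_LRing_of_BRing (q := q) hN).1.1)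
  refine ⟨v, (fun _ => c') * (z₀ : ℍ → ℂ) * D, ⟨y, y.2.1, fun δ hδ => y.2.2 δ (hΛH δ hδ)⟩, hv4,
    hv0, mul_mem (mul_mem ((BSub (q * M)).algebraMap_mem _) z₀.2.1.1) hDB,
    fun δ hδ hm => ?_, ?_, fun γ => hyu γ⟩
  · have hδΛ : δ ∈ Λ := Subgroup.mem_inf.mpr ⟨hδ, hm⟩
    rw [ES.act_mulFun, ES.act_mulFun, ES.act_const, z₀.2.2 δ hδΛ, hD, hC, ES.act_mulFun,
      ES.act_mulFun, ES.act_const, ES.act_const, hNinv δ hδΛ]
  · show (y : ℍ → ℂ) = _
    rw [hy]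
    show _ * (D * u) ^ n = _
    rw [← mul_pow]
    funext τ
    simp only [hD, hu, Pi.pow_apply, Pi.mul_apply]
    ring

variable {P : CPlace q} {O : Subring ℂ} {n : ℕ} [NeZero n]

omit hq [NeZero M] in
/-- A translate by a normalising element of `Γ(m)` has the conjugate multiplier. -/
theorem IsKum.translate {φ φ' : Γ →* ℂˣ} {h : ℍ → ℂ} (hh : IsKum q M m φ h) {g : SL(2, ℤ)}
    (hg : g ∈ Gamma m) (hn : ∀ γ ∈ Γ, g * γ * g⁻¹ ∈ Γ)
    (hφ : ∀ (γ : SL(2, ℤ)) (hγ : γ ∈ Γ), φ' ⟨γ, hγ⟩ = φ ⟨g * γ * g⁻¹, hn γ hγ⟩) :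
    IsKum q M m φ' (act g h) where
  exp γ := by
    obtain ⟨s, hs⟩ := hh.exp (g * γ)
    exact ⟨s, by rwa [← ES.act_mul]⟩
  law δ hδ hm := by
    have hm' : g * δ * g⁻¹ ∈ Gamma m := mul_mem (mul_mem hg hm) (inv_mem hg)
    rw [← ES.act_mul, show g * δ = g * δ * g⁻¹ * g by group, ES.act_mul,
      hh.law _ (hn δ hδ) hm', hφ δ hδ]
    rfl

omit [NeZero n] in
/-- The orders of the `n`-th power of a Kummer function at the cusps are divisible by `n`. -/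
theorem IsKum.dvd_order_serOI {φ : Γ →* ℂˣ} {h : ℍ → ℂ} (hh : IsKum q M m φ h)
    {Λ : Subgroup SL(2, ℤ)} {f : InvRing q M O Λ} (hf : (f : ℍ → ℂ) = h ^ n) (γ : SL(2, ℤ)) :
    (n : ℤ) ∣ (serOI M O Λ q γ f).order := by
  obtain ⟨s, hs⟩ := hh.exp γ
  have e : serI M O Λ q γ f = s ^ n := by
    rw [serI_apply, hf]
    exact lexp_eq ((hs.pow n).congr_fun fun τ => by simp)
  rw [← order_liftSer O.subtype Subtype.val_injective, liftSer_serOI, e, HahnSeries.order_pow,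
    nsmul_eq_mul]
  exact dvd_mul_right _ _

end FermatAgent.BAD
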