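import Fermat.Agent.BAD.Diamond.Cusp
import Fermat.Agent.BAD.KumRoot

/-!
# The root of `τ²y · δy · (τy · δτy)^(n-1)` on the covering

The local roots assemble to a function, determined at every cusp by its residue.
-/

set_option autoImplicit false

open UpperHalfPlane CongruenceSubgroup IsLocalRing
open scoped MatrixGroups

noncomputable section

namespace FermatAgent.BAD

open FermatAgent.ES (BSub BRing SerIn lexp lexp_eq lexp_act hasLExp_lexp act zetaC AuxLevel CPlace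
  GoodRoot GoodPoint)

variable {q M m : ℕ} [hq : Fact q.Prime] [NeZero M] {O : Subring ℂ} {χ : (ZMod q)ˣ →* ℂˣ}
  {P : CPlace q}

theorem serLE_of_constI_pow_dvd (hO : O ≤ P.ring) {ϖ : O} {k : ℕ}
    {f : InvRing q M O (lamH M χ)} (h : constI ϖ ^ k ∣ f) (γ : SL(2, ℤ)) :
    P.SerLE (P.abv (ϖ : ℂ) ^ k) (serI M O (lamH M χ) q γ f) := by
  obtain ⟨w, rfl⟩ := h
  intro n
  rw [map_mul, map_pow, serI_constI, ← map_pow, HahnSeries.C_mul_eq_smul, HahnSeries.coeff_smul,
    smul_eq_mul, map_mul, map_pow]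
  exact mul_le_of_le_one_right (pow_nonneg (P.abv.nonneg _) _) (hO (serIn_serI γ w n))

theorem serLT_of_constI_dvd (hO' : P.IsCDVR O) {ϖ : O} (hϖ : Irreducible ϖ)
    {f : InvRing q M O (lamH M χ)} (h : constI ϖ ∣ f) (γ : SL(2, ℤ)) :
    P.SerLT (serI M O (lamH M χ) q γ f) := fun n => by
  have h1 := serLE_of_constI_pow_dvd hO'.le (k := 1) (by simpa using h) γ n
  rw [pow_one] at h1
  exact h1.trans_lt (abv_unif hO' hϖ)

theorem serI_eq_of_act {δ : SL(2, ℤ)} {f : InvRing q M O (lamH M χ)}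
    (h : act δ (f : ℍ → ℂ) = f) :
    serI M O (lamH M χ) q δ f = serI M O (lamH M χ) q 1 f := by
  rw [serI_apply, serI_apply]
  conv_rhs => rw [← h, lexp_act, mul_one]

/-- A natural number prime to `q` is invertible in the covering ring. -/
theorem exists_natCast_mul_eq_one (hO' : P.IsCDVR O) {n : ℕ} (hn : n.Coprime q) :
    ∃ v : InvRing q M O (lamH M χ), (n : InvRing q M O (lamH M χ)) * v = 1 := by
  obtain ⟨u, hu⟩ := isUnit_natCast_O hO' hn
  refine ⟨constI ((u⁻¹ : Oˣ) : O), ?_⟩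
  rw [← map_natCast (constI (q := q) (M := M) (O := O) (Λ := lamH M χ)) n, ← map_mul, ← hu,
    u.mul_inv, map_one]

namespace CoverGen

variable {hM : M.Coprime q} (H : CoverGen M O χ hM)
variable (haux : AuxLevel M m) (hA : GoodRoot M O (zetaC M)) (hO' : P.IsCDVR O)
  (hζ : zetaC (q * M) ∈ O) (hqm : q ≠ m) (D : InertData M P O)

theorem inclA_nrmI_twB (y : InvRing q M O (lamH M χ)) :
    inclA (χ := χ) (nrmI hM (twB haux D y (hM := hM))) =
      inclA (D.conjL haux (nrmI hM y) * D.conjL haux (nrmI hM y)) := by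
  obtain ⟨k, -, hk⟩ := exists_charH_eq_genH_pow χ hM (D.deltaA hM)
  have hdia : ∀ b : InvRing q M O (lamH M χ), D.diaA χ hM b = galI χ hM k b := fun b => Subtype.ext
    (act_eq_act_of_charH χ b.2.2 (D.deltaA hM).2 (genH hM ^ k).2
      (by rw [Subtype.coe_eta, Subtype.coe_eta]; exact hk))
  have hT : ∏ i ∈ Finset.range (ordH χ), galI χ hM i (D.conjI χ haux y) =
      inclA (D.conjL haux (nrmI hM y)) := by
    simp only [galI_conjI haux D]
    rw [← map_prod, ← inclA_nrmI hM, inclA, D.conjI_ofLRing χ haux]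
  rw [inclA_nrmI, map_mul]
  simp only [twB, map_mul, Finset.prod_mul_distrib]
  congr 1
  rw [Finset.prod_congr rfl fun i _ =>
    show galI χ hM i (D.diaA χ hM (D.conjI χ haux y)) =
      galI χ hM k (galI χ hM i (D.conjI χ haux y)) by
      rw [hdia, galI_galI, galI_galI, add_comm], ← map_prod, hT, galI_inclA]

include hO' in
/-- The scaling factor `E F²` is a unit at every cusp. -/
theorem unitAll_ordH_mul_base_sq (hH : UnitAll P H.h) :
    UnitAll P (constI (ordH χ : O) * inclA (H.base * H.base) : InvRing q M O (lamH M χ)) := by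
  refine UnitAll.mul hO'.le (fun γ => ⟨0, ?_⟩) ?_
  · rw [serI_constI, HahnSeries.C_apply, HahnSeries.coeff_single_same,
      show ((ordH χ : O) : ℂ) = (ordH χ : ℂ) by simp]
    exact P.abv_natCast_eq_one (ordH_coprime χ)
  · rw [map_mul, H.inclA_base]
    exact UnitAll.mul hO'.le (UnitAll.pow hO'.le hH _) (UnitAll.pow hO'.le hH _)

include haux hA hO' hζ hqm in
/-- **The root and its uniqueness.** -/
theorem exists_root [Finite (haveI := hO'.dvr; ResidueField O)] (hx : RootExt D (ordH χ))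
    (hH : UnitAll P H.h) (hdF : Divisible q M O (ordH χ) (H.base : ℍ → ℂ)) {n : ℕ} [NeZero n]
    (hn : n.Coprime q) {y : InvRing q M O (lamH M χ)} (hy : UnitAll P y) (hdy : DivisibleI n y)
    (hda : DivisibleI n (twA haux D y (hM := hM))) (hdb : DivisibleI n (twB haux D y (hM := hM)))
    (hoa : ∀ γ, (n : ℤ) ∣ (serOI M O (lamH M χ) q γ (twA haux D y (hM := hM))).order)
    (hob : ∀ γ, (n : ℤ) ∣ (serOI M O (lamH M χ) q γ (twB haux D y (hM := hM))).order)
    (htv : ∀ 𝔪 : Ideal (LRing q M O), 𝔪.IsMaximal → nrmI hM y ∈ 𝔪 →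
      (pInf hO'.le ≤ 𝔪 →
        ∃ (τ0 : ℍ) (hg : GoodPoint haux O τ0), raiseL M (tPar haux hA hg) ∈ 𝔪) ∧
      (pZero hO'.le ≤ 𝔪 → ∃ (τ0 : ℍ) (hg : GoodPoint haux O τ0),
        (atkinEquiv hM hζ).symm (raiseL M (tPar haux hA hg)) ∈ 𝔪)) :
    ∃ Z ∈ BSub (q * M), ∃ f : InvRing q M O (lamH M χ), UnitAll P f ∧
      Z ^ n = (f : ℍ → ℂ) ^ n * ((twA haux D y (hM := hM) : ℍ → ℂ) *
        (twB haux D y (hM := hM) : ℍ → ℂ) ^ (n - 1)) ∧
      ∀ δ, act δ (twA haux D y (hM := hM) : ℍ → ℂ) = twA haux D y (hM := hM) →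
        act δ (twB haux D y (hM := hM) : ℍ → ℂ) = twB haux D y (hM := hM) →
          act δ Z * (f : ℍ → ℂ) = Z * act δ (f : ℍ → ℂ) := by
  have := hO'.dvr
  have : Finite (ResidueField O) := ‹_›
  have : IsNoetherianRing (LRing q M O) := isNoetherianRing_LRing haux hA hζ
  let := algB (q := q) M O χ
  have := H.finite
  obtain ⟨ϖ, hϖ⟩ := IsDiscreteValuationRing.exists_irreducible O
  set a := twA haux D y (hM := hM) with ha_def
  set b := twB haux D y (hM := hM) with hb_def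
  set f : InvRing q M O (lamH M χ) :=
    constI (ordH χ : O) * inclA (H.base * H.base) with hf_def
  have hab : constI ϖ ∣ a - b := D.unif_dvd_twist_sub χ haux hM hO'.le hO' hϖ y
  have hbu : UnitAll P b := unitAll_twB haux hO' D hy
  have hfu : UnitAll P f := H.unitAll_ordH_mul_base_sq hO' hH
  have hinP : ∀ (x : InvRing q M O (lamH M χ)) (γ : SL(2, ℤ)),
      SerIn P.ring (serI M O (lamH M χ) q γ x) := fun x γ i => hO'.le (serIn_serI γ x i)
  choose L hLin hLpow hLb using fun γ =>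
    CoverGen.exists_cusp_root (hM := hM) haux hA hO' hn hϖ hab hda hdb γ (hbu γ) (hoa γ) (hob γ)
  have hLP : ∀ γ, SerIn P.ring (L γ) := fun γ i => hO'.le (hLin γ i)
  have hLu : ∀ γ, P.UnitCoeff (L γ) := fun γ =>
    CPlace.UnitCoeff.of_serLE_sub (hbu γ) (neg_sub (L γ) _ ▸ CPlace.SerLT.neg (hLb γ)) (hLP γ)
  set K : SL(2, ℤ) → LaurentSeries ℂ := fun γ => serI M O (lamH M χ) q γ f * L γ with hK
  have hKP : ∀ γ, SerIn P.ring (K γ) := fun γ => (hinP f γ).mul (hLP γ)
  have hKu : ∀ γ, P.UnitCoeff (K γ) := fun γ =>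
    CPlace.UnitCoeff.mul (hinP f γ) (hLP γ) (hfu γ) (hLu γ)
  have hKpow : ∀ γ, K γ ^ n = serI M O (lamH M χ) q γ (f ^ n * (a * b ^ (n - 1))) := fun γ => by
    simp only [hK, mul_pow, hLpow, map_mul, map_pow]
  obtain ⟨v, hv⟩ := exists_natCast_mul_eq_one (M := M) (χ := χ) hO' hn
  have halg : algebraMap (LRing q M O) (InvRing q M O (lamH M χ)) (constL ϖ) = constI ϖ :=
    ofLRing_constL (lamH_le χ) _
  obtain ⟨Z, hZ, hZK⟩ := exists_mem_of_approx_level haux hM K fun c hc hc1 => by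
    obtain ⟨k, hk⟩ := exists_pow_lt_of_lt_one hc (abv_unif hO' hϖ)
    obtain ⟨h, hh1, hh2⟩ := exists_approx_of_cover (A := LRing q M O) (ϖ := constL ϖ)
      (Nrm := nrmI hM b) (f := f) (y := a * b ^ (n - 1)) (G := b) (v := v) (NeZero.pos n) hv
      (fun x hx => by rw [halg] at hx; exact constI_unif_regular hϖ hx)
      (by rw [halg]; exact regMod_of_unitAll hO'.le hO' hϖ hbu)
      (by
        rw [halg, show a * b ^ (n - 1) - b ^ n = (a - b) * b ^ (n - 1) by
          rw [sub_mul, ← pow_succ', Nat.sub_add_cancel (NeZero.one_le (n := n))]]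
        exact hab.mul_right _)
      (dvd_nrmI hM b) (fun 𝔪 h𝔪 hϖm hbm => by
        have := h𝔪
        refine H.coverRoot haux hA hO' hζ hqm D hϖ ‹_› hϖm (htv 𝔪 h𝔪 ?_) hx hH hdF hn hy hdy
          hda hdb
        have e : nrmI hM b = D.conjL haux (nrmI hM y) * D.conjL haux (nrmI hM y) :=
          inclA_injective (χ := χ) (inclA_nrmI_twB haux D y)
        rw [e] at hbm
        have hT : D.conjL haux (nrmI hM y) ∈ 𝔪 := (h𝔪.isPrime.mem_or_mem hbm).elim id id
        obtain ⟨w, hw⟩ := D.unif_dvd_conjL_sub haux hM hO'.le hO' hϖ (nrmI hM y)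
        have := 𝔪.sub_mem hT (𝔪.mul_mem_right w hϖm)
        rwa [← hw, sub_sub_cancel] at this) k
    rw [halg] at hh1 hh2
    refine ⟨h, ES.BRing_mono hO'.le h.2.1, fun γ => ?_⟩
    refine CPlace.SerLE.of_pow_sub_pow hc.le hn (hinP h γ) (hKP γ) ?_ (hKu γ) ?_
    · rw [show lexp (q * M) γ (h : ℍ → ℂ) - K γ =
        serI M O (lamH M χ) q γ (h - f * b) -
          (L γ - serI M O (lamH M χ) q γ b) * serI M O (lamH M χ) q γ f by
        rw [map_sub, map_mul, ← serI_apply, hK]; ring]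
      exact (serLT_of_constI_dvd hO' hϖ hh1 γ).sub (CPlace.SerLT.mul_serIn (hLb γ) (hinP f γ))
    · rw [← serI_apply, ← map_pow, hKpow, ← map_sub]
      refine (serLE_of_constI_pow_dvd hO'.le hh2 γ).mono ?_
      rw [pow_succ]
      exact (mul_le_of_le_one_right (pow_nonneg (P.abv.nonneg _) _) (hO'.le ϖ.2)).trans hk.le
  refine ⟨Z, hZ, f, hfu, ?_, fun δ hδa hδb => ?_⟩
  · refine ES.lexp_injective (pow_mem hZ n) (mul_mem (pow_mem f.2.1.1 n)
      (mul_mem a.2.1.1 (pow_mem b.2.1.1 _))) (γ := 1) ?_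
    rw [show lexp (q * M) 1 (Z ^ n) = lexp (q * M) 1 Z ^ n from
      (ES.expHom (M := q * M) 1).map_pow ⟨Z, hZ⟩ n, hZK, hKpow]
    rfl
  · set s : SL(2, ℤ) → InvRing q M O (lamH M χ) → LaurentSeries ℂ :=
      fun γ x => serI M O (lamH M χ) q γ x
    have hmain : K δ * s 1 f = K 1 * s δ f := by
      refine eq_of_forall_serLE (P := P) fun c hc _ => ?_
      refine CPlace.SerLE.of_pow_sub_pow hc.le hn ((hKP δ).mul (hinP f 1))
        ((hKP 1).mul (hinP f δ)) ?_
        (CPlace.UnitCoeff.mul (hKP 1) (hinP f δ) (hKu 1) (hfu δ)) ?_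
      · rw [show K δ * s 1 f - K 1 * s δ f =
          (L δ - s δ b) * (s δ f * s 1 f) - (L 1 - s 1 b) * (s 1 f * s δ f) by
            simp only [hK, s]; rw [serI_eq_of_act hδb]; ring]
        exact (CPlace.SerLT.mul_serIn (hLb δ) ((hinP f δ).mul (hinP f 1))).sub
          (CPlace.SerLT.mul_serIn (hLb 1) ((hinP f 1).mul (hinP f δ)))
      · rw [mul_pow (K δ), mul_pow (K 1), hKpow, hKpow]
        simp only [s, map_mul, map_pow, serI_eq_of_act hδa, serI_eq_of_act hδb]
        rw [show ∀ u v w : LaurentSeries ℂ, u ^ n * w * v ^ n - v ^ n * w * u ^ n = 0 from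
          fun u v w => by ring]
        exact CPlace.SerLE.zero hc.le
    have hfB : act δ (f : ℍ → ℂ) ∈ BSub (q * M) := ES.act_mem_BSub f.2.1.1 δ
    have hZB : act δ Z ∈ BSub (q * M) := ES.act_mem_BSub hZ δ
    refine ES.lexp_injective (mul_mem hZB f.2.1.1) (mul_mem hZ hfB) (γ := 1) ?_
    have e1 : lexp (q * M) 1 (act δ Z * (f : ℍ → ℂ)) =
        lexp (q * M) 1 (act δ Z) * lexp (q * M) 1 (f : ℍ → ℂ) :=
      lexp_eq ((hasLExp_lexp hZB 1).mul (hasLExp_lexp f.2.1.1 1))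
    have e2 : lexp (q * M) 1 (Z * act δ (f : ℍ → ℂ)) =
        lexp (q * M) 1 Z * lexp (q * M) 1 (act δ (f : ℍ → ℂ)) :=
      lexp_eq ((hasLExp_lexp hZ 1).mul (hasLExp_lexp hfB 1))
    rw [e1, e2, lexp_act, lexp_act, mul_one, hZK, hZK]
    exact hmain

end CoverGen

end FermatAgent.BAD
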