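import Fermat.Agent.BAD.Diamond.Kum
import Fermat.Agent.BAD.Diamond.Root
import Fermat.Agent.BAD.KumRoot
import Fermat.Agent.BAD.TValue
import Fermat.Agent.BAD.GaloisAut

/-!
# The quadratic relation of inertia on parabolic characters with a nebentypus at `q`

For an inertia automorphism `τ` with diamond `δ`, and the Kummer function `y` of a character `φ`,
`twA y = τ²y · δy` and `twB y = τy · δτy` are the `n`-th powers of the Kummer functions of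
`τ²φ · δφ` and `τφ · δτφ`. On the semistable model of the covering `twA y · (twB y) ^ (n - 1)` is
an `n`-th power of a function (`exists_root_stable`), so the quotient of the two characters kills
`Γ ∩ Γ(m)` (`eq_of_kum_root`), hence is trivial (`DetectsParChar`).
-/

set_option autoImplicit false

open UpperHalfPlane CongruenceSubgroup IsLocalRing
open scoped MatrixGroups ModularForm Manifold

noncomputable section

namespace FermatAgent.BAD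

open FermatAgent.ES (BSub BRing SerIn HasLExp lexp lexp_eq lexp_act act zetaC AuxLevel CPlace
  GoodRoot IsTwist IsParChar parGroup GoodLevel auxW conjChar embC vanishOrd)

variable {q M m : ℕ} [hq : Fact q.Prime] [NeZero M]

/-- A parabolic character of `Γ` trivial on `Γ ∩ Γ(m)` is trivial. -/
def DetectsParChar (Γ : Subgroup SL(2, ℤ)) (m : ℕ) : Prop :=
  ∀ X : Γ →* ℂˣ, IsParChar Γ X →
    (∀ (δ : SL(2, ℤ)) (hδ : δ ∈ Γ), δ ∈ Gamma m → X ⟨δ, hδ⟩ = 1) → X = 1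

/-- The stable coefficient rings grow with their generators. -/
theorem stableRing_mono (Φ : ℂ ≃+* PadicAlgCl q) {S T : Set ℂ} (h : S ⊆ T) :
    stableRing Φ S ≤ stableRing Φ T := fun _ hz =>
  ⟨IntermediateField.adjoin.mono ℚ_[q] _ _ (Set.image_mono (Set.image_mono
    (Set.biUnion_subset_biUnion_left h))) hz.1, hz.2⟩

theorem conjI_injective {P : CPlace q} {O : Subring ℂ} (D : InertData M P O)
    (χ : (ZMod q)ˣ →* ℂˣ) (haux : AuxLevel M m) :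
    Function.Injective (D.conjI χ haux) := fun f g h => serI_injective 1 (HahnSeries.ext
  (funext fun i => (D.σ : ℂ →+* ℂ).injective (by
    have e := congrArg (fun s : LaurentSeries ℂ => s.coeff i)
      (congrArg (serI M O (lamH M χ) q 1) h)
    rwa [D.serI_conjI χ haux f (ES.GalRel.one _), D.serI_conjI χ haux g (ES.GalRel.one _),
      ES.coeff_mapSer, ES.coeff_mapSer] at e)))

theorem coe_nrmI {O : Subring ℂ} {χ : (ZMod q)ˣ →* ℂˣ} (hM : M.Coprime q)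
    (b : InvRing q M O (lamH M χ)) : (nrmI hM b : ℍ → ℂ) =
      ∏ i ∈ Finset.range (ordH χ), act ((genH hM ^ i : lam q M) : SL(2, ℤ)) (b : ℍ → ℂ) := by
  have h := congrArg (InvRing q M O (lamH M χ)).subtype (inclA_nrmI hM b)
  rw [map_prod] at h
  exact h

theorem coe_base {O : Subring ℂ} {χ : (ZMod q)ˣ →* ℂˣ} {hM : M.Coprime q}
    (H : CoverGen M O χ hM) : (H.base : ℍ → ℂ) = (H.h : ℍ → ℂ) ^ ordH χ :=
  congrArg Subtype.val H.inclA_base

/-- A function with unit expansions is not zero. -/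
private theorem ne_zero_of_unitAll {P : CPlace q} {O : Subring ℂ} {Λ : Subgroup SL(2, ℤ)}
    {y : InvRing q M O Λ} (hy : UnitAll P y) : y ≠ 0 := fun h0 => by
  obtain ⟨i, hi⟩ := hy 1
  rw [h0, map_zero] at hi
  simp at hi

/-- The two twists of a nonzero function are nonzero. -/
private theorem twA_twB_ne_zero {P : CPlace q} (D : InertData M P P.ring) (χ : (ZMod q)ˣ →* ℂˣ)
    (haux : AuxLevel M m) (hM : M.Coprime q) {y : InvRing q M P.ring (lamH M χ)} (hy : y ≠ 0) :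
    CoverGen.twA haux D y (hM := hM) ≠ 0 ∧ CoverGen.twB haux D y (hM := hM) ≠ 0 := by
  have hT : ∀ f, f ≠ 0 → D.conjI χ haux f ≠ 0 := fun f hf h0 =>
    hf (conjI_injective D χ haux (h0.trans (map_zero _).symm))
  have hd : ∀ f, f ≠ 0 → D.diaA χ hM f ≠ 0 := fun f hf h0 => hf (by
    refine serI_injective ((D.deltaA hM : SL(2, ℤ)) * 1) ?_
    rw [← serI_actI _ (conj_mem_lamH χ (D.deltaA hM).2) f 1, map_zero]
    show serI M P.ring (lamH M χ) q 1 (D.diaA χ hM f) = 0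
    rw [h0, map_zero])
  exact ⟨mul_ne_zero (hT _ (hT _ hy)) (hd _ hy), mul_ne_zero (hT _ hy) (hd _ (hT _ hy))⟩

/-- The generating function gives a covering generator over the whole valuation ring. -/
private theorem exists_coverGen_ring {P : CPlace q} {χ : (ZMod q)ˣ →* ℂˣ} (hM : M.Coprime q)
    {g : InvRing q M P.ring (lamH M χ)} (hgu : UnitAll P g) (hglaw : ∀ δ : lam q M,
      act (δ : SL(2, ℤ)) (g : ℍ → ℂ) = (fun _ => (charH M χ δ : ℂ)) * (g : ℍ → ℂ)) :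
    ∃ H : CoverGen M P.ring χ hM, (H.h : ℍ → ℂ) = g := by
  have hu : P.abv ((ordH χ : ℂ)⁻¹) ≤ 1 := by
    rw [map_inv₀, P.abv_natCast_eq_one (ordH_coprime χ), inv_one]
  refine ⟨⟨g, ⟨_, zetaH_mem_ring χ⟩, ⟨_, hu⟩, rfl,
    inv_mul_cancel₀ (Nat.cast_ne_zero.mpr (NeZero.ne (ordH χ))), Subtype.ext ?_,
    ne_zero_of_unitAll hgu⟩, rfl⟩
  show act ((genH hM ^ 1 : lam q M) : SL(2, ℤ)) (g : ℍ → ℂ) = (fun _ => zetaH χ) * (g : ℍ → ℂ)
  rw [hglaw, coe_charH_genH_pow, pow_one]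

/-- The zeros of the base function have multiplicities divisible by the degree of the covering. -/
private theorem ordH_dvd_vanishOrd_base {O : Subring ℂ} {χ : (ZMod q)ˣ →* ℂˣ} {hM : M.Coprime q}
    (H : CoverGen M O χ hM) (τ : ℍ) (j : ℕ) (hj : vanishOrd (H.base : ℍ → ℂ) τ = j) :
    ordH χ ∣ j := by
  rw [coe_base, ES.vanishOrd_pow (InvRing.mdiff H.h)] at hj
  have htop : vanishOrd (H.h : ℍ → ℂ) τ ≠ ⊤ := fun htop => by
    rw [htop, nsmul_eq_mul, ENat.mul_top (by exact_mod_cast NeZero.ne (ordH χ))] at hj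
    exact ENat.top_ne_natCast j hj
  obtain ⟨i, hi⟩ := ENat.ne_top_iff_exists.mp htop
  rw [← hi, nsmul_eq_mul] at hj
  exact ⟨i, by exact_mod_cast hj.symm⟩

variable (Φ : ℂ ≃+* PadicAlgCl q) {s : PadicAlgCl q ≃ₐ[ℚ_[q]] PadicAlgCl q}

omit [NeZero M] in
/-- Roots of elements of a stable coefficient ring lie in a larger one. -/
private theorem rootExt_stableRing (T : Finset ℂ)
    (D : InertData M (CPlace.ofEquiv Φ) (stableRing Φ (T : Set ℂ))) (hDσ : D.σ = conjC Φ s)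
    (k : ℕ) [NeZero k] : RootExt D k := fun c => by
  obtain ⟨θ, hθ⟩ := IsAlgClosed.exists_pow_nat_eq (c : ℂ) (NeZero.pos k)
  have hθP : (CPlace.ofEquiv Φ).abv θ ≤ 1 := (pow_le_one_iff_of_nonneg
    ((CPlace.ofEquiv Φ).abv.nonneg _) (NeZero.ne k)).mp
    (by rw [← map_pow, hθ]; exact (isCDVR_stableRing Φ T.finite_toSet).le c.2)
  refine ⟨stableRing Φ (insert θ (T : Set ℂ)), stableRing_mono Φ (Set.subset_insert _ _),
    isCDVR_stableRing Φ (T.finite_toSet.insert θ), fun z hz => ?_,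
    finite_residueField_stableRing Φ (T.finite_toSet.insert θ),
    ⟨θ, mem_stableRing Φ (Set.mem_insert _ _) hθP⟩, hθ⟩
  show D.σ z ∈ _
  rw [hDσ]; exact conjC_mem_stableRing Φ s hz

variable {Γ : Subgroup SL(2, ℤ)}

/-- The root criterion over a stable coefficient ring large enough for all the witnesses. -/
private theorem exists_root_stable (haux : AuxLevel M m) (hM : M.Coprime q) (hqm : q ≠ m)
    (χ : (ZMod q)ˣ →* ℂˣ) (D : InertData M (CPlace.ofEquiv Φ) (CPlace.ofEquiv Φ).ring)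
    (hDσ : D.σ = conjC Φ s) {n : ℕ} [NeZero n] (hn : n.Coprime q)
    {y : InvRing q M (CPlace.ofEquiv Φ).ring (lamH M χ)} (hyu : UnitAll (CPlace.ofEquiv Φ) y)
    {ψ ψA ψB : Γ →* ℂˣ} {h hA hB : ℍ → ℂ} (hk : IsKum q M m ψ h) (hy : (y : ℍ → ℂ) = h ^ n)
    (hkA : IsKum q M m ψA hA) (ha : (CoverGen.twA haux D y (hM := hM) : ℍ → ℂ) = hA ^ n)
    (hkB : IsKum q M m ψB hB) (hb : (CoverGen.twB haux D y (hM := hM) : ℍ → ℂ) = hB ^ n) :
    ∃ Z ∈ BSub (q * M), ∃ f ∈ BSub (q * M), f ≠ 0 ∧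
      Z ^ n = f ^ n * ((hA ^ n) * (hB ^ n) ^ (n - 1)) ∧
      ∀ δ, act δ (hA ^ n) = hA ^ n → act δ (hB ^ n) = hB ^ n → act δ Z * f = Z * act δ f := by
  classical
  have hyne := ne_zero_of_unitAll hyu
  obtain ⟨hane, hbne⟩ := twA_twB_ne_zero D χ haux hM hyne
  have hfun : ∀ {f : InvRing q M (CPlace.ofEquiv Φ).ring (lamH M χ)}, f ≠ 0 → (f : ℍ → ℂ) ≠ 0 :=
    fun hf h0 => hf (Subtype.ext h0)
  obtain ⟨g, hgu, hglaw⟩ := exists_genFn haux hM hqm χ (ES.hasCDVRs_ofEquiv Φ)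
  obtain ⟨H0, hH0⟩ := exists_coverGen_ring hM hgu hglaw
  have hnI : UnitInf (CPlace.ofEquiv Φ) (nrmI hM y) := unitAt_nrmI le_rfl hM hyu _
  have hnZ : UnitZero (CPlace.ofEquiv Φ) (nrmI hM y) := unitAt_nrmI le_rfl hM hyu _
  obtain ⟨S1, hS1, hS1O⟩ := exists_finset_mem_InvRing haux hM y.2
  obtain ⟨S2, hS2, hS2O⟩ := exists_finset_mem_InvRing haux hM g.2
  obtain ⟨S3, hS3, hS3O⟩ := exists_finset_tValues haux hM hqm hnI hnZ
  obtain ⟨S4, hS4, hS4O⟩ := exists_finset_divisible (P := CPlace.ofEquiv Φ) haux hM H0.base.2.2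
    (fun h0 => H0.base_ne (Subtype.ext h0)) (n := ordH χ) (ordH_dvd_vanishOrd_base H0)
  obtain ⟨S5, hS5, hS5O⟩ := exists_finset_divisibleI (P := CPlace.ofEquiv Φ) (χ := χ) haux hM
    (y := (y : ℍ → ℂ)) ⟨y.2.1.1, y.2.2⟩ (hfun hyne) (n := n)
    (fun τ j hj => dvd_vanishOrd_pow hk.mdiff τ j (by rwa [hy] at hj))
  obtain ⟨S6, hS6, hS6O⟩ := exists_finset_divisibleI (P := CPlace.ofEquiv Φ) (χ := χ) haux hM
    ⟨(CoverGen.twA haux D y).2.1.1, (CoverGen.twA haux D y).2.2⟩ (hfun hane) (n := n)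
    (fun τ j hj => dvd_vanishOrd_pow hkA.mdiff τ j (by rwa [ha] at hj))
  obtain ⟨S7, hS7, hS7O⟩ := exists_finset_divisibleI (P := CPlace.ofEquiv Φ) (χ := χ) haux hM
    ⟨(CoverGen.twB haux D y).2.1.1, (CoverGen.twB haux D y).2.2⟩ (hfun hbne) (n := n)
    (fun τ j hj => dvd_vanishOrd_pow hkB.mdiff τ j (by rwa [hb] at hj))
  -- the coefficient ring
  set T0 : Finset ℂ := insert (zetaC (q * M)) (insert (zetaH χ)
    (S1 ∪ S2 ∪ S3 ∪ S4 ∪ S5 ∪ S6 ∪ S7))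
  set O := stableRing Φ (T0 : Set ℂ)
  have hO' : (CPlace.ofEquiv Φ).IsCDVR O := isCDVR_stableRing Φ T0.finite_toSet
  have hTO : (T0 : Set ℂ) ⊆ O := fun x hx => mem_stableRing Φ hx (by
    simp only [T0, Finset.coe_insert, Finset.coe_union, Set.mem_insert_iff, Set.mem_union] at hx
    rcases hx with rfl | rfl | (((((hx | hx) | hx) | hx) | hx) | hx) | hx
    exacts [goodRoot_zeta, zetaH_mem_ring χ, hS1 hx, hS2 hx, hS3 hx, hS4 hx, hS5 hx, hS6 hx,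
      hS7 hx])
  simp only [T0, Finset.coe_insert, Finset.coe_union, Set.insert_subset_iff,
    Set.union_subset_iff] at hTO
  obtain ⟨hζ, hzH, ⟨⟨⟨⟨⟨⟨h1, h2⟩, h3⟩, h4⟩, h5⟩, h6⟩, h7⟩⟩ := hTO
  have hA' : GoodRoot M O (zetaC M) := goodRoot_O hM hO' hζ
  let DO : InertData M (CPlace.ofEquiv Φ) O :=
    ⟨⟨D.σ, D.a, fun z hz => by rw [hDσ]; exact conjC_mem_stableRing Φ s hz,
      D.unit, D.zeta⟩, D.small⟩
  set yO : InvRing q M O (lamH M χ) := ⟨_, hS1O O hO' hA' hζ h1⟩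
  obtain ⟨H, hHh, hHu⟩ := exists_coverGen hM hO' hgu hglaw (hS2O O hO' hA' hζ h2) hzH
  have hFO : (H.base : ℍ → ℂ) = H0.base := by rw [coe_base, coe_base, hHh, hH0]
  have := hO'.dvr
  have : Finite (ResidueField O) := finite_residueField_stableRing Φ T0.finite_toSet
  obtain ⟨Z, hZ, f, hfu, hZn, hZf⟩ := H.exists_root haux hA' hO' hζ hqm DO (y := yO)
    (rootExt_stableRing Φ T0 DO hDσ _) hHu (by rw [hFO]; exact hS4O O hO' hA' hζ h4) hn
    (fun γ => hyu γ) (hS5O O hO' hA' hζ h5 (hS1O O hO' hA' hζ h1))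
    (hS6O O hO' hA' hζ h6 (CoverGen.twA haux DO yO (hM := hM)).2)
    (hS7O O hO' hA' hζ h7 (CoverGen.twB haux DO yO (hM := hM)).2)
    (fun γ => hkA.dvd_order_serOI (f := CoverGen.twA haux DO yO (hM := hM)) ha γ)
    (fun γ => hkB.dvd_order_serOI (f := CoverGen.twB haux DO yO (hM := hM)) hb γ)
    (fun 𝔪 h𝔪 hy𝔪 => by
      have e : (nrmI hM y : ℍ → ℂ) = nrmI hM yO := by rw [coe_nrmI, coe_nrmI]
      have hmemO : (nrmI hM y : ℍ → ℂ) ∈ LRing q M O := e ▸ (nrmI hM yO).2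
      exact hS3O O hO' hA' hζ h3 hmemO 𝔪 h𝔪
        (by rwa [show (⟨_, hmemO⟩ : LRing q M O) = nrmI hM yO from Subtype.ext e]))
  rw [← ha, ← hb]
  exact ⟨Z, hZ, f, f.2.1.1, fun h0 => ne_zero_of_unitAll hfu (Subtype.ext h0), hZn, hZf⟩

/-- A product of Kummer functions with a root invariant up to scalars has trivial character. -/
private theorem eq_of_kum_root
    (hgen : DetectsParChar Γ m)
    {n : ℕ} [NeZero n] {A B : parGroup Γ n} {hA hB : ℍ → ℂ}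
    (hkA : IsKum q M m (A : Γ →* ℂˣ) hA) (hkB : IsKum q M m (B : Γ →* ℂˣ) hB)
    (hh0 : hA * hB ^ (n - 1) ≠ 0) {Z f : ℍ → ℂ} (hZ : Z ∈ BSub (q * M)) (hf : f ∈ BSub (q * M))
    (hf0 : f ≠ 0) (hZn : Z ^ n = f ^ n * ((hA ^ n) * (hB ^ n) ^ (n - 1)))
    (hZf : ∀ δ, act δ (hA ^ n) = hA ^ n → act δ (hB ^ n) = hB ^ n →
      act δ Z * f = Z * act δ f) :
    A = B := by
  set hh := hA * hB ^ (n - 1)
  set X := A * B ^ (n - 1) with hX
  have hkk : IsKum q M m (X : Γ →* ℂˣ) hh := hkA.mul (hkB.pow (n - 1))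
  have hfd : MDiff f := ES.mdifferentiable_of_mem hf
  have hfh0 : f * hh ≠ 0 := ES.mul_ne_zero_of_mdiff hkk.mdiff hfd hf0 hh0
  have hpow : (f * hh) ^ n = Z ^ n := by
    rw [hZn, mul_pow, mul_pow, ← pow_mul, ← pow_mul, mul_comm (n - 1) n]
  have hZ0 : Z ≠ 0 := fun h0 => hfh0 (by
    funext τ
    have h3 := congrFun hpow τ
    rw [h0] at h3
    simp only [Pi.pow_apply, Pi.zero_apply, zero_pow (NeZero.ne n)] at h3
    exact (pow_eq_zero_iff (NeZero.ne n)).mp h3)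
  obtain ⟨c, -, hc⟩ := ES.exists_eq_const_mul_of_pow_eq (hfd.mul hkk.mdiff)
    (ES.mdifferentiable_of_mem hZ) (NeZero.pos n) hZ0 hpow
  have hone : (X : Γ →* ℂˣ) = 1 := hgen _ X.2.2 fun δ hδ hm => by
    have hZδ := hZf δ (hkA.kumLaw.act_pow A.2.1 hδ hm) (hkB.kumLaw.act_pow B.2.1 hδ hm)
    have hfδB : act δ f ∈ BSub (q * M) := ES.act_mem_BSub hf δ
    have hfδ0 : act δ f ≠ 0 := fun h0 => hf0 (by
      rw [← ES.act_one f, ← mul_inv_cancel δ, ES.act_mul, h0]; rfl)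
    obtain ⟨τ, hτ⟩ := Function.ne_iff.mp
      (ES.mul_ne_zero_of_mdiff (ES.mdifferentiable_of_mem hfδB) (hfd.mul hkk.mdiff) hfh0 hfδ0)
    refine Units.ext (mul_right_cancel₀ hτ ?_)
    have h3 := congrFun (hkk.law δ hδ hm) τ
    have h4 := congrFun hZδ τ
    have h5 := hc (δ • τ)
    have h6 := hc τ
    simp only [Pi.mul_apply, ES.act_apply] at h3 h4 h5 h6 ⊢
    rw [h3] at h5
    rw [Units.val_one]
    linear_combination f τ * h5 + (c : ℂ) * h4 - f (δ • τ) * h6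
  have hB' : B ^ n = 1 := Subtype.ext (by
    rw [SubgroupClass.coe_pow, OneMemClass.coe_one]; exact B.2.1)
  calc A = A * (B ^ (n - 1) * B) := by
        rw [← pow_succ, Nat.sub_add_cancel (NeZero.one_le (n := n)), hB', mul_one]
    _ = B := by rw [← mul_assoc, ← hX, show X = 1 from Subtype.ext hone, one_mul]

variable {N : ℕ} [NeZero N]

/-- **`τ²φ · δφ = τφ · δτφ`**, `δ` the diamond of the cyclotomic value of `τ`. -/
theorem conjChar_quadratic (haux : AuxLevel M m) (hM : M.Coprime q) (hqm : q ≠ m)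
    (χ : (ZMod q)ˣ →* ℂˣ) (hG : GoodLevel N Γ) (hlam : lamH M χ ≤ Γ) (hΓq : Γ ≤ Gamma0 q)
    (hNM : N ∣ q * M) {r : ℕ} (hr : r ≠ 0) (h12 : 12 * N = r * (q * M))
    (hgen : DetectsParChar Γ m)
    (Φ : ℂ ≃+* PadicAlgCl q) {s : PadicAlgCl q ≃ₐ[ℚ_[q]] PadicAlgCl q}
    (D : InertData M (CPlace.ofEquiv Φ) (CPlace.ofEquiv Φ).ring) (hDσ : D.σ = conjC Φ s)
    {n : ℕ} [NeZero n] (hn : n.Coprime q)
    (hnorm : ∀ γ ∈ Γ, (D.deltaA hM : SL(2, ℤ)) * γ * (D.deltaA hM : SL(2, ℤ))⁻¹ ∈ Γ)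
    (C : parGroup Γ n →* parGroup Γ n)
    (hC : ∀ (φ : parGroup Γ n) (γ : SL(2, ℤ)) (hγ : γ ∈ Γ), (C φ : Γ →* ℂˣ) ⟨γ, hγ⟩ =
      (φ : Γ →* ℂˣ) ⟨(D.deltaA hM : SL(2, ℤ)) * γ * (D.deltaA hM : SL(2, ℤ))⁻¹, hnorm γ hγ⟩)
    (φ : parGroup Γ n) :
    conjChar hG D.σ (conjChar hG D.σ φ) * C φ = conjChar hG D.σ φ * C (conjChar hG D.σ φ) := by
  have hP : (CPlace.ofEquiv Φ).HasCDVRs := ES.hasCDVRs_ofEquiv Φ
  have hΓqM : Gamma (q * M) ≤ Γ := (ES.gamma_le_of_dvd hNM).trans hG.gamma_le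
  have hdm : (D.deltaA hM : SL(2, ℤ)) ∈ Gamma m := Gamma_M_le haux (D.deltaA hM).2
  obtain ⟨v, w, y, hv, hv0, hw, hwinv, hy, hyu⟩ :=
    exists_kummerI haux hM hqm (χ := χ) hG hlam hΓq hNM hP φ
  set T := D.conjI χ haux
  set d := D.diaA χ hM
  obtain ⟨v1, hv1, hv10, hy'⟩ :=
    D.exists_conj_kum haux (D.a_sign haux hM) hG hNM hr h12 φ hv hv0 hw y.2.1.1 hy
  set φ1 := conjChar hG D.σ φ
  obtain ⟨v2, hv2, -, hy''⟩ :=
    D.exists_conj_kum haux (D.a_sign haux hM) hG hNM hr h12 φ1 hv1 hv10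
    (D.conjB haux ⟨w, hw⟩).2 (T y).2.1.1 hy'
  set φ2 := conjChar hG D.σ φ1
  have hw1 := D.act_conjB_of_inv haux hG hNM hw hwinv
  set h : ℍ → ℂ := w * fun τ => v τ / auxW haux τ ^ 2
  set h1 : ℍ → ℂ := (D.conjB haux ⟨w, hw⟩ : ℍ → ℂ) * fun τ => v1 τ / auxW haux τ ^ 2
  set h2 : ℍ → ℂ := (D.conjB haux ⟨_, (D.conjB haux ⟨w, hw⟩).2⟩ : ℍ → ℂ) *
    fun τ => v2 τ / auxW haux τ ^ 2
  have hk : IsKum q M m (φ : Γ →* ℂˣ) h := isKum_form haux hΓqM φ.2.2 hv hw hwinv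
  have hk1 : IsKum q M m (φ1 : Γ →* ℂˣ) h1 :=
    isKum_form haux hΓqM φ1.2.2 hv1 (D.conjB haux ⟨w, hw⟩).2 hw1
  have hk2 : IsKum q M m (φ2 : Γ →* ℂˣ) h2 :=
    isKum_form haux hΓqM φ2.2.2 hv2 (D.conjB haux ⟨_, (D.conjB haux ⟨w, hw⟩).2⟩).2
      (D.act_conjB_of_inv haux hG hNM _ hw1)
  have hkd : IsKum q M m (C φ : Γ →* ℂˣ) (act (D.deltaA hM : SL(2, ℤ)) h) :=
    hk.translate hdm hnorm (hC φ)
  have hkd1 : IsKum q M m (C φ1 : Γ →* ℂˣ) (act (D.deltaA hM : SL(2, ℤ)) h1) :=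
    hk1.translate hdm hnorm (hC φ1)
  set a := CoverGen.twA haux D y (hM := hM)
  set b := CoverGen.twB haux D y (hM := hM)
  have ha : (a : ℍ → ℂ) = (h2 * act (D.deltaA hM : SL(2, ℤ)) h) ^ n := by
    show (T (T y) : ℍ → ℂ) * act (D.deltaA hM : SL(2, ℤ)) (y : ℍ → ℂ) = _
    rw [mul_pow, hy]
    exact congrArg₂ (· * ·) hy'' rfl
  have hb : (b : ℍ → ℂ) = (h1 * act (D.deltaA hM : SL(2, ℤ)) h1) ^ n := by
    show (T y : ℍ → ℂ) * act (D.deltaA hM : SL(2, ℤ)) (T y : ℍ → ℂ) = _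
    rw [mul_pow, show (T y : ℍ → ℂ) = h1 ^ n from hy']
    rfl
  have hyne := ne_zero_of_unitAll hyu
  obtain ⟨hane, hbne⟩ := twA_twB_ne_zero D χ haux hM hyne
  obtain ⟨Z, hZ, f, hf, hf0, hZn, hZf⟩ :=
    exists_root_stable Φ haux hM hqm χ D hDσ hn hyu hk hy (hk2.mul hkd) ha (hk1.mul hkd1) hb
  refine eq_of_kum_root hgen (A := φ2 * C φ) (B := φ1 * C φ1) (hk2.mul hkd) (hk1.mul hkd1) ?_
    hZ hf hf0 hZn hZf
  intro h0
  refine mul_ne_zero hane (pow_ne_zero (n - 1) hbne) (Subtype.ext ?_)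
  show (a : ℍ → ℂ) * (b : ℍ → ℂ) ^ (n - 1) = 0
  rw [ha, hb, ← pow_mul, mul_comm n (n - 1), pow_mul, ← mul_pow, h0, zero_pow (NeZero.ne n)]

end FermatAgent.BAD
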